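import Fermat.Agent.ErdosKac.Mertens
import Mathlib.NumberTheory.EulerProduct.Basic
import Mathlib.NumberTheory.Chebyshev
import Mathlib.Analysis.SpecificLimits.Normed

/-!
# `z ^ ω n` and upper bounds for `∑ r ^ ω n`

`∑_{n ≤ N} r ^ ω n / n = O ((log N) ^ r)` by the Euler product, so
`∑_{n ≤ N} r ^ ω n = O (N (log N) ^ (r - 1))`, both uniformly in bounded `r`.
-/

set_option autoImplicit false

noncomputable section

namespace FA.SatheSelberg

open Finset ArithmeticFunction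
open FA.ErdosKac (primesUpTo recipSum mem_primesUpTo)

/-- `z ^ ω n`. -/
def omegaPow (z : ℂ) (n : ℕ) : ℂ := z ^ n.primeFactors.card

/-- `r ^ ω n`. -/
def omegaSize (r : ℝ) (n : ℕ) : ℝ := r ^ n.primeFactors.card

theorem norm_omegaPow (z : ℂ) (n : ℕ) : ‖omegaPow z n‖ = omegaSize ‖z‖ n := norm_pow _ _

theorem omegaSize_nonneg {r : ℝ} (hr : 0 ≤ r) (n : ℕ) : 0 ≤ omegaSize r n := pow_nonneg hr _

theorem omegaPow_one (z : ℂ) : omegaPow z 1 = 1 := by simp [omegaPow]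

theorem card_primeFactors_mul {a b : ℕ} (h : a.Coprime b) :
    (a * b).primeFactors.card = a.primeFactors.card + b.primeFactors.card := by
  rw [h.primeFactors_mul, card_union_of_disjoint h.disjoint_primeFactors]

theorem omegaPow_mul (z : ℂ) {a b : ℕ} (h : a.Coprime b) :
    omegaPow z (a * b) = omegaPow z a * omegaPow z b := by
  rw [omegaPow, card_primeFactors_mul h, pow_add]
  rfl

/-- Multiplying by a prime power costs at most a factor `R`. -/
theorem omegaSize_mul_le {r R : ℝ} (hr : 0 ≤ r) (hR : 1 ≤ R) (hrR : r ≤ R) {d m : ℕ}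
    (hd : IsPrimePow d) (hm : m ≠ 0) : omegaSize r (d * m) ≤ R * omegaSize r m := by
  obtain ⟨p, k, hp, hk, rfl⟩ := (isPrimePow_nat_iff d).1 hd
  rw [omegaSize, omegaSize, Nat.primeFactors_mul (pow_ne_zero _ hp.ne_zero) hm,
    Nat.primeFactors_prime_pow (by omega) hp]
  by_cases h : p ∈ m.primeFactors
  · rw [union_eq_right.2 (singleton_subset_iff.2 h)]
    exact le_mul_of_one_le_left (pow_nonneg hr _) hR
  · rw [card_union_of_disjoint (disjoint_singleton_left.2 h), card_singleton, pow_add, pow_one]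
    exact mul_le_mul_of_nonneg_right hrR (pow_nonneg hr _)

/-- `1 + log N`. -/
def elog (N : ℕ) : ℝ := 1 + Real.log N

theorem one_le_elog (N : ℕ) : 1 ≤ elog N := by
  rw [elog]
  linarith [Real.log_natCast_nonneg N]

theorem elog_pos (N : ℕ) : 0 < elog N := zero_lt_one.trans_le (one_le_elog N)

theorem elog_mono {M N : ℕ} (hM : 1 ≤ M) (h : M ≤ N) : elog M ≤ elog N := by
  rw [elog, elog]
  linarith [Real.log_le_log (Nat.cast_pos.2 hM) (Nat.cast_le.2 h : (M : ℝ) ≤ N)]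

/-- `(1 + log (N/d)) ^ s ≤ (1 + log N) ^ s (2 + log d)` for `-1 ≤ s`. -/
theorem elog_div_rpow_le {N d : ℕ} {s : ℝ} (hs : -1 ≤ s) (hd : 1 ≤ d) (hdN : d ≤ N) :
    elog (N / d) ^ s ≤ elog N ^ s * (2 + Real.log d) := by
  obtain ⟨q, hq⟩ : ∃ q, q = N / d := ⟨_, rfl⟩
  have hq1 : 1 ≤ q := hq ▸ Nat.div_pos hdN hd
  have hd0 := Real.log_natCast_nonneg d
  have hq0 := Real.log_natCast_nonneg q
  rw [← hq]
  rcases le_or_gt 0 s with h | h
  · refine le_trans ?_ (le_mul_of_one_le_right (Real.rpow_nonneg (elog_pos N).le _) (by linarith))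
    exact Real.rpow_le_rpow (elog_pos q).le (elog_mono hq1 (hq ▸ Nat.div_le_self N d)) h
  have hN : elog N ≤ elog q * (2 + Real.log d) := by
    have h1 : Real.log N ≤ Real.log (2 * q * d : ℕ) := by
      refine Real.log_le_log (Nat.cast_pos.2 (hd.trans hdN)) (Nat.cast_le.2 ?_)
      have := Nat.lt_div_mul_add (a := N) hd
      rw [← hq] at this
      have : q * d + d ≤ 2 * q * d := by nlinarith
      omega
    push_cast at h1
    rw [Real.log_mul (by positivity) (Nat.cast_ne_zero.2 (by omega)),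
      Real.log_mul two_ne_zero (Nat.cast_ne_zero.2 (by omega))] at h1
    have := Real.log_le_sub_one_of_pos (two_pos : (0 : ℝ) < 2)
    rw [elog, elog]
    nlinarith
  rw [show s = -(-s) by ring, Real.rpow_neg (elog_pos q).le, Real.rpow_neg (elog_pos N).le,
    inv_mul_eq_div, le_div_iff₀ (Real.rpow_pos_of_pos (elog_pos N) _),
    inv_mul_le_iff₀ (Real.rpow_pos_of_pos (elog_pos q) _)]
  refine (Real.rpow_le_rpow (elog_pos N).le hN (by linarith)).trans ?_
  rw [Real.mul_rpow (elog_pos q).le (by linarith)]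
  refine mul_le_mul_of_nonneg_left ?_ (Real.rpow_nonneg (elog_pos q).le _)
  exact Real.rpow_le_self_of_one_le (by linarith) (by linarith)

/-- **The Euler product bound.** -/
theorem sum_omegaSize_div_rpow_le {r s : ℝ} (hr : 0 ≤ r) (hs : 1 ≤ s) (N : ℕ) :
    ∑ n ∈ Icc 1 N, omegaSize r n / (n : ℝ) ^ s ≤
      Real.exp (r * ∑ p ∈ primesUpTo N, 1 / ((p : ℝ) ^ s - 1)) := by
  obtain ⟨f, hf⟩ : ∃ f : ℕ → ℝ, f = fun n : ℕ => omegaSize r n / (n : ℝ) ^ s := ⟨_, rfl⟩
  have hf0 : ∀ n, 0 ≤ f n := fun n => hf ▸ div_nonneg (omegaSize_nonneg hr n) (by positivity)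
  have hone : f 1 = 1 := by simp [hf, omegaSize]
  have hmul : ∀ {a b : ℕ}, a.Coprime b → f (a * b) = f a * f b := fun {a b} h => by
    simp only [hf, omegaSize, card_primeFactors_mul h, pow_add, Nat.cast_mul,
      Real.mul_rpow (Nat.cast_nonneg a) (Nat.cast_nonneg b), mul_div_mul_comm]
  have hloc : ∀ {p : ℕ}, p.Prime →
      HasSum (fun k => f (p ^ k)) (1 + r / ((p : ℝ) ^ s - 1)) := fun {p} hp => by
    have hp2 : (2 : ℝ) ≤ p := by exact_mod_cast hp.two_le
    obtain ⟨P, hP⟩ : ∃ P, P = (p : ℝ) ^ s := ⟨_, rfl⟩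
    have hP2 : 2 ≤ P := hP ▸ hp2.trans (Real.self_le_rpow_of_one_le (by linarith) hs)
    have h := ((hasSum_geometric_of_lt_one (inv_nonneg.2 (by linarith : (0 : ℝ) ≤ P))
      (inv_lt_one_of_one_lt₀ (by linarith))).mul_left r).add (hasSum_ite_eq (0 : ℕ) (1 - r))
    rw [← hP]
    have e1 : (fun k => f (p ^ k)) =
        fun k => r * P⁻¹ ^ k + if k = 0 then 1 - r else 0 := funext fun k => by
      rcases Nat.eq_zero_or_pos k with rfl | hk
      · rw [pow_zero, pow_zero, hone, if_pos rfl]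
        ring
      · rw [if_neg (by omega), add_zero, hf, hP]
        simp only [omegaSize, Nat.primeFactors_prime_pow (by omega : k ≠ 0) hp, card_singleton,
          pow_one, Nat.cast_pow]
        rw [inv_pow, ← Real.rpow_natCast (p : ℝ) k, ← Real.rpow_natCast ((p : ℝ) ^ s) k,
          ← Real.rpow_mul (by positivity), ← Real.rpow_mul (by positivity), mul_comm s,
          div_eq_mul_inv]
    have e2 : 1 + r / (P - 1) = r * (1 - P⁻¹)⁻¹ + (1 - r) := by
      have h1 : P - 1 ≠ 0 := by linarith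
      have h2 : P ≠ 0 := by linarith
      field_simp
      ring
    rw [e1, e2]
    exact h
  have hsum : ∀ {p : ℕ}, p.Prime → Summable fun k : ℕ => ‖f (p ^ k)‖ := fun hp => by
    simpa only [Real.norm_eq_abs, abs_of_nonneg (hf0 _)] using (hloc hp).summable
  obtain ⟨-, hs2⟩ := EulerProduct.summable_and_hasSum_factoredNumbers_prod_filter_prime_tsum
    hone hmul hsum (primesUpTo N)
  have hle : ∑ n ∈ Icc 1 N, f n ≤ ∑' m : Nat.factoredNumbers (primesUpTo N), f m := by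
    have hmem : ∀ n ∈ Icc 1 N, n ∈ Nat.factoredNumbers (primesUpTo N) := fun n hn => by
      rw [mem_Icc] at hn
      exact Nat.mem_factoredNumbers'.2 fun p hp hpn =>
        mem_primesUpTo.2 ⟨hp, (Nat.le_of_dvd hn.1 hpn).trans hn.2⟩
    rw [← sum_subtype_of_mem (p := (· ∈ Nat.factoredNumbers (primesUpTo N))) (fun n => f n) hmem]
    exact hs2.summable.sum_le_tsum _ fun m _ => hf0 _
  rw [hs2.tsum_eq, filter_true_of_mem fun p hp => (mem_primesUpTo.1 hp).1] at hle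
  refine le_trans (le_of_eq (sum_congr rfl fun n _ => by rw [hf])) (hle.trans ?_)
  rw [mul_sum, Real.exp_sum]
  refine prod_le_prod (fun p hp => tsum_nonneg fun k => hf0 _) fun p hp => ?_
  rw [(hloc (mem_primesUpTo.1 hp).1).tsum_eq, mul_one_div, add_comm]
  exact Real.add_one_le_exp _

theorem exists_sum_inv_pred_le : ∃ C : ℝ, ∀ N : ℕ, 1 ≤ N →
    ∑ p ∈ primesUpTo N, 1 / ((p : ℝ) - 1) ≤ Real.log (elog N) + C := by
  obtain ⟨C, hC⟩ := FA.ErdosKac.exists_abs_recipSum_sub_le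
  obtain ⟨S, hS⟩ : ∃ S : ℝ, S = 2 * ∑' n : ℕ, 1 / (n : ℝ) ^ 2 := ⟨_, rfl⟩
  have hS0 : 0 ≤ S := hS ▸ mul_nonneg two_pos.le (tsum_nonneg fun n => by positivity)
  refine ⟨|C| + S, fun N hN => ?_⟩
  have h1 : ∑ p ∈ primesUpTo N, 1 / ((p : ℝ) - 1) ≤ recipSum N + S := by
    refine (sum_le_sum (g := fun p : ℕ => (p : ℝ)⁻¹ + 2 * (1 / (p : ℝ) ^ 2)) fun p hp => ?_).trans
      ?_
    · have hp2 : (2 : ℝ) ≤ p := by exact_mod_cast (mem_primesUpTo.1 hp).1.two_le
      have h1 : (p : ℝ) - 1 ≠ 0 := by linarith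
      rw [show (p : ℝ)⁻¹ + 2 * (1 / (p : ℝ) ^ 2) = ((p : ℝ) + 2) / (p : ℝ) ^ 2 by field_simp,
        div_le_div_iff₀ (by linarith) (by positivity)]
      nlinarith
    · rw [sum_add_distrib, ← mul_sum, hS]
      exact add_le_add le_rfl (mul_le_mul_of_nonneg_left
        ((Real.summable_one_div_nat_pow.2 one_lt_two).sum_le_tsum _ fun n _ => by positivity)
        two_pos.le)
  rcases (show N = 1 ∨ 2 ≤ N by omega) with rfl | hN2
  · have : primesUpTo 1 = ∅ := eq_empty_of_forall_notMem fun p hp => by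
      have := (mem_primesUpTo.1 hp).1.two_le
      have := (mem_primesUpTo.1 hp).2
      omega
    rw [this, sum_empty, elog, Nat.cast_one, Real.log_one, add_zero, Real.log_one]
    linarith [abs_nonneg C]
  · have h2 := (abs_le.1 (hC N hN2)).2
    have h3 : Real.log (Real.log N) ≤ Real.log (elog N) :=
      Real.log_le_log (Real.log_pos (Nat.one_lt_cast.2 hN2)) (by rw [elog]; linarith)
    linarith [le_abs_self C]

/-- `∑_{n ≤ N} g n / n` for `g = r ^ ω`. -/
def omegaRecip (r : ℝ) (N : ℕ) : ℝ := ∑ n ∈ Icc 1 N, omegaSize r n / n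

/-- `∑_{n ≤ N} g n` for `g = r ^ ω`. -/
def omegaTotal (r : ℝ) (N : ℕ) : ℝ := ∑ n ∈ Icc 1 N, omegaSize r n

theorem omegaRecip_nonneg {r : ℝ} (hr : 0 ≤ r) (N : ℕ) : 0 ≤ omegaRecip r N :=
  sum_nonneg fun n _ => div_nonneg (omegaSize_nonneg hr n) (Nat.cast_nonneg n)

theorem omegaTotal_nonneg {r : ℝ} (hr : 0 ≤ r) (N : ℕ) : 0 ≤ omegaTotal r N :=
  sum_nonneg fun n _ => omegaSize_nonneg hr n

theorem omegaRecip_mono {r : ℝ} (hr : 0 ≤ r) {M N : ℕ} (h : M ≤ N) :
    omegaRecip r M ≤ omegaRecip r N :=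
  sum_le_sum_of_subset_of_nonneg (Icc_subset_Icc_right h) fun n _ _ =>
    div_nonneg (omegaSize_nonneg hr n) (Nat.cast_nonneg n)

/-- **`∑ r ^ ω n / n = O ((log N) ^ r)`.** -/
theorem exists_omegaRecip_le (R : ℝ) : ∃ C : ℝ, 0 < C ∧ ∀ r : ℝ, 0 ≤ r → r ≤ R → ∀ N : ℕ,
    1 ≤ N → omegaRecip r N ≤ C * elog N ^ r := by
  obtain ⟨C, hC⟩ := exists_sum_inv_pred_le
  refine ⟨Real.exp (R * |C|), Real.exp_pos _, fun r hr hrR N hN => ?_⟩
  have h := sum_omegaSize_div_rpow_le hr le_rfl N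
  simp only [Real.rpow_one] at h
  refine h.trans ?_
  rw [Real.rpow_def_of_pos (elog_pos N), ← Real.exp_add, Real.exp_le_exp]
  refine (mul_le_mul_of_nonneg_left (hC N hN) hr).trans ?_
  have h1 := mul_le_mul hrR (le_abs_self C)
  rcases le_or_gt 0 C with hC0 | hC0
  · linarith [h1 hC0 (hr.trans hrR)]
  · linarith [mul_nonpos_of_nonneg_of_nonpos hr hC0.le, mul_nonneg (hr.trans hrR) (abs_nonneg C)]

theorem sum_vonMangoldt_le_six (N : ℕ) : ∑ d ∈ Icc 1 N, Λ d ≤ 6 * N := by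
  have h := Chebyshev.psi_le_const_mul_self (Nat.cast_nonneg (α := ℝ) N)
  rw [Chebyshev.psi, Nat.floor_natCast] at h
  refine h.trans (mul_le_mul_of_nonneg_right ?_ (Nat.cast_nonneg N))
  rw [show (4 : ℝ) = 2 ^ 2 by norm_num, Real.log_pow]
  have := Real.log_le_sub_one_of_pos (two_pos : (0 : ℝ) < 2)
  push_cast
  norm_num
  linarith

/-- `f n log n`, summed: `log n = ∑_{d ∣ n} Λ d`. -/
theorem sum_mul_log_eq {M : Type*} [AddCommGroup M] [Module ℝ M] (f : ℕ → M) (N : ℕ) :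
    ∑ n ∈ Icc 1 N, Real.log n • f n =
      ∑ d ∈ Icc 1 N, ∑ m ∈ Icc 1 (N / d), Λ d • f (d * m) := by
  classical
  have h1 : ∀ n ∈ Icc 1 N, Real.log n • f n = ∑ d ∈ n.divisors, Λ d • f n := fun n _ => by
    rw [← sum_smul, vonMangoldt_sum]
  rw [sum_congr rfl h1, sum_sigma', sum_sigma']
  refine sum_nbij' (fun x => ⟨x.2, x.1 / x.2⟩) (fun y => ⟨y.1 * y.2, y.1⟩) ?_ ?_ ?_ ?_ ?_
  · rintro ⟨n, d⟩ hx
    simp only [mem_sigma, mem_Icc, Nat.mem_divisors] at hx ⊢
    obtain ⟨⟨h1, h2⟩, h3, -⟩ := hx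
    have he : 1 ≤ d := Nat.pos_of_dvd_of_pos h3 h1
    exact ⟨⟨he, (Nat.le_of_dvd h1 h3).trans h2⟩, Nat.div_pos (Nat.le_of_dvd h1 h3) he,
      Nat.div_le_div_right h2⟩
  · rintro ⟨d, m⟩ hx
    simp only [mem_sigma, mem_Icc, Nat.mem_divisors] at hx ⊢
    obtain ⟨⟨h1, -⟩, h3, h4⟩ := hx
    refine ⟨⟨Nat.mul_pos h1 h3, ?_⟩, dvd_mul_right d m, (Nat.mul_pos h1 h3).ne'⟩
    rw [mul_comm]
    exact (Nat.le_div_iff_mul_le h1).1 h4
  · rintro ⟨n, d⟩ hx
    simp only [mem_sigma, Nat.mem_divisors] at hx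
    simp only [Nat.mul_div_cancel' hx.2.1]
  · rintro ⟨d, m⟩ hx
    simp only [mem_sigma, mem_Icc] at hx
    simp only [Nat.mul_div_cancel_left m hx.1.1]
  · rintro ⟨n, d⟩ hx
    simp only [mem_sigma, Nat.mem_divisors] at hx
    simp only [Nat.mul_div_cancel' hx.2.1]

/-- Exchanging the two factors of a hyperbolic sum. -/
theorem sum_Icc_div_comm {M : Type*} [AddCommMonoid M] (N : ℕ) (F : ℕ → ℕ → M) :
    ∑ d ∈ Icc 1 N, ∑ m ∈ Icc 1 (N / d), F d m = ∑ m ∈ Icc 1 N, ∑ d ∈ Icc 1 (N / m), F d m := by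
  refine sum_comm' fun d m => ?_
  simp only [mem_Icc]
  constructor
  · rintro ⟨⟨h1, -⟩, h3, h4⟩
    have h5 := (Nat.le_div_iff_mul_le h1).1 h4
    refine ⟨⟨h1, (Nat.le_div_iff_mul_le h3).2 (by rwa [mul_comm])⟩, h3, ?_⟩
    exact le_trans (Nat.le_mul_of_pos_right m h1) h5
  · rintro ⟨⟨h1, h2⟩, h3, -⟩
    have h5 := (Nat.le_div_iff_mul_le h3).1 h2
    refine ⟨⟨h1, le_trans (Nat.le_mul_of_pos_right d h3) h5⟩, h3, ?_⟩
    exact (Nat.le_div_iff_mul_le h1).2 (by rwa [mul_comm])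

/-- **`∑ r ^ ω n = O (N (log N) ^ (r - 1))`.** -/
theorem exists_omegaTotal_le (R : ℝ) (hR : 1 ≤ R) : ∃ C : ℝ, 0 < C ∧ ∀ r : ℝ, 0 ≤ r → r ≤ R →
    ∀ N : ℕ, 1 ≤ N → omegaTotal r N ≤ C * N * elog N ^ (r - 1) := by
  obtain ⟨C, hC, hB⟩ := exists_omegaRecip_le R
  refine ⟨(2 + 6 * R) * C, by positivity, fun r hr hrR N hN => ?_⟩
  have hg := omegaSize_nonneg hr
  have hN0 : (0 : ℝ) < N := Nat.cast_pos.2 hN
  have hNB : ∀ n ∈ Icc 1 N, omegaSize r n ≤ (N : ℝ) * (omegaSize r n / n) := fun n hn => by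
    rw [mem_Icc] at hn
    have hn0 : (0 : ℝ) < n := Nat.cast_pos.2 hn.1
    rw [mul_div_assoc', le_div_iff₀ hn0, mul_comm (N : ℝ)]
    exact mul_le_mul_of_nonneg_left (Nat.cast_le.2 hn.2) (hg n)
  have h1 : omegaTotal r N ≤ N * omegaRecip r N := by
    rw [omegaRecip, mul_sum]
    exact sum_le_sum hNB
  have h2 : omegaTotal r N * Real.log N ≤ (1 + 6 * R) * (N * omegaRecip r N) := by
    have hsplit : omegaTotal r N * Real.log N = ∑ n ∈ Icc 1 N,
        omegaSize r n * (Real.log N - Real.log n) + ∑ n ∈ Icc 1 N, Real.log n • omegaSize r n := by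
      rw [omegaTotal, sum_mul, ← sum_add_distrib]
      exact sum_congr rfl fun n _ => by rw [smul_eq_mul]; ring
    have ha : ∑ n ∈ Icc 1 N, omegaSize r n * (Real.log N - Real.log n) ≤ N * omegaRecip r N := by
      rw [omegaRecip, mul_sum]
      refine sum_le_sum fun n hn => ?_
      rw [mem_Icc] at hn
      have hn0 : (0 : ℝ) < n := Nat.cast_pos.2 hn.1
      rw [← Real.log_div hN0.ne' hn0.ne',
        show (N : ℝ) * (omegaSize r n / n) = omegaSize r n * ((N : ℝ) / n) by ring]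
      exact mul_le_mul_of_nonneg_left (Real.log_le_self (by positivity)) (hg n)
    have hb : ∑ n ∈ Icc 1 N, Real.log n • omegaSize r n ≤ 6 * R * (N * omegaRecip r N) := by
      rw [sum_mul_log_eq (fun n => omegaSize r n) N]
      refine (sum_le_sum (g := fun d => ∑ m ∈ Icc 1 (N / d), Λ d * (R * omegaSize r m))
        fun d _ => sum_le_sum fun m hm => ?_).trans ?_
      · rw [smul_eq_mul]
        by_cases hd : IsPrimePow d
        · exact mul_le_mul_of_nonneg_left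
            (omegaSize_mul_le hr hR hrR hd (by rw [mem_Icc] at hm; omega)) vonMangoldt_nonneg
        · rw [vonMangoldt_eq_zero_iff.2 hd, zero_mul, zero_mul]
      rw [sum_Icc_div_comm, omegaRecip, mul_sum, mul_sum]
      refine sum_le_sum fun m hm => ?_
      rw [← sum_mul]
      refine (mul_le_mul_of_nonneg_right ((sum_vonMangoldt_le_six _).trans
        (mul_le_mul_of_nonneg_left Nat.cast_div_le (by norm_num)))
          (mul_nonneg (by linarith) (hg m))).trans (le_of_eq ?_)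
      ring
    linarith
  have h3 : omegaTotal r N * elog N ≤ (2 + 6 * R) * C * N * elog N ^ r := by
    have := mul_le_mul_of_nonneg_left (hB r hr hrR N hN) hN0.le
    have := mul_le_mul_of_nonneg_left this (show (0 : ℝ) ≤ 2 + 6 * R by linarith)
    rw [elog] at this ⊢
    linarith
  rw [Real.rpow_sub_one (elog_pos N).ne', mul_div_assoc', le_div_iff₀ (elog_pos N)]
  exact h3

/-- **Dyadic weights against `r ^ ω`.** -/
theorem exists_weighted_le (R : ℝ) (hR : 1 ≤ R) (b : ℕ → ℝ) (hb : ∀ i, 0 ≤ b i)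
    (hbs : Summable fun i : ℕ => b i * ((i : ℝ) + 2) / 2 ^ i) :
    ∃ C : ℝ, 0 < C ∧ ∀ r : ℝ, 0 ≤ r → r ≤ R → ∀ N : ℕ, 1 ≤ N →
      ∑ m ∈ Icc 1 N, omegaSize r m * b (Nat.log 2 (N / m)) ≤ C * N * elog N ^ (r - 1) := by
  obtain ⟨C, hC, hA⟩ := exists_omegaTotal_le R hR
  obtain ⟨S, hS⟩ : ∃ S : ℝ, S = ∑' i : ℕ, b i * ((i : ℝ) + 2) / 2 ^ i := ⟨_, rfl⟩
  have hS0 : 0 ≤ S := hS ▸ tsum_nonneg fun i => div_nonneg (mul_nonneg (hb i) (by positivity))
    (by positivity)
  refine ⟨C * (S + 1), by positivity, fun r hr hrR N hN => ?_⟩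
  have hg := omegaSize_nonneg hr
  have hEnn : 0 ≤ C * N * elog N ^ (r - 1) := mul_nonneg (mul_nonneg hC.le (Nat.cast_nonneg N))
    (Real.rpow_nonneg (elog_pos N).le _)
  have hmaps : ∀ m ∈ Icc 1 N, Nat.log 2 (N / m) ∈ range (N + 1) := fun m _ =>
    mem_range.2 (Nat.lt_succ_of_le ((Nat.log_le_self 2 _).trans (Nat.div_le_self N m)))
  rw [← sum_fiberwise_of_maps_to hmaps]
  refine (sum_le_sum (g := fun i : ℕ =>
    C * N * elog N ^ (r - 1) * (b i * ((i : ℝ) + 2) / 2 ^ i)) fun i _ => ?_).trans ?_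
  · rw [sum_congr rfl fun m hm => by rw [(mem_filter.1 hm).2], ← sum_mul]
    have hsub : (Icc 1 N).filter (fun m => Nat.log 2 (N / m) = i) ⊆ Icc 1 (N / 2 ^ i) := by
      intro m hm
      rw [mem_filter, mem_Icc] at hm
      rw [mem_Icc]
      refine ⟨hm.1.1, (Nat.le_div_iff_mul_le (by positivity)).2 ?_⟩
      have h := Nat.pow_log_le_self 2 (show N / m ≠ 0 from (Nat.div_pos hm.1.2 hm.1.1).ne')
      rw [hm.2] at h
      rw [mul_comm]
      exact (Nat.mul_le_mul_right m h).trans (Nat.div_mul_le_self N m)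
    rcases Nat.lt_or_ge N (2 ^ i) with hlt | hge
    · have hemp : (Icc 1 N).filter (fun m => Nat.log 2 (N / m) = i) = ∅ :=
        subset_empty.1 (hsub.trans (by rw [Nat.div_eq_of_lt hlt, Icc_eq_empty (by omega)]))
      rw [hemp, sum_empty, zero_mul]
      exact mul_nonneg hEnn (div_nonneg (mul_nonneg (hb i) (by positivity)) (by positivity))
    refine (mul_le_mul_of_nonneg_right ((sum_le_sum_of_subset_of_nonneg hsub fun m _ _ =>
      hg m).trans (hA r hr hrR _ (Nat.div_pos hge (by positivity)))) (hb i)).trans ?_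
    have h1 := elog_div_rpow_le (s := r - 1) (by linarith) Nat.one_le_two_pow hge
    have h2 : 2 + Real.log ((2 ^ i : ℕ) : ℝ) ≤ (i : ℝ) + 2 := by
      rw [Nat.cast_pow, Real.log_pow, Nat.cast_ofNat]
      have := Real.log_le_sub_one_of_pos (two_pos : (0 : ℝ) < 2)
      have := mul_le_mul_of_nonneg_left (show Real.log 2 ≤ 1 by linarith)
        (Nat.cast_nonneg (α := ℝ) i)
      linarith
    have h3 : ((N / 2 ^ i : ℕ) : ℝ) ≤ (N : ℝ) / 2 ^ i :=
      Nat.cast_div_le.trans_eq (by push_cast; rfl)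
    have hE := Real.rpow_nonneg (elog_pos N).le (r - 1)
    calc C * ((N / 2 ^ i : ℕ) : ℝ) * elog (N / 2 ^ i) ^ (r - 1) * b i
        ≤ C * ((N : ℝ) / 2 ^ i) * (elog N ^ (r - 1) * ((i : ℝ) + 2)) * b i := by
          refine mul_le_mul_of_nonneg_right (mul_le_mul (mul_le_mul_of_nonneg_left h3 hC.le)
            (h1.trans (mul_le_mul_of_nonneg_left h2 hE)) (Real.rpow_nonneg (elog_pos _).le _)
            (by positivity)) (hb i)
      _ = _ := by ring
  · rw [← mul_sum]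
    refine (mul_le_mul_of_nonneg_left (hbs.sum_le_tsum _ fun i _ =>
      div_nonneg (mul_nonneg (hb i) (by positivity)) (by positivity)) hEnn).trans ?_
    rw [← hS]
    have : 0 ≤ C * N * elog N ^ (r - 1) := hEnn
    linarith

/-- `Λ`, away from the primes. -/
def highLam (d : ℕ) : ℝ := if d.Prime then 0 else Λ d

theorem highLam_nonneg (d : ℕ) : 0 ≤ highLam d := by
  unfold highLam
  split_ifs
  exacts [le_rfl, vonMangoldt_nonneg]

theorem sum_highLam_le {N : ℕ} (hN : 1 ≤ N) :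
    ∑ d ∈ Icc 1 N, highLam d ≤ 2 * √(N : ℝ) * Real.log N := by
  have h := Chebyshev.psi_sub_theta_le (x := (N : ℝ)) (by exact_mod_cast hN)
  rw [Chebyshev.psi_sub_theta_eq_sum_not_prime, Nat.floor_natCast, sum_filter] at h
  refine le_trans (le_of_eq (sum_congr rfl fun d _ => ?_)) h
  unfold highLam
  by_cases hd : d.Prime
  · rw [if_pos hd, if_neg (not_not.2 hd)]
  · rw [if_neg hd, if_pos hd]

/-- **The proper prime powers are few.** -/
theorem exists_sum_highLam_div_le : ∃ C : ℝ, 0 < C ∧ ∀ N : ℕ,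
    ∑ d ∈ Icc 1 N, highLam d * (2 + Real.log d) / d ≤ C := by
  have hs : Summable fun i : ℕ => ((i : ℝ) + 2) ^ 2 * (3 / 4 : ℝ) ^ i := by
    have h0 : ‖(3 / 4 : ℝ)‖ < 1 := by norm_num
    have := ((summable_pow_mul_geometric_of_norm_lt_one 2 h0).add
      ((summable_pow_mul_geometric_of_norm_lt_one 1 h0).mul_left 4)).add
      ((summable_geometric_of_norm_lt_one h0).mul_left 4)
    exact this.congr fun i => by ring
  obtain ⟨S, hS⟩ : ∃ S : ℝ, S = ∑' i : ℕ, ((i : ℝ) + 2) ^ 2 * (3 / 4 : ℝ) ^ i := ⟨_, rfl⟩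
  have hS0 : 0 ≤ S := hS ▸ tsum_nonneg fun i => by positivity
  refine ⟨6 * (S + 1), by positivity, fun N => ?_⟩
  have hmaps : ∀ d ∈ Icc 1 N, Nat.log 2 d ∈ range (N + 1) := fun d hd =>
    mem_range.2 (Nat.lt_succ_of_le ((Nat.log_le_self 2 _).trans (mem_Icc.1 hd).2))
  rw [← sum_fiberwise_of_maps_to hmaps]
  refine (sum_le_sum (g := fun i : ℕ => 6 * (((i : ℝ) + 2) ^ 2 * (3 / 4 : ℝ) ^ i))
    fun i _ => ?_).trans ?_
  · have hpow : (0 : ℝ) < 2 ^ i := by positivity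
    refine (sum_le_sum (g := fun d => highLam d * (((i : ℝ) + 3) / 2 ^ i)) fun d hd => ?_).trans ?_
    · rw [mem_filter, mem_Icc] at hd
      rw [mul_div_assoc]
      refine mul_le_mul_of_nonneg_left ?_ (highLam_nonneg d)
      have hd1 : (2 : ℝ) ^ i ≤ d := by
        have := Nat.pow_log_le_self 2 (show d ≠ 0 by omega)
        rw [hd.2] at this
        exact_mod_cast this
      have hd2 : Real.log d ≤ (i : ℝ) + 1 := by
        have := Nat.lt_pow_succ_log_self one_lt_two d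
        rw [hd.2] at this
        refine (Real.log_le_log (Nat.cast_pos.2 hd.1.1)
          (Nat.cast_le.2 this.le)).trans ?_
        rw [Nat.cast_pow, Real.log_pow, Nat.cast_ofNat, Nat.cast_succ]
        have := Real.log_le_sub_one_of_pos (two_pos : (0 : ℝ) < 2)
        exact mul_le_of_le_one_right (by positivity) (by linarith)
      exact div_le_div₀ (by positivity) (by linarith) hpow hd1
    rw [← sum_mul]
    have hsub : (Icc 1 N).filter (fun d => Nat.log 2 d = i) ⊆ Icc 1 (2 ^ (i + 1)) := fun d hd => by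
      rw [mem_filter, mem_Icc] at hd
      rw [mem_Icc]
      exact ⟨hd.1.1, hd.2 ▸ (Nat.lt_pow_succ_log_self one_lt_two d).le⟩
    refine (mul_le_mul_of_nonneg_right ((sum_le_sum_of_subset_of_nonneg hsub fun d _ _ =>
      highLam_nonneg d).trans (sum_highLam_le Nat.one_le_two_pow)) (by positivity)).trans ?_
    rw [Nat.cast_pow, Real.log_pow, Nat.cast_ofNat]
    have hl := Real.log_le_sub_one_of_pos (two_pos : (0 : ℝ) < 2)
    have hsq : √((2 : ℝ) ^ (i + 1)) ≤ 2 * (3 / 2 : ℝ) ^ i := by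
      rw [Real.sqrt_le_left (by positivity), mul_pow, ← pow_mul, mul_comm i 2, pow_mul,
        pow_succ, mul_comm ((2 : ℝ) ^ i)]
      calc 2 * (2 : ℝ) ^ i ≤ 4 * 2 ^ i := by linarith
        _ ≤ 2 ^ 2 * ((3 / 2 : ℝ) ^ 2) ^ i := by
            gcongr
            · norm_num
            · norm_num
    have hlog0 : 0 ≤ Real.log 2 := Real.log_nonneg one_le_two
    calc 2 * √((2 : ℝ) ^ (i + 1)) * (((i + 1 : ℕ) : ℝ) * Real.log 2) * (((i : ℝ) + 3) / 2 ^ i)
        ≤ 2 * (2 * (3 / 2 : ℝ) ^ i) * (((i : ℝ) + 2) * 1) *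
            ((3 / 2 * ((i : ℝ) + 2)) / 2 ^ i) := by
          push_cast
          gcongr <;> linarith
      _ = 6 * (((i : ℝ) + 2) ^ 2 * ((3 / 2 : ℝ) ^ i / 2 ^ i)) := by ring
      _ = _ := by rw [← div_pow]; norm_num
  · rw [← mul_sum]
    refine mul_le_mul_of_nonneg_left ((hs.sum_le_tsum _ fun i _ => by positivity).trans ?_)
      (by norm_num)
    rw [← hS]
    linarith

end FA.SatheSelberg

end
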