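import Fermat.Agent.SatheSelberg.Identities
import Mathlib.Analysis.SpecialFunctions.Pow.Deriv

/-!
# The logarithmic mean of `z ^ ω n`

`S log N = (1 + z) T + O ((log N) ^ r)` and `T' = S` give `S = c (log N) ^ z + o (...)` when
`re z` is near `r = |z|`, and `S = O ((log N) ^ (r - 1/4))` otherwise.
-/

set_option autoImplicit false

noncomputable section

namespace FA.SatheSelberg

open Finset Filter
open scoped Topology

theorem omegaLogMean_succ (z : ℂ) (N : ℕ) : omegaLogMean z (N + 1) - omegaLogMean z N =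
    omegaMean z N * ((Real.log (N + 1 : ℕ) - Real.log N : ℝ) : ℂ) := by
  rw [omegaLogMean, sum_Icc_succ_top (by omega), sub_self, Complex.ofReal_zero, mul_zero, add_zero,
    omegaLogMean, omegaMean, sum_mul, ← sum_sub_distrib]
  refine sum_congr rfl fun n _ => ?_
  push_cast
  ring

theorem log_succ_bounds {N : ℕ} (hN : 1 ≤ N) :
    0 ≤ Real.log (N + 1 : ℕ) - Real.log N ∧ Real.log (N + 1 : ℕ) - Real.log N ≤ 1 / N := by
  have hN0 : (0 : ℝ) < N := Nat.cast_pos.2 hN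
  refine ⟨sub_nonneg.2 (Real.log_le_log hN0 (Nat.cast_le.2 (Nat.le_succ N))), ?_⟩
  rw [← Real.log_div (by positivity) hN0.ne']
  refine (Real.log_le_sub_one_of_pos (by positivity)).trans (le_of_eq ?_)
  push_cast
  field_simp
  ring

theorem one_le_log_natCast {N : ℕ} (hN : 3 ≤ N) : 1 ≤ Real.log N := by
  rw [Real.le_log_iff_exp_le (Nat.cast_pos.2 (by omega))]
  have : (3 : ℝ) ≤ N := by exact_mod_cast hN
  linarith [Real.exp_one_lt_d9]

/-- `(1 + u) ^ (-w)` to second order, for `0 ≤ u ≤ 1`. -/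
theorem norm_cpow_step_le {w : ℂ} {W : ℝ} (hW : ‖w‖ ≤ W) {L d : ℝ} (hL : 0 < L) (hd : 0 ≤ d)
    (hdL : d ≤ L) :
    ‖((L + d : ℝ) : ℂ) ^ (-w) - (L : ℂ) ^ (-w)‖ ≤
        2 * Real.exp W * W * (d / L) * L ^ (-w.re) ∧
      ‖((L + d : ℝ) : ℂ) ^ (-w) - (L : ℂ) ^ (-w) + (L : ℂ) ^ (-w) * (w * ((d / L : ℝ) : ℂ))‖ ≤
        2 * Real.exp W * (W + W ^ 2) * (d / L) ^ 2 * L ^ (-w.re) := by
  obtain ⟨u, hu⟩ : ∃ u, u = d / L := ⟨_, rfl⟩
  have hu0 : 0 ≤ u := hu ▸ div_nonneg hd hL.le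
  have hu1 : u ≤ 1 := hu ▸ (div_le_one hL).2 hdL
  rw [← hu]
  obtain ⟨l, hl⟩ : ∃ l, l = Real.log (1 + u) := ⟨_, rfl⟩
  have hl0 : 0 ≤ l := hl ▸ Real.log_nonneg (by linarith)
  have hlu : l ≤ u := by
    rw [hl]
    linarith [Real.log_le_sub_one_of_pos (show (0 : ℝ) < 1 + u by linarith)]
  have hlu2 : u - l ≤ u ^ 2 := by
    have h := Real.le_log_one_add_of_nonneg hu0
    rw [← hl] at h
    have h2 : u - u ^ 2 ≤ 2 * u / (u + 2) := by
      rw [le_div_iff₀ (by linarith)]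
      nlinarith [mul_nonneg hu0 (sq_nonneg u)]
    linarith
  obtain ⟨v, hv⟩ : ∃ v : ℂ, v = -w * (l : ℂ) := ⟨_, rfl⟩
  have hpow : ((L + d : ℝ) : ℂ) ^ (-w) = (L : ℂ) ^ (-w) * Complex.exp v := by
    have e : L + d = L * (1 + u) := by rw [hu]; field_simp
    have h1 : ((1 + u : ℝ) : ℂ) ≠ 0 := Complex.ofReal_ne_zero.2 (by linarith)
    rw [e, Complex.ofReal_mul, Complex.mul_cpow_ofReal_nonneg hL.le (by linarith),
      Complex.cpow_def_of_ne_zero h1, ← Complex.ofReal_log (by linarith), ← hl, hv,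
      mul_comm (l : ℂ)]
  have hW0 : 0 ≤ W := (norm_nonneg w).trans hW
  have hvn : ‖v‖ ≤ W * u := by
    rw [hv, norm_mul, norm_neg, Complex.norm_real, Real.norm_eq_abs, abs_of_nonneg hl0]
    exact mul_le_mul hW hlu hl0 hW0
  have hvW : ‖v‖ ≤ W := hvn.trans (mul_le_of_le_one_right hW0 hu1)
  have hexp1 : ‖Complex.exp v - 1‖ ≤ 2 * Real.exp W * W * u := by
    have h := Complex.norm_exp_sub_sum_le_norm_mul_exp v 1
    rw [sum_range_one, pow_zero, Nat.factorial_zero, Nat.cast_one, div_one, pow_one] at h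
    refine h.trans ?_
    have h3 := mul_le_mul hvn (Real.exp_le_exp.2 hvW) (Real.exp_pos _).le (mul_nonneg hW0 hu0)
    have : 0 ≤ W * u * Real.exp W := mul_nonneg (mul_nonneg hW0 hu0) (Real.exp_pos W).le
    linarith
  have hexp2 : ‖Complex.exp v - 1 + w * (u : ℂ)‖ ≤ 2 * Real.exp W * (W + W ^ 2) * u ^ 2 := by
    have h := Complex.norm_exp_sub_sum_le_norm_mul_exp v 2
    simp only [sum_range_succ, sum_range_zero, zero_add, pow_zero, pow_one, Nat.factorial_zero,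
      Nat.factorial_one, Nat.cast_one, div_one] at h
    rw [show Complex.exp v - 1 + w * (u : ℂ) =
      (Complex.exp v - (1 + v)) + w * ((u - l : ℝ) : ℂ) by rw [hv]; push_cast; ring]
    refine (norm_add_le _ _).trans ((add_le_add h (le_refl _)).trans ?_)
    rw [norm_mul, Complex.norm_real, Real.norm_eq_abs, abs_of_nonneg (by linarith)]
    have h1 := mul_le_mul hW hlu2 (by linarith) hW0
    have h2 := mul_le_mul (pow_le_pow_left₀ (norm_nonneg v) hvn 2) (Real.exp_le_exp.2 hvW)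
      (Real.exp_pos _).le (by positivity)
    have he := Real.one_le_exp hW0
    have h3 : W * u ^ 2 ≤ Real.exp W * (W * u ^ 2) := le_mul_of_one_le_left (by positivity) he
    have : 0 ≤ Real.exp W * (W * u ^ 2) := by positivity
    have : 0 ≤ Real.exp W * (W ^ 2 * u ^ 2) := by positivity
    linarith
  have hnorm : ‖(L : ℂ) ^ (-w)‖ = L ^ (-w.re) := by
    rw [Complex.norm_cpow_eq_rpow_re_of_pos hL, Complex.neg_re]
  have hLw : 0 ≤ L ^ (-w.re) := Real.rpow_nonneg hL.le _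
  refine ⟨?_, ?_⟩
  · rw [hpow, show (L : ℂ) ^ (-w) * Complex.exp v - (L : ℂ) ^ (-w) =
      (L : ℂ) ^ (-w) * (Complex.exp v - 1) by ring, norm_mul, hnorm, mul_comm]
    exact mul_le_mul_of_nonneg_right hexp1 hLw
  · rw [hpow, show (L : ℂ) ^ (-w) * Complex.exp v - (L : ℂ) ^ (-w) +
      (L : ℂ) ^ (-w) * (w * (u : ℂ)) = (L : ℂ) ^ (-w) * (Complex.exp v - 1 + w * (u : ℂ)) by ring,
      norm_mul, hnorm, mul_comm]
    exact mul_le_mul_of_nonneg_right hexp2 hLw

/-- The increments of a power, from below. -/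
theorem rpow_step_ge {a L d : ℝ} (ha : 1 / 4 ≤ a) (hL : 0 < L) (hd : 0 ≤ d) (hdL : d ≤ L) :
    L ^ (a - 1) * d ≤ 8 * ((L + d) ^ a - L ^ a) := by
  obtain ⟨u, hu⟩ : ∃ u, u = d / L := ⟨_, rfl⟩
  have hu0 : 0 ≤ u := hu ▸ div_nonneg hd hL.le
  have hu1 : u ≤ 1 := hu ▸ (div_le_one hL).2 hdL
  have hLd : L + d = L * (1 + u) := by rw [hu]; field_simp
  have hlog : u / 2 ≤ Real.log (1 + u) := by
    refine le_trans ?_ (Real.le_log_one_add_of_nonneg hu0)
    rw [le_div_iff₀ (by linarith)]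
    nlinarith
  have hone : 1 + u / 8 ≤ (1 + u) ^ a := by
    rw [Real.rpow_def_of_pos (by linarith)]
    refine le_trans ?_ (Real.add_one_le_exp _)
    nlinarith [mul_le_mul hlog ha (by norm_num) (Real.log_nonneg (by linarith : 1 ≤ 1 + u))]
  rw [hLd, Real.mul_rpow hL.le (by linarith), Real.rpow_sub_one hL.ne',
    show L ^ a / L * d = L ^ a * u by rw [hu]; ring]
  nlinarith [mul_le_mul_of_nonneg_left hone (Real.rpow_nonneg hL.le a)]

theorem inv_sqrt_step_ge {L d : ℝ} (hL : 0 < L) (hd : 0 ≤ d) (hdL : d ≤ L) :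
    L ^ (-(3 / 2) : ℝ) * d ≤ 8 * ((√L)⁻¹ - (√(L + d))⁻¹) := by
  obtain ⟨a, ha⟩ : ∃ a, a = √L := ⟨_, rfl⟩
  obtain ⟨b, hb⟩ : ∃ b, b = √(L + d) := ⟨_, rfl⟩
  rw [← ha, ← hb]
  have ha0 : 0 < a := ha ▸ Real.sqrt_pos.2 hL
  have ha2 : a ^ 2 = L := by rw [ha, Real.sq_sqrt hL.le]
  have hb2 : b ^ 2 = L + d := by rw [hb, Real.sq_sqrt (by linarith)]
  have hab : a ≤ b := by rw [ha, hb]; exact Real.sqrt_le_sqrt (by linarith)
  have hb0 : 0 < b := ha0.trans_le hab
  have hb2a : b ≤ 2 * a := by nlinarith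
  have e : L ^ (-(3 / 2) : ℝ) = 1 / a ^ 3 := by
    rw [ha, Real.sqrt_eq_rpow, ← Real.rpow_natCast, ← Real.rpow_mul hL.le, one_div,
      ← Real.rpow_neg hL.le]
    norm_num
  rw [e, show a⁻¹ - b⁻¹ = (b - a) / (a * b) by field_simp, one_div_mul_eq_div, mul_div_assoc',
    div_le_div_iff₀ (by positivity) (by positivity), show d = (b - a) * (b + a) by
      linear_combination -(hb2 : b ^ 2 = L + d) + ha2]
  have h1 : (b + a) * (a * b) ≤ 3 * a * (a * (2 * a)) := by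
    refine mul_le_mul (by linarith) (mul_le_mul_of_nonneg_left hb2a ha0.le) (by positivity)
      (by positivity)
  have h2 := mul_le_mul_of_nonneg_left h1 (sub_nonneg.2 hab)
  have : 0 ≤ (b - a) * a ^ 3 := mul_nonneg (sub_nonneg.2 hab) (by positivity)
  nlinarith

/-- `U = T (log N) ^ (-1 - z)`. -/
def driftU (z : ℂ) (N : ℕ) : ℂ := omegaLogMean z N * (Real.log N : ℂ) ^ (-(1 + z))

theorem elog_rpow_le {N : ℕ} (hN : 3 ≤ N) {r R : ℝ} (hr : 0 ≤ r) (hrR : r ≤ R) :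
    elog N ^ r ≤ 2 ^ R * Real.log N ^ r := by
  have hL := one_le_log_natCast hN
  refine (Real.rpow_le_rpow (elog_pos N).le (show elog N ≤ 2 * Real.log N by
    rw [elog]; linarith) hr).trans ?_
  rw [Real.mul_rpow two_pos.le (by linarith)]
  exact mul_le_mul_of_nonneg_right (Real.rpow_le_rpow_of_exponent_le one_le_two hrR)
    (Real.rpow_nonneg (by linarith) _)

/-- The sizes and the recursion, in powers of `log N`. -/
theorem exists_basic_bounds (R : ℝ) (hR : 1 ≤ R) : ∃ C : ℝ, 0 < C ∧ ∀ z : ℂ, ‖z‖ ≤ R →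
    ∀ N : ℕ, 3 ≤ N → ‖omegaMean z N‖ ≤ C * Real.log N ^ ‖z‖ ∧
      ‖omegaLogMean z N‖ ≤ C * Real.log N ^ (‖z‖ + 1) ∧
      ‖omegaMean z N - (1 + z) * omegaLogMean z N / (Real.log N : ℂ)‖ ≤
        C * Real.log N ^ (‖z‖ - 1) := by
  obtain ⟨C, hC, hB⟩ := exists_omegaRecip_le R
  obtain ⟨D, hD, hrec⟩ := exists_mean_recursion R hR
  refine ⟨(C + D) * 2 ^ R, by positivity, fun z hz N hN => ?_⟩
  have hL := one_le_log_natCast hN
  have hg := omegaSize_nonneg (norm_nonneg z)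
  obtain ⟨P, hP⟩ : ∃ P : ℝ, P = Real.log N ^ ‖z‖ := ⟨_, rfl⟩
  have hP0 : 0 ≤ P := hP ▸ Real.rpow_nonneg (by linarith) _
  have he := elog_rpow_le hN (norm_nonneg z) hz
  rw [← hP] at he
  have hB' : omegaRecip ‖z‖ N ≤ (C + D) * 2 ^ R * P := by
    refine (hB ‖z‖ (norm_nonneg z) hz N (by omega)).trans ?_
    rw [mul_assoc]
    exact mul_le_mul (by linarith) he (Real.rpow_nonneg (elog_pos N).le _) (by positivity)
  refine ⟨?_, ?_, ?_⟩
  · rw [← hP]
    refine le_trans ((norm_sum_le _ _).trans (le_of_eq (sum_congr rfl fun n _ => ?_))) hB'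
    rw [norm_div, norm_omegaPow, Complex.norm_natCast]
  · rw [Real.rpow_add_one (by linarith), ← hP, ← mul_assoc]
    refine le_trans ((norm_sum_le _ _).trans ?_) (mul_le_mul_of_nonneg_right hB' (by linarith))
    rw [omegaRecip, sum_mul]
    refine sum_le_sum fun n hn => ?_
    rw [mem_Icc] at hn
    rw [norm_mul, norm_div, norm_omegaPow, Complex.norm_natCast, Complex.norm_real,
      Real.norm_eq_abs]
    refine mul_le_mul_of_nonneg_left ?_ (div_nonneg (hg n) (Nat.cast_nonneg n))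
    have h1 := Real.log_le_log (Nat.cast_pos.2 hn.1) (Nat.cast_le.2 hn.2 : (n : ℝ) ≤ N)
    rw [abs_of_nonneg (sub_nonneg.2 h1)]
    linarith [Real.log_natCast_nonneg n]
  · have hL0 : (Real.log N : ℂ) ≠ 0 := Complex.ofReal_ne_zero.2 (by linarith)
    rw [show omegaMean z N - (1 + z) * omegaLogMean z N / (Real.log N : ℂ) =
      (omegaMean z N * (Real.log N : ℂ) - (1 + z) * omegaLogMean z N) / (Real.log N : ℂ) by
        field_simp, norm_div, Complex.norm_real, Real.norm_eq_abs,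
      abs_of_pos (show (0 : ℝ) < Real.log N by linarith), Real.rpow_sub_one (by linarith),
      ← mul_div_assoc]
    refine div_le_div_of_nonneg_right ((hrec z hz N (by omega)).trans ?_) (by linarith)
    rw [← hP, mul_assoc]
    exact mul_le_mul (by linarith) he (Real.rpow_nonneg (elog_pos N).le _) (by positivity)

/-- **The increments of `U`.** -/
theorem exists_driftU_step (R : ℝ) (hR : 1 ≤ R) : ∃ C : ℝ, 0 < C ∧ ∀ z : ℂ, ‖z‖ ≤ R →
    ∀ N : ℕ, 3 ≤ N → ‖driftU z (N + 1) - driftU z N‖ ≤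
      C * Real.log N ^ (‖z‖ - z.re - 2) * (Real.log (N + 1 : ℕ) - Real.log N) := by
  obtain ⟨C, hC, hb⟩ := exists_basic_bounds R hR
  obtain ⟨K, hK⟩ : ∃ K : ℝ, K = 2 * Real.exp (1 + R) * ((1 + R) + (1 + R) ^ 2) := ⟨_, rfl⟩
  have hK0 : 0 < K := hK ▸ by positivity
  refine ⟨C + 2 * C * K, by positivity, fun z hz N hN => ?_⟩
  obtain ⟨hS, hT, hrec⟩ := hb z hz N hN
  obtain ⟨hd0, hd1⟩ := log_succ_bounds (show 1 ≤ N by omega)
  obtain ⟨L, hL⟩ : ∃ L, L = Real.log N := ⟨_, rfl⟩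
  obtain ⟨d, hd⟩ : ∃ d, d = Real.log (N + 1 : ℕ) - Real.log N := ⟨_, rfl⟩
  have hL1 : 1 ≤ L := hL ▸ one_le_log_natCast hN
  have hdle : d ≤ 1 := by
    refine hd ▸ hd1.trans ?_
    rw [div_le_one (Nat.cast_pos.2 (by omega))]
    exact_mod_cast (show 1 ≤ N by omega)
  have hdd : 0 ≤ d := hd ▸ hd0
  rw [← hd]
  rw [← hL] at hS hT hrec ⊢
  obtain ⟨w, hw⟩ : ∃ w : ℂ, w = 1 + z := ⟨_, rfl⟩
  have hwn : ‖w‖ ≤ 1 + R := by
    rw [hw]
    exact (norm_add_le _ _).trans (by rw [norm_one]; linarith)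
  obtain ⟨hs1, hs2⟩ := norm_cpow_step_le hwn (L := L) (by linarith) hdd (by linarith)
  obtain ⟨S, hSd⟩ : ∃ S, S = omegaMean z N := ⟨_, rfl⟩
  obtain ⟨T, hTd⟩ : ∃ T, T = omegaLogMean z N := ⟨_, rfl⟩
  rw [← hSd] at hS hrec
  rw [← hTd] at hT hrec
  rw [← hw] at hrec
  obtain ⟨P, hP⟩ : ∃ P : ℝ, P = L ^ (-w.re) := ⟨_, rfl⟩
  rw [← hP] at hs1 hs2
  have hP0 : 0 ≤ P := hP ▸ Real.rpow_nonneg (by linarith) _
  have hLd : Real.log (N + 1 : ℕ) = L + d := by rw [hd, hL]; ring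
  have hT' : omegaLogMean z (N + 1) = T + S * (d : ℂ) := by
    rw [hd, hTd, hSd, ← omegaLogMean_succ]
    ring
  have e : driftU z (N + 1) - driftU z N =
      (S - w * T / (L : ℂ)) * (d : ℂ) * (L : ℂ) ^ (-w) +
      S * (d : ℂ) * (((L + d : ℝ) : ℂ) ^ (-w) - (L : ℂ) ^ (-w)) +
      T * (((L + d : ℝ) : ℂ) ^ (-w) - (L : ℂ) ^ (-w) +
        (L : ℂ) ^ (-w) * (w * ((d / L : ℝ) : ℂ))) := by
    rw [driftU, driftU, hT', hLd, ← hw, ← hL, ← hTd]
    push_cast
    ring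
  have hnL : ‖(L : ℂ) ^ (-w)‖ = P := by
    rw [hP, Complex.norm_cpow_eq_rpow_re_of_pos (by linarith), Complex.neg_re]
  have hKw : 2 * Real.exp (1 + R) * (1 + R) ≤ K := by
    rw [hK]
    exact mul_le_mul_of_nonneg_left (le_add_of_nonneg_right (sq_nonneg _)) (by positivity)
  obtain ⟨X, hX⟩ : ∃ X : ℝ, X = L ^ (‖z‖ - 1) * (d * P) := ⟨_, rfl⟩
  have hX0 : 0 ≤ X := hX ▸ mul_nonneg (Real.rpow_nonneg (by linarith) _) (mul_nonneg hdd hP0)
  have hLr : L ^ ‖z‖ = L ^ (‖z‖ - 1) * L := by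
    rw [← Real.rpow_add_one (by linarith : L ≠ 0), sub_add_cancel]
  have hLr1 : L ^ (‖z‖ + 1) = L ^ (‖z‖ - 1) * L * L := by
    rw [Real.rpow_add_one (by linarith : L ≠ 0), hLr]
  have b1 : ‖(S - w * T / (L : ℂ)) * (d : ℂ) * (L : ℂ) ^ (-w)‖ ≤ C * X := by
    rw [norm_mul, norm_mul, Complex.norm_real, Real.norm_eq_abs, abs_of_nonneg hdd, hnL, hX,
      mul_assoc, ← mul_assoc C]
    exact mul_le_mul_of_nonneg_right hrec (mul_nonneg hdd hP0)
  have b2 : ‖S * (d : ℂ) * (((L + d : ℝ) : ℂ) ^ (-w) - (L : ℂ) ^ (-w))‖ ≤ C * K * X := by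
    rw [norm_mul, norm_mul, Complex.norm_real, Real.norm_eq_abs, abs_of_nonneg hdd]
    refine (mul_le_mul (mul_le_mul_of_nonneg_right hS hdd) hs1 (norm_nonneg _)
      (mul_nonneg (mul_nonneg hC.le (Real.rpow_nonneg (by linarith) _)) hdd)).trans ?_
    rw [hLr]
    calc C * (L ^ (‖z‖ - 1) * L) * d * (2 * Real.exp (1 + R) * (1 + R) * (d / L) * P)
        = C * (2 * Real.exp (1 + R) * (1 + R)) * d * X := by rw [hX]; field_simp
      _ ≤ C * K * 1 * X := by gcongr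
      _ = _ := by ring
  have b3 : ‖T * (((L + d : ℝ) : ℂ) ^ (-w) - (L : ℂ) ^ (-w) +
      (L : ℂ) ^ (-w) * (w * ((d / L : ℝ) : ℂ)))‖ ≤ C * K * X := by
    rw [norm_mul]
    refine (mul_le_mul hT hs2 (norm_nonneg _)
      (mul_nonneg hC.le (Real.rpow_nonneg (by linarith) _))).trans ?_
    rw [hLr1, ← hK]
    calc C * (L ^ (‖z‖ - 1) * L * L) * (K * (d / L) ^ 2 * P)
        = C * K * d * X := by rw [hX]; field_simp
      _ ≤ C * K * 1 * X := by gcongr
      _ = _ := by ring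
  have hXe : X = L ^ (‖z‖ - z.re - 2) * d := by
    rw [hX, hP, hw, Complex.add_re, Complex.one_re,
      show ‖z‖ - z.re - 2 = (‖z‖ - 1) + -(1 + z.re) by ring, Real.rpow_add (by linarith)]
    ring
  rw [e, show (C + 2 * C * K) * L ^ (‖z‖ - z.re - 2) * d = (C + 2 * C * K) * X by rw [hXe]; ring]
  refine (norm_add_le _ _).trans ((add_le_add ((norm_add_le _ _).trans (add_le_add b1 b2))
    b3).trans (le_of_eq ?_))
  ring

theorem omegaLogMean_eq {z : ℂ} {N : ℕ} (hN : 3 ≤ N) :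
    omegaLogMean z N = driftU z N * (Real.log N : ℂ) ^ (1 + z) := by
  have hL0 : (Real.log N : ℂ) ≠ 0 :=
    Complex.ofReal_ne_zero.2 (by linarith [one_le_log_natCast hN])
  rw [driftU, mul_assoc, ← Complex.cpow_add _ _ hL0, neg_add_cancel, Complex.cpow_zero, mul_one]

/-- **Near the positive axis there is a constant.** -/
theorem exists_mean_main (R : ℝ) (hR : 1 ≤ R) : ∃ C : ℝ, 0 < C ∧ ∀ z : ℂ, ‖z‖ ≤ R →
    ‖z‖ - 1 / 2 ≤ z.re → ∃ a : ℂ, ∀ N : ℕ, 3 ≤ N →
      ‖omegaMean z N - a * (Real.log N : ℂ) ^ z‖ ≤ C * Real.log N ^ (z.re - 1 / 2) := by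
  obtain ⟨C, hC, hstep⟩ := exists_driftU_step R hR
  obtain ⟨D, hD, hb⟩ := exists_basic_bounds R hR
  refine ⟨(1 + R) * (8 * C) + D, by positivity, fun z hz hre => ?_⟩
  have hle : ∀ m, 3 ≤ m → ∀ n, m ≤ n → ‖driftU z n - driftU z m‖ ≤
      8 * C * ((√(Real.log m))⁻¹ - (√(Real.log n))⁻¹) := by
    intro m hm n hmn
    induction n, hmn using Nat.le_induction with
    | base => simp
    | succ n hmn ih =>
      obtain ⟨hd0, hd1⟩ := log_succ_bounds (show 1 ≤ n by omega)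
      have hL := one_le_log_natCast (show 3 ≤ n by omega)
      have hdL : Real.log (n + 1 : ℕ) - Real.log n ≤ Real.log n := by
        refine hd1.trans (le_trans ?_ hL)
        rw [div_le_one (Nat.cast_pos.2 (by omega))]
        exact_mod_cast (show 1 ≤ n by omega)
      have h2 := inv_sqrt_step_ge (by linarith) hd0 hdL
      rw [add_sub_cancel] at h2
      have h3 := (hstep z hz n (by omega)).trans (mul_le_mul_of_nonneg_right
        (mul_le_mul_of_nonneg_left (Real.rpow_le_rpow_of_exponent_le hL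
          (show ‖z‖ - z.re - 2 ≤ -(3 / 2) by linarith)) hC.le) hd0)
      rw [mul_assoc] at h3
      have h4 := mul_le_mul_of_nonneg_left h2 hC.le
      calc ‖driftU z (n + 1) - driftU z m‖
          ≤ ‖driftU z (n + 1) - driftU z n‖ + ‖driftU z n - driftU z m‖ :=
            norm_sub_le_norm_sub_add_norm_sub _ _ _
        _ ≤ _ := by linarith
  have hcauchy : CauchySeq fun n => driftU z (n + 3) := by
    refine cauchySeq_of_le_tendsto_0' (fun n : ℕ => 8 * C * (√(Real.log (n + 3 : ℕ)))⁻¹)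
      (fun n m hnm => ?_) ?_
    · rw [dist_eq_norm, norm_sub_rev]
      refine (hle (n + 3) (by omega) (m + 3) (by omega)).trans ?_
      refine mul_le_mul_of_nonneg_left (sub_le_self _ (by positivity)) (by positivity)
    · have h := (Real.tendsto_sqrt_atTop.comp (Real.tendsto_log_atTop.comp
        (tendsto_natCast_atTop_atTop.comp (tendsto_add_atTop_nat 3)))).inv_tendsto_atTop
      simpa using h.const_mul (8 * C)
  obtain ⟨c, hc⟩ := cauchySeq_tendsto_of_complete hcauchy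
  have hlim : ∀ N, 3 ≤ N → ‖driftU z N - c‖ ≤ 8 * C * (√(Real.log N))⁻¹ := by
    intro N hN
    refine le_of_tendsto (((tendsto_const_nhds (x := driftU z N)).sub hc).norm)
      ((eventually_ge_atTop N).mono fun n hn => ?_)
    rw [norm_sub_rev]
    exact (hle N hN (n + 3) (by omega)).trans
      (mul_le_mul_of_nonneg_left (sub_le_self _ (by positivity)) (by positivity))
  refine ⟨(1 + z) * c, fun N hN => ?_⟩
  obtain ⟨L, hL⟩ : ∃ L, L = Real.log N := ⟨_, rfl⟩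
  have hL1 : 1 ≤ L := hL ▸ one_le_log_natCast hN
  have hrec := (hb z hz N hN).2.2
  rw [omegaLogMean_eq hN, ← hL] at hrec
  have hlim' := hlim N hN
  rw [← hL] at hlim' ⊢
  have hL0 : (L : ℂ) ≠ 0 := Complex.ofReal_ne_zero.2 (by linarith)
  have hLz : (L : ℂ) ^ (1 + z) = (L : ℂ) * (L : ℂ) ^ z := by
    rw [Complex.cpow_add _ _ hL0, Complex.cpow_one]
  rw [show (1 + z) * (driftU z N * (L : ℂ) ^ (1 + z)) / (L : ℂ) =
    (1 + z) * driftU z N * (L : ℂ) ^ z by rw [hLz]; field_simp] at hrec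
  calc ‖omegaMean z N - (1 + z) * c * (L : ℂ) ^ z‖
      ≤ ‖omegaMean z N - (1 + z) * driftU z N * (L : ℂ) ^ z‖ +
          ‖(1 + z) * driftU z N * (L : ℂ) ^ z - (1 + z) * c * (L : ℂ) ^ z‖ :=
        norm_sub_le_norm_sub_add_norm_sub _ _ _
    _ ≤ D * L ^ (z.re - 1 / 2) + (1 + R) * (8 * C * (√L)⁻¹) * L ^ z.re := by
        refine add_le_add (hrec.trans (mul_le_mul_of_nonneg_left
          (Real.rpow_le_rpow_of_exponent_le hL1 (by linarith)) hD.le)) ?_
        rw [← sub_mul, ← mul_sub, norm_mul, norm_mul,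
          Complex.norm_cpow_eq_rpow_re_of_pos (by linarith)]
        refine mul_le_mul_of_nonneg_right (mul_le_mul ?_ hlim' (norm_nonneg _) (by linarith))
          (Real.rpow_nonneg (by linarith) _)
        exact (norm_add_le _ _).trans (by rw [norm_one]; linarith)
    _ = _ := by
        rw [Real.sqrt_eq_rpow, ← Real.rpow_neg (by linarith), mul_assoc (1 + R),
          mul_assoc (8 * C), ← Real.rpow_add (by linarith)]
        ring_nf

/-- **Away from it the mean is small.** -/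
theorem exists_mean_small (R : ℝ) (hR : 1 ≤ R) : ∃ C : ℝ, 0 < C ∧ ∀ z : ℂ, ‖z‖ ≤ R →
    z.re < ‖z‖ - 1 / 2 → ∀ N : ℕ, 3 ≤ N → ‖omegaMean z N‖ ≤ C * Real.log N ^ (‖z‖ - 1 / 4) := by
  obtain ⟨C, hC, hstep⟩ := exists_driftU_step R hR
  obtain ⟨D, hD, hb⟩ := exists_basic_bounds R hR
  refine ⟨D + (1 + R) * (8 * C + D * 2 ^ (2 * R)), by positivity, fun z hz hre N hN => ?_⟩
  obtain ⟨a, ha⟩ : ∃ a : ℝ, a = max (‖z‖ - z.re - 1) (1 / 4) := ⟨_, rfl⟩
  have ha4 : 1 / 4 ≤ a := ha ▸ le_max_right _ _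
  have ha' : a ≤ ‖z‖ - z.re - 1 / 4 := ha ▸ max_le (by linarith) (by linarith)
  have hle : ∀ n, 3 ≤ n → ‖driftU z n‖ ≤ ‖driftU z 3‖ + 8 * C * Real.log n ^ a := by
    intro n hn
    induction n, hn using Nat.le_induction with
    | base => exact le_add_of_nonneg_right (by positivity)
    | succ n hn ih =>
      obtain ⟨hd0, hd1⟩ := log_succ_bounds (show 1 ≤ n by omega)
      have hL := one_le_log_natCast hn
      have hdL : Real.log (n + 1 : ℕ) - Real.log n ≤ Real.log n := by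
        refine hd1.trans (le_trans ?_ hL)
        rw [div_le_one (Nat.cast_pos.2 (by omega))]
        exact_mod_cast (show 1 ≤ n by omega)
      have h2 := rpow_step_ge ha4 (by linarith) hd0 hdL
      rw [add_sub_cancel] at h2
      have h3 := (hstep z hz n hn).trans (mul_le_mul_of_nonneg_right
        (mul_le_mul_of_nonneg_left (Real.rpow_le_rpow_of_exponent_le hL
          (show ‖z‖ - z.re - 2 ≤ a - 1 by
            rw [ha]
            linarith [le_max_left (‖z‖ - z.re - 1) (1 / 4)])) hC.le) hd0)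
      rw [mul_assoc] at h3
      have h4 := mul_le_mul_of_nonneg_left h2 hC.le
      calc ‖driftU z (n + 1)‖ ≤ ‖driftU z (n + 1) - driftU z n‖ + ‖driftU z n‖ := by
            simpa using norm_add_le (driftU z (n + 1) - driftU z n) (driftU z n)
        _ ≤ _ := by linarith
  have hL3 := one_le_log_natCast (le_refl 3)
  have h3le : ‖driftU z 3‖ ≤ D * 2 ^ (2 * R) := by
    rw [driftU, norm_mul, Complex.norm_cpow_eq_rpow_re_of_pos (by linarith)]
    refine (mul_le_mul_of_nonneg_right (hb z hz 3 le_rfl).2.1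
      (Real.rpow_nonneg (by linarith) _)).trans ?_
    rw [mul_assoc, ← Real.rpow_add (by linarith), Complex.neg_re, Complex.add_re, Complex.one_re]
    refine mul_le_mul_of_nonneg_left ?_ hD.le
    refine (Real.rpow_le_rpow_of_exponent_le hL3 (show ‖z‖ + 1 + -(1 + z.re) ≤ 2 * R by
      linarith [neg_le_of_abs_le (Complex.abs_re_le_norm z)])).trans ?_
    refine Real.rpow_le_rpow (by linarith) ?_ (by linarith)
    rw [Real.log_le_iff_le_exp (by norm_num)]
    have := Real.add_one_le_exp (2 : ℝ)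
    push_cast
    linarith
  obtain ⟨L, hL⟩ : ∃ L, L = Real.log N := ⟨_, rfl⟩
  have hL1 : 1 ≤ L := hL ▸ one_le_log_natCast hN
  have hrec := (hb z hz N hN).2.2
  rw [omegaLogMean_eq hN, ← hL] at hrec
  have hUN := hle N hN
  rw [← hL] at hUN ⊢
  have hL0 : (L : ℂ) ≠ 0 := Complex.ofReal_ne_zero.2 (by linarith)
  rw [show (1 + z) * (driftU z N * (L : ℂ) ^ (1 + z)) / (L : ℂ) =
    (1 + z) * driftU z N * (L : ℂ) ^ z by
      rw [Complex.cpow_add _ _ hL0, Complex.cpow_one]; field_simp] at hrec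
  have hLa : 1 ≤ L ^ a := Real.one_le_rpow hL1 (by linarith)
  have hU' : ‖driftU z N‖ ≤ (8 * C + D * 2 ^ (2 * R)) * L ^ a := by
    have h1 : 0 ≤ D * (2 : ℝ) ^ (2 * R) := by positivity
    have := mul_le_mul_of_nonneg_left hLa h1
    linarith
  calc ‖omegaMean z N‖ ≤ ‖omegaMean z N - (1 + z) * driftU z N * (L : ℂ) ^ z‖ +
        ‖(1 + z) * driftU z N * (L : ℂ) ^ z‖ := by
        simpa using norm_add_le (omegaMean z N - (1 + z) * driftU z N * (L : ℂ) ^ z)
          ((1 + z) * driftU z N * (L : ℂ) ^ z)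
    _ ≤ D * L ^ (‖z‖ - 1 / 4) + (1 + R) * ((8 * C + D * 2 ^ (2 * R)) * L ^ a) * L ^ z.re := by
        refine add_le_add (hrec.trans (mul_le_mul_of_nonneg_left
          (Real.rpow_le_rpow_of_exponent_le hL1 (by linarith)) hD.le)) ?_
        rw [norm_mul, norm_mul, Complex.norm_cpow_eq_rpow_re_of_pos (by linarith)]
        refine mul_le_mul_of_nonneg_right (mul_le_mul ?_ hU' (norm_nonneg _) (by linarith))
          (Real.rpow_nonneg (by linarith) _)
        exact (norm_add_le _ _).trans (by rw [norm_one]; linarith)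
    _ ≤ _ := by
        rw [mul_assoc (1 + R), mul_assoc (8 * C + D * 2 ^ (2 * R)),
          ← Real.rpow_add (by linarith), add_mul D, mul_assoc (1 + R)]
        gcongr
        linarith

end FA.SatheSelberg

end
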