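import Fermat.Agent.SatheSelberg.EulerFactor
import Fermat.Agent.SatheSelberg.Recursion
import Mathlib.Analysis.SpecialFunctions.Gamma.Basic
import Mathlib.Analysis.SpecialFunctions.Gaussian.GaussianIntegral
import Mathlib.NumberTheory.EulerProduct.DirichletLSeries
import Mathlib.NumberTheory.LSeries.RiemannZeta

/-!
# The constant of the logarithmic mean

`∑ z ^ ω n n ^ (-1 - δ)` is `δ ^ (-z)` times an Euler product by multiplicativity, and `a Γ (z + 1)`
times it by Abel's theorem: so `a = φ z`.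
-/

set_option autoImplicit false

noncomputable section

namespace FA.SatheSelberg

open Finset Filter MeasureTheory
open scoped Topology

/-- The terms of the Dirichlet series. -/
def dirTerm (z : ℂ) (s : ℝ) (n : ℕ) : ℂ := omegaPow z n * (((n : ℝ) ^ (-s) : ℝ) : ℂ)

/-- `∑ z ^ ω n n ^ (-s)`. -/
def dirSeries (z : ℂ) (s : ℝ) : ℂ := ∑' n, dirTerm z s n

theorem dirTerm_zero (z : ℂ) {s : ℝ} (hs : 1 < s) : dirTerm z s 0 = 0 := by
  rw [dirTerm, Nat.cast_zero, Real.zero_rpow (by linarith), Complex.ofReal_zero, mul_zero]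

theorem summable_primes_rpow {s : ℝ} (hs : 1 < s) :
    Summable fun p : Nat.Primes => 2 * (((p : ℕ) : ℝ) ^ s)⁻¹ :=
  (((Real.summable_nat_rpow_inv (p := s)).2 hs).subtype _).mul_left 2

theorem summable_dirTerm (z : ℂ) {s : ℝ} (hs : 1 < s) : Summable fun n => ‖dirTerm z s n‖ := by
  have hS : Summable fun n : ℕ => 2 * ((n : ℝ) ^ s)⁻¹ :=
    ((Real.summable_nat_rpow_inv (p := s)).2 hs).mul_left 2
  refine summable_of_sum_range_le (c := Real.exp (‖z‖ * ∑' n : ℕ, 2 * ((n : ℝ) ^ s)⁻¹))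
    (fun n => norm_nonneg _) fun N => ?_
  have h := sum_omegaSize_div_rpow_le (norm_nonneg z) hs.le N
  refine le_trans ?_ (h.trans (Real.exp_le_exp.2 (mul_le_mul_of_nonneg_left ?_ (norm_nonneg z))))
  · rw [← sum_filter_of_ne (p := fun n : ℕ => n ≠ 0) fun n _ hn h0 => hn (by
      rw [h0, dirTerm_zero z hs, norm_zero])]
    refine le_trans (le_of_eq (sum_congr rfl fun n hn => ?_)) (sum_le_sum_of_subset_of_nonneg
      (fun n hn => ?_) fun n _ _ => div_nonneg (omegaSize_nonneg (norm_nonneg z) n) (by positivity))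
    · rw [dirTerm, norm_mul, norm_omegaPow, Complex.norm_real, Real.norm_eq_abs,
        abs_of_nonneg (by positivity), Real.rpow_neg (Nat.cast_nonneg n), div_eq_mul_inv]
    · rw [mem_filter, mem_range] at hn
      rw [mem_Icc]
      omega
  · refine (sum_le_sum fun p hp => ?_).trans (hS.sum_le_tsum _ fun n _ => by positivity)
    obtain ⟨-, h2⟩ := two_le_prime_rpow ⟨p, (ErdosKac.mem_primesUpTo.1 hp).1⟩ hs.le
    simp only at h2
    rw [← div_eq_mul_inv, div_le_div_iff₀ (by linarith) (by linarith)]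
    linarith

/-- `log ζ s`, as a sum over the primes. -/
def logZeta (s : ℝ) : ℝ := ∑' p : Nat.Primes, -Real.log (1 - (((p : ℕ) : ℝ) ^ s)⁻¹)

theorem summable_logZeta {s : ℝ} (hs : 1 < s) :
    Summable fun p : Nat.Primes => -Real.log (1 - (((p : ℕ) : ℝ) ^ s)⁻¹) := by
  refine (summable_primes_rpow hs).of_norm_bounded fun p => ?_
  obtain ⟨-, h2⟩ := two_le_prime_rpow p hs.le
  obtain ⟨x, hx⟩ : ∃ x, x = (((p : ℕ) : ℝ) ^ s)⁻¹ := ⟨_, rfl⟩
  have hx0 : 0 ≤ x := hx ▸ inv_nonneg.2 (by linarith)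
  have hxh : x ≤ 1 / 2 := by
    rw [hx, ← one_div]
    exact one_div_le_one_div_of_le two_pos h2
  rw [← hx, norm_neg, Real.norm_eq_abs, abs_of_nonpos (Real.log_nonpos (by linarith) (by linarith))]
  have h := Real.one_sub_inv_le_log_of_pos (show (0 : ℝ) < 1 - x by linarith)
  have h3 : (1 - x)⁻¹ ≤ 1 + 2 * x := by
    rw [inv_le_iff_one_le_mul₀ (by linarith)]
    nlinarith
  linarith

theorem exp_logZeta {s : ℝ} (hs : 1 < s) :
    ((Real.exp (logZeta s) : ℝ) : ℂ) = riemannZeta (s : ℂ) := by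
  rw [← riemannZeta_eulerProduct_exp_log (s := (s : ℂ)) (by simpa using hs), Complex.ofReal_exp,
    logZeta, Complex.ofReal_tsum]
  refine congrArg Complex.exp (tsum_congr fun p => ?_)
  obtain ⟨-, h2⟩ := two_le_prime_rpow p hs.le
  have hx : (((p : ℕ) : ℝ) ^ s)⁻¹ ≤ 1 / 2 := by
    rw [← one_div]
    exact one_div_le_one_div_of_le two_pos h2
  rw [Complex.ofReal_neg, Complex.ofReal_log (by linarith), Complex.ofReal_sub, Complex.ofReal_one,
    ← Real.rpow_neg (Nat.cast_nonneg _), Complex.ofReal_cpow (Nat.cast_nonneg _),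
    Complex.ofReal_neg, Complex.ofReal_natCast]

theorem hasSum_local (z : ℂ) {p : ℕ} (hp : p.Prime) {s : ℝ} (hs : 1 < s) :
    HasSum (fun k => dirTerm z s (p ^ k)) (1 + z / ((((p : ℝ) ^ s - 1 : ℝ)) : ℂ)) := by
  obtain ⟨-, hP2⟩ := two_le_prime_rpow ⟨p, hp⟩ hs.le
  simp only at hP2
  obtain ⟨P, hP⟩ : ∃ P, P = (p : ℝ) ^ s := ⟨_, rfl⟩
  rw [← hP] at hP2 ⊢
  have h := ((hasSum_geometric_of_norm_lt_one (ξ := ((P⁻¹ : ℝ) : ℂ)) (by
    rw [Complex.norm_real, Real.norm_eq_abs, abs_of_pos (by positivity)]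
    exact inv_lt_one_of_one_lt₀ (by linarith))).mul_left z).add (hasSum_ite_eq (0 : ℕ) (1 - z))
  have e1 : (fun k => dirTerm z s (p ^ k)) =
      fun k => z * ((P⁻¹ : ℝ) : ℂ) ^ k + if k = 0 then 1 - z else 0 := funext fun k => by
    rcases Nat.eq_zero_or_pos k with rfl | hk
    · rw [pow_zero, pow_zero, if_pos rfl, dirTerm, omegaPow_one, Nat.cast_one, Real.one_rpow,
        Complex.ofReal_one]
      ring
    · rw [if_neg (by omega), add_zero, dirTerm, omegaPow,
        Nat.primeFactors_prime_pow (by omega : k ≠ 0) hp, card_singleton, pow_one,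
        ← Complex.ofReal_pow, hP]
      congr 2
      rw [Nat.cast_pow, inv_pow, ← Real.rpow_natCast (p : ℝ) k,
        ← Real.rpow_natCast ((p : ℝ) ^ s) k, ← Real.rpow_mul (Nat.cast_nonneg p),
        ← Real.rpow_mul (Nat.cast_nonneg p), ← Real.rpow_neg (Nat.cast_nonneg p)]
      ring_nf
  have e2 : 1 + z / (((P - 1 : ℝ)) : ℂ) = z * (1 - ((P⁻¹ : ℝ) : ℂ))⁻¹ + (1 - z) := by
    have h1 : (P : ℂ) ≠ 0 := Complex.ofReal_ne_zero.2 (by linarith)
    have h2 : (P : ℂ) - 1 ≠ 0 := by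
      rw [← Complex.ofReal_one, ← Complex.ofReal_sub, Complex.ofReal_ne_zero]
      linarith
    push_cast
    field_simp
    ring
  rw [e1, e2]
  exact h

/-- **The Euler product.** -/
theorem dirSeries_eq (z : ℂ) {s : ℝ} (hs : 1 < s) (hs2 : s ≤ 2) :
    dirSeries z s = selProd (z, s) * Complex.exp (z * (logZeta s : ℂ)) := by
  have h1 := EulerProduct.eulerProduct_hasProd (f := dirTerm z s)
    (by simp [dirTerm, omegaPow_one])
    (fun {m n} h => by
      rw [dirTerm, dirTerm, dirTerm, omegaPow_mul z h, Nat.cast_mul,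
        Real.mul_rpow (Nat.cast_nonneg m) (Nat.cast_nonneg n), Complex.ofReal_mul]
      ring)
    (summable_dirTerm z hs) (dirTerm_zero z hs)
  have h2 := (hasProd_selFactor (z := z) hs.le hs2).mul
    ((Complex.hasSum_ofReal.2 (summable_logZeta hs).hasSum).mul_left z).cexp
  refine (h2.congr_fun fun p => ?_).unique h1 |>.symm
  rw [(hasSum_local z p.2 hs).tsum_eq, selFactor]
  simp only [Function.comp_apply]
  rw [mul_assoc, ← Complex.exp_add, Complex.ofReal_neg, mul_neg, add_neg_cancel, Complex.exp_zero,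
    mul_one]

theorem tendsto_log_add_logZeta :
    Tendsto (fun δ : ℝ => Real.log δ + logZeta (1 + δ)) (𝓝[>] 0) (𝓝 0) := by
  have hmap : Tendsto (fun δ : ℝ => ((1 + δ : ℝ) : ℂ)) (𝓝[>] 0) (𝓝[≠] 1) := by
    refine tendsto_nhdsWithin_iff.2 ⟨?_, eventually_mem_nhdsWithin.mono fun δ hδ => ?_⟩
    · have h : Continuous fun δ : ℝ => ((1 + δ : ℝ) : ℂ) :=
        Complex.continuous_ofReal.comp (continuous_const.add continuous_id)
      simpa using (h.tendsto 0).mono_left nhdsWithin_le_nhds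
    · simp only [Set.mem_compl_iff, Set.mem_singleton_iff, Complex.ofReal_eq_one]
      exact (lt_add_of_pos_right 1 hδ).ne'
  have h1 : Tendsto (fun δ : ℝ => δ * Real.exp (logZeta (1 + δ))) (𝓝[>] 0) (𝓝 1) := by
    have h := (Complex.continuous_re.tendsto 1).comp (riemannZeta_residue_one.comp hmap)
    rw [Complex.one_re] at h
    refine h.congr' (eventually_mem_nhdsWithin.mono fun δ hδ => ?_)
    rw [Set.mem_Ioi] at hδ
    simp only [Function.comp_apply]
    rw [← exp_logZeta (by linarith), ← Complex.ofReal_one, ← Complex.ofReal_sub,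
      ← Complex.ofReal_mul, Complex.ofReal_re, add_sub_cancel_left]
  have h2 := h1.log one_ne_zero
  rw [Real.log_one] at h2
  refine h2.congr' (eventually_mem_nhdsWithin.mono fun δ hδ => ?_)
  rw [Real.log_mul (ne_of_gt hδ) (Real.exp_pos _).ne', Real.log_exp]

/-- **`δ ^ z` times the series.** -/
theorem tendsto_dirSeries (z : ℂ) :
    Tendsto (fun δ : ℝ => (δ : ℂ) ^ z * dirSeries z (1 + δ)) (𝓝[>] 0) (𝓝 (selProd (z, 1))) := by
  have hmap : Tendsto (fun δ : ℝ => 1 + δ) (𝓝[>] 0) (𝓝[>] 1) := by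
    refine tendsto_nhdsWithin_iff.2 ⟨?_, eventually_mem_nhdsWithin.mono fun δ hδ =>
      show (1 : ℝ) < 1 + δ from lt_add_of_pos_right 1 hδ⟩
    have hc : Continuous fun δ : ℝ => 1 + δ := by fun_prop
    simpa using (hc.tendsto 0).mono_left nhdsWithin_le_nhds
  have h := ((tendsto_selProd_one z).comp hmap).mul
    ((Complex.continuous_exp.tendsto _).comp
      (((Complex.continuous_ofReal.tendsto 0).comp tendsto_log_add_logZeta).const_mul z))
  rw [Complex.ofReal_zero, mul_zero, Complex.exp_zero, mul_one] at h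
  refine h.congr' ?_
  filter_upwards [Ioo_mem_nhdsGT (show (0 : ℝ) < 1 from one_pos)] with δ hδ
  rw [Function.comp_apply, Function.comp_apply, Function.comp_apply,
    dirSeries_eq z (by linarith [hδ.1]) (by linarith [hδ.2]),
    Complex.cpow_def_of_ne_zero (Complex.ofReal_ne_zero.2 hδ.1.ne'),
    ← Complex.ofReal_log hδ.1.le, mul_left_comm, ← Complex.exp_add, Complex.ofReal_add, mul_add,
    mul_comm ((Real.log δ : ℝ) : ℂ)]

/-- Abel summation. -/
theorem sum_dirTerm_eq (z : ℂ) (δ : ℝ) (M : ℕ) : ∑ n ∈ Icc 1 M, dirTerm z (1 + δ) n =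
    ∑ n ∈ Icc 1 M, omegaMean z n * (((n : ℝ) ^ (-δ) - ((n + 1 : ℕ) : ℝ) ^ (-δ) : ℝ) : ℂ) +
      omegaMean z M * ((((M + 1 : ℕ) : ℝ) ^ (-δ) : ℝ) : ℂ) := by
  induction M with
  | zero => simp [omegaMean]
  | succ M ih =>
    have hM : ((M + 1 : ℕ) : ℝ) ≠ 0 := Nat.cast_ne_zero.2 (by omega)
    rw [sum_Icc_succ_top (by omega), sum_Icc_succ_top (by omega), ih, dirTerm,
      show omegaMean z (M + 1) = omegaMean z M + omegaPow z (M + 1) / ((M + 1 : ℕ) : ℂ) from
        sum_Icc_succ_top (by omega) _,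
      neg_add, Real.rpow_add (Nat.cast_pos.2 (Nat.succ_pos M)), Real.rpow_neg_one]
    push_cast
    ring

theorem integrableOn_weight {ρ δ : ℝ} (hρ : -1 < ρ) (hδ : 0 < δ) :
    IntegrableOn (fun u : ℝ => (u ^ ρ + Real.exp (-u)) * (δ * Real.exp (-(δ * u))))
      (Set.Ioi 0) := by
  have h1 := integrableOn_rpow_mul_exp_neg_mul_rpow hρ one_pos hδ
  have h2 := integrableOn_exp_mul_Ioi (show -(1 + δ) < 0 by linarith) 0
  refine IntegrableOn.congr_fun ((h1.const_mul δ).add (h2.const_mul δ)) (fun u _ => ?_)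
    measurableSet_Ioi
  simp only [Pi.add_apply, Real.rpow_one]
  rw [show -(1 + δ) * u = -u + -δ * u by ring, Real.exp_add, neg_mul]
  ring

theorem integral_weight_le {ρ δ : ℝ} (hρ : -1 < ρ) (hδ : 0 < δ) :
    ∫ u in Set.Ioi (0 : ℝ), (u ^ ρ + Real.exp (-u)) * (δ * Real.exp (-(δ * u))) ≤
      δ * ((1 / δ) ^ (ρ + 1) * Real.Gamma (ρ + 1)) + δ := by
  have h1 := integrableOn_rpow_mul_exp_neg_mul_rpow hρ one_pos hδ
  have h2 := integrableOn_exp_mul_Ioi (show -(1 + δ) < 0 by linarith) 0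
  rw [setIntegral_congr_fun measurableSet_Ioi (fun u _ => show
    (u ^ ρ + Real.exp (-u)) * (δ * Real.exp (-(δ * u))) =
      δ * (u ^ ρ * Real.exp (-δ * u ^ (1 : ℝ))) + δ * Real.exp (-(1 + δ) * u) by
    rw [Real.rpow_one, show -(1 + δ) * u = -u + -δ * u by ring, Real.exp_add, neg_mul]
    ring), integral_add (h1.const_mul δ) (h2.const_mul δ), integral_const_mul, integral_const_mul,
    integral_exp_mul_Ioi (show -(1 + δ) < 0 by linarith)]
  have hG : ∫ u in Set.Ioi (0 : ℝ), u ^ ρ * Real.exp (-δ * u ^ (1 : ℝ)) =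
      (1 / δ) ^ (ρ + 1) * Real.Gamma (ρ + 1) := by
    rw [← Real.integral_rpow_mul_exp_neg_mul_Ioi (show 0 < ρ + 1 by linarith) hδ]
    refine setIntegral_congr_fun measurableSet_Ioi fun u _ => ?_
    rw [add_sub_cancel_right, Real.rpow_one, neg_mul]
  rw [hG]
  refine add_le_add le_rfl (mul_le_of_le_one_right hδ.le ?_)
  rw [mul_zero, Real.exp_zero, neg_div_neg_eq, div_le_one (by linarith)]
  linarith

/-- **Abel's theorem.** -/
theorem norm_dirSeries_sub_le {z a : ℂ} {δ K : ℝ} (hδ : 0 < δ) (hρ : -1 < z.re - 1 / 2)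
    (hK : ∀ n : ℕ, 1 ≤ n → ∀ u : ℝ, 0 < u → Real.log n ≤ u → u ≤ Real.log (n + 1 : ℕ) →
      ‖omegaMean z n - a * (u : ℂ) ^ z‖ ≤ K * (u ^ (z.re - 1 / 2) + Real.exp (-u)))
    (hend : Tendsto (fun M : ℕ => omegaMean z M * ((((M + 1 : ℕ) : ℝ) ^ (-δ) : ℝ) : ℂ))
      atTop (𝓝 0)) :
    ‖dirSeries z (1 + δ) - a * ((δ : ℂ) ^ (-z) * Complex.Gamma (z + 1))‖ ≤
      |K| * (δ * ((1 / δ) ^ (z.re - 1 / 2 + 1) * Real.Gamma (z.re - 1 / 2 + 1)) + δ) := by
  obtain ⟨ρ, hρd⟩ : ∃ ρ, ρ = z.re - 1 / 2 := ⟨_, rfl⟩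
  rw [← hρd] at hρ hK ⊢
  obtain ⟨w, hw⟩ : ∃ w : ℝ → ℝ, w = fun u => δ * Real.exp (-(δ * u)) := ⟨_, rfl⟩
  obtain ⟨B, hB⟩ : ∃ B : ℝ → ℝ, B = fun u => (u ^ ρ + Real.exp (-u)) * w u := ⟨_, rfl⟩
  obtain ⟨G, hG⟩ : ∃ G : ℝ → ℂ, G = fun u : ℝ => (u : ℂ) ^ z * ((w u : ℝ) : ℂ) := ⟨_, rfl⟩
  have hwc : Continuous w := hw ▸ continuous_const.mul
    (Real.continuous_exp.comp (continuous_const.mul continuous_id).neg)
  have hw0 : ∀ u, 0 ≤ w u := fun u => hw ▸ mul_nonneg hδ.le (Real.exp_pos _).le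
  have hBint : IntegrableOn B (Set.Ioi 0) := by
    rw [hB, hw]
    exact integrableOn_weight hρ hδ
  have hGint : IntegrableOn G (Set.Ioi 0) := by
    have hmeas : AEStronglyMeasurable G (volume.restrict (Set.Ioi 0)) := by
      refine ContinuousOn.aestronglyMeasurable (fun u hu => ?_) measurableSet_Ioi
      rw [hG]
      exact (((continuousAt_cpow_const (Complex.ofReal_mem_slitPlane.2 hu)).comp
        Complex.continuous_ofReal.continuousAt).mul
          (Complex.continuous_ofReal.continuousAt.comp hwc.continuousAt)).continuousWithinAt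
    refine ((integrableOn_rpow_mul_exp_neg_mul_rpow (s := z.re) (by linarith) one_pos
      hδ).const_mul δ).mono' hmeas ?_
    filter_upwards [ae_restrict_mem measurableSet_Ioi] with u hu
    rw [hG, norm_mul, Complex.norm_cpow_eq_rpow_re_of_pos hu, Complex.norm_real, Real.norm_eq_abs,
      abs_of_nonneg (hw0 u), hw, Real.rpow_one, neg_mul]
    exact le_of_eq (by ring)
  have hI : ∀ {f : ℝ → ℂ}, IntegrableOn f (Set.Ioi 0) → ∀ {x y : ℝ}, 0 ≤ x → x ≤ y →
      IntervalIntegrable f volume x y := fun hf x y hx hxy =>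
    (intervalIntegrable_iff_integrableOn_Ioc_of_le hxy).2
      (hf.mono_set fun u hu => hx.trans_lt hu.1)
  have hIB : ∀ {x y : ℝ}, 0 ≤ x → x ≤ y → IntervalIntegrable B volume x y := fun hx hxy =>
    (intervalIntegrable_iff_integrableOn_Ioc_of_le hxy).2
      (hBint.mono_set fun u hu => hx.trans_lt hu.1)
  have hlog : ∀ n : ℕ, Real.log n ≤ Real.log (n + 1 : ℕ) := fun n => by
    rcases Nat.eq_zero_or_pos n with rfl | hn
    · simp
    · exact Real.log_le_log (Nat.cast_pos.2 hn) (Nat.cast_le.2 (Nat.le_succ n))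
  have hstep : ∀ n : ℕ, 1 ≤ n →
      ‖omegaMean z n * (((n : ℝ) ^ (-δ) - ((n + 1 : ℕ) : ℝ) ^ (-δ) : ℝ) : ℂ) -
        a * ∫ u in Real.log n..Real.log (n + 1 : ℕ), G u‖ ≤
      |K| * ∫ u in Real.log n..Real.log (n + 1 : ℕ), B u := by
    intro n hn
    have hcw : (((n : ℝ) ^ (-δ) - ((n + 1 : ℕ) : ℝ) ^ (-δ) : ℝ) : ℂ) =
        ∫ u in Real.log n..Real.log (n + 1 : ℕ), ((w u : ℝ) : ℂ) := by
      rw [intervalIntegral.integral_ofReal, intervalIntegral.integral_eq_sub_of_hasDerivAt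
        (f := fun u => -Real.exp (-(δ * u))) (fun u _ => ?_) (hwc.intervalIntegrable _ _)]
      · rw [Real.rpow_def_of_pos (Nat.cast_pos.2 hn),
          Real.rpow_def_of_pos (Nat.cast_pos.2 (show 0 < n + 1 by omega))]
        congr 1
        ring_nf
      · have h := (((hasDerivAt_id u).const_mul δ).neg.exp).neg
        rw [hw]
        exact h.congr_deriv (by simp; ring)
    have h1 : IntervalIntegrable (fun u => ((w u : ℝ) : ℂ)) volume (Real.log n)
        (Real.log (n + 1 : ℕ)) := (Complex.continuous_ofReal.comp hwc).intervalIntegrable _ _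
    rw [hcw, ← intervalIntegral.integral_const_mul, ← intervalIntegral.integral_const_mul,
      ← intervalIntegral.integral_sub (h1.const_mul _)
        ((hI hGint (Real.log_natCast_nonneg n) (hlog n)).const_mul _),
      ← intervalIntegral.integral_const_mul]
    refine intervalIntegral.norm_integral_le_of_norm_le (hlog n) (ae_of_all _ fun u hu => ?_)
      ((hIB (Real.log_natCast_nonneg n) (hlog n)).const_mul _)
    have hu0 : 0 < u := (Real.log_natCast_nonneg n).trans_lt hu.1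
    rw [hG, hB, ← mul_assoc a, ← sub_mul, norm_mul, Complex.norm_real, Real.norm_eq_abs,
      abs_of_nonneg (hw0 u), ← mul_assoc |K|]
    exact mul_le_mul_of_nonneg_right ((hK n hn u hu0 hu.1.le hu.2).trans
      (mul_le_mul_of_nonneg_right (le_abs_self K)
        (add_nonneg (Real.rpow_nonneg hu0.le _) (Real.exp_pos _).le))) (hw0 u)
  have hsumI : ∀ {E : Type} [NormedAddCommGroup E] [NormedSpace ℝ E] (f : ℝ → E),
      (∀ {x y : ℝ}, 0 ≤ x → x ≤ y → IntervalIntegrable f volume x y) → ∀ M : ℕ,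
      ∑ n ∈ Icc 1 M, ∫ u in Real.log n..Real.log (n + 1 : ℕ), f u =
        ∫ u in (0 : ℝ)..Real.log (M + 1 : ℕ), f u := by
    intro E _ _ f hf M
    induction M with
    | zero => simp
    | succ M ih =>
      rw [sum_Icc_succ_top (by omega), ih, intervalIntegral.integral_add_adjacent_intervals
        (hf le_rfl (Real.log_natCast_nonneg _)) (hf (Real.log_natCast_nonneg _) (hlog _))]
  have hpartial : ∀ M : ℕ, ‖∑ n ∈ Icc 1 M, dirTerm z (1 + δ) n -
      omegaMean z M * ((((M + 1 : ℕ) : ℝ) ^ (-δ) : ℝ) : ℂ) -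
        a * ∫ u in (0 : ℝ)..Real.log (M + 1 : ℕ), G u‖ ≤
      |K| * (δ * ((1 / δ) ^ (ρ + 1) * Real.Gamma (ρ + 1)) + δ) := by
    intro M
    rw [sum_dirTerm_eq, add_sub_cancel_right, ← hsumI G (hI hGint) M, mul_sum, ← sum_sub_distrib]
    refine (norm_sum_le _ _).trans ((sum_le_sum fun n hn => hstep n (mem_Icc.1 hn).1).trans ?_)
    rw [← mul_sum, hsumI B hIB M]
    refine mul_le_mul_of_nonneg_left (le_trans ?_ (integral_weight_le hρ hδ)) (abs_nonneg K)
    rw [intervalIntegral.integral_of_le (Real.log_natCast_nonneg _), hB, hw]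
    refine setIntegral_mono_set (integrableOn_weight hρ hδ) ?_ Set.Ioc_subset_Ioi_self.eventuallyLE
    filter_upwards [ae_restrict_mem measurableSet_Ioi] with u hu
    exact mul_nonneg (add_nonneg (Real.rpow_nonneg (le_of_lt hu) _) (Real.exp_pos _).le)
      (mul_nonneg hδ.le (Real.exp_pos _).le)
  have hs : 1 < 1 + δ := by linarith
  have hD : Tendsto (fun M => ∑ n ∈ Icc 1 M, dirTerm z (1 + δ) n) atTop
      (𝓝 (dirSeries z (1 + δ))) := by
    refine (((summable_dirTerm z hs).of_norm.hasSum.tendsto_sum_nat).comp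
      (tendsto_add_atTop_nat 1)).congr fun M => ?_
    simp only [Function.comp_apply]
    refine (sum_subset (fun n hn => ?_) fun n hn hn' => ?_).symm
    · rw [mem_Icc] at hn
      exact mem_range.2 (by omega)
    · rw [mem_range] at hn
      rw [mem_Icc] at hn'
      obtain rfl : n = 0 := by omega
      exact dirTerm_zero z hs
  have hGlim : Tendsto (fun M : ℕ => ∫ u in (0 : ℝ)..Real.log (M + 1 : ℕ), G u) atTop
      (𝓝 ((δ : ℂ) ^ (-z) * Complex.Gamma (z + 1))) := by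
    have e : ∫ u in Set.Ioi (0 : ℝ), G u = (δ : ℂ) ^ (-z) * Complex.Gamma (z + 1) := by
      have hδc : (δ : ℂ) ≠ 0 := Complex.ofReal_ne_zero.2 hδ.ne'
      rw [setIntegral_congr_fun measurableSet_Ioi (g := fun u : ℝ =>
        (δ : ℂ) * ((u : ℂ) ^ ((z + 1) - 1) * Complex.exp (-((δ : ℂ) * (u : ℂ))))) fun u _ => by
          rw [hG, hw, add_sub_cancel_right]
          push_cast
          ring,
        integral_const_mul, Complex.integral_cpow_mul_exp_neg_mul_Ioi
          (by rw [Complex.add_re, Complex.one_re]; linarith) hδ, one_div, Complex.inv_cpow _ _ (by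
            rw [Complex.arg_ofReal_of_nonneg hδ.le]; exact Real.pi_ne_zero.symm),
        ← Complex.cpow_neg, ← mul_assoc]
      congr 1
      nth_rewrite 1 [← Complex.cpow_one (δ : ℂ)]
      rw [← Complex.cpow_add _ _ hδc]
      ring_nf
    exact e ▸ intervalIntegral_tendsto_integral_Ioi 0 hGint
      (Real.tendsto_log_atTop.comp (tendsto_natCast_atTop_atTop.comp (tendsto_add_atTop_nat 1)))
  have hlim := ((hD.sub hend).sub (hGlim.const_mul a)).norm
  rw [sub_zero] at hlim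
  exact le_of_tendsto hlim (Eventually.of_forall hpartial)

/-- **The constant is `φ z`.** -/
theorem mean_constant_eq {z a : ℂ} {C : ℝ} (hre : ‖z‖ - 1 / 2 ≤ z.re)
    (h : ∀ N : ℕ, 3 ≤ N →
      ‖omegaMean z N - a * (Real.log N : ℂ) ^ z‖ ≤ C * Real.log N ^ (z.re - 1 / 2)) :
    a = selConst z := by
  have hzre : -(1 / 2) < z.re := by
    by_contra hle
    have h0 : ‖z‖ = 0 := le_antisymm (by linarith [not_lt.1 hle]) (norm_nonneg z)
    rw [norm_eq_zero.1 h0, Complex.zero_re] at hle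
    norm_num at hle
  obtain ⟨ρ, hρ⟩ : ∃ ρ, ρ = z.re - 1 / 2 := ⟨_, rfl⟩
  rw [← hρ] at h
  have hρ1 : -1 < ρ := by linarith
  have hl3 : Real.log 3 ≤ 2 := by
    rw [Real.log_le_iff_le_exp (by norm_num)]
    linarith [Real.add_one_le_exp (2 : ℝ)]
  obtain ⟨T, hT⟩ : ∃ T : ℝ, T = 2 * Real.exp ‖z‖ * ‖z‖ := ⟨_, rfl⟩
  obtain ⟨K, hK⟩ : ∃ K : ℝ, K = (|C| + ‖a‖ * T) * (2 : ℝ) ^ |ρ| +
      (3 * (‖omegaMean z 1‖ + ‖omegaMean z 2‖) + 2 * ‖a‖) := ⟨_, rfl⟩
  have hT0 : 0 ≤ T := hT ▸ by positivity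
  have hbound : ∀ n : ℕ, 1 ≤ n → ∀ u : ℝ, 0 < u → Real.log n ≤ u → u ≤ Real.log (n + 1 : ℕ) →
      ‖omegaMean z n - a * (u : ℂ) ^ z‖ ≤ K * (u ^ ρ + Real.exp (-u)) := by
    intro n hn u hu hun hun'
    have hw0 : 0 ≤ u ^ ρ := Real.rpow_nonneg hu.le _
    have he0 := (Real.exp_pos (-u)).le
    rcases (show n ≤ 2 ∨ 3 ≤ n by omega) with h2 | h3
    · have hu2 : u ≤ Real.log 3 := hun'.trans
        (Real.log_le_log (Nat.cast_pos.2 (Nat.succ_pos n))
          (by exact_mod_cast (show n + 1 ≤ 3 by omega)))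
      have hS : ‖omegaMean z n‖ ≤ ‖omegaMean z 1‖ + ‖omegaMean z 2‖ := by
        rcases (show n = 1 ∨ n = 2 by omega) with rfl | rfl <;>
          linarith [norm_nonneg (omegaMean z 1), norm_nonneg (omegaMean z 2)]
      have he : 1 / 3 ≤ Real.exp (-u) := by
        refine le_trans (le_of_eq ?_) (Real.exp_le_exp.2 (neg_le_neg hu2))
        rw [Real.exp_neg, Real.exp_log (by norm_num), one_div]
      have hpz : u ^ z.re ≤ 2 * u ^ ρ := by
        rw [show z.re = ρ + 1 / 2 by rw [hρ]; ring, Real.rpow_add hu, mul_comm (2 : ℝ)]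
        refine mul_le_mul_of_nonneg_left ?_ hw0
        rw [← Real.sqrt_eq_rpow, Real.sqrt_le_left zero_le_two]
        linarith
      refine (norm_sub_le _ _).trans ?_
      rw [norm_mul, Complex.norm_cpow_eq_rpow_re_of_pos hu]
      have h1 := mul_le_mul_of_nonneg_left hpz (norm_nonneg a)
      have h2' := mul_le_mul_of_nonneg_left he
        (show (0 : ℝ) ≤ 3 * (‖omegaMean z 1‖ + ‖omegaMean z 2‖) by positivity)
      have h4 : 0 ≤ (|C| + ‖a‖ * T) * (2 : ℝ) ^ |ρ| := by positivity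
      have h5 := mul_nonneg h4 (add_nonneg hw0 he0)
      have h6 : 0 ≤ (3 * (‖omegaMean z 1‖ + ‖omegaMean z 2‖)) * u ^ ρ := by positivity
      have h7 : 0 ≤ 2 * ‖a‖ * Real.exp (-u) := by positivity
      rw [hK]
      linarith
    · obtain ⟨hd0, hd1⟩ := log_succ_bounds hn
      obtain ⟨L, hL⟩ : ∃ L, L = Real.log n := ⟨_, rfl⟩
      have hL1 : 1 ≤ L := hL ▸ one_le_log_natCast h3
      rw [← hL] at hun
      obtain ⟨d, hd⟩ : ∃ d, d = u - L := ⟨_, rfl⟩
      have hdd : 0 ≤ d := by linarith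
      have hd2 : d ≤ 1 := by
        have h1n : 1 / (n : ℝ) ≤ 1 := (div_le_one (Nat.cast_pos.2 (by omega))).2
          (by exact_mod_cast hn)
        rw [← hL] at hd1
        linarith
      have hdL : d ≤ L := hd2.trans hL1
      have hcp := (norm_cpow_step_le (w := -z) (W := ‖z‖) (norm_neg z).le (L := L)
        (by linarith) hdd hdL).1
      rw [neg_neg, Complex.neg_re, neg_neg, show L + d = u by rw [hd]; ring, ← hT] at hcp
      have hcp' : ‖(u : ℂ) ^ z - (L : ℂ) ^ z‖ ≤ T * L ^ ρ := by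
        refine hcp.trans ?_
        rw [mul_assoc]
        refine mul_le_mul_of_nonneg_left ?_ hT0
        rw [div_mul_eq_mul_div, div_le_iff₀ (by linarith), hρ,
          ← Real.rpow_add_one (by linarith : L ≠ 0)]
        exact (mul_le_of_le_one_left (Real.rpow_nonneg (by linarith) _) hd2).trans
          (Real.rpow_le_rpow_of_exponent_le hL1 (by linarith))
      have hLu : L ^ ρ ≤ (2 : ℝ) ^ |ρ| * u ^ ρ := by
        rcases le_or_gt 0 ρ with h0 | h0
        · refine (Real.rpow_le_rpow (by linarith) hun h0).trans (le_mul_of_one_le_left hw0 ?_)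
          exact Real.one_le_rpow one_le_two (abs_nonneg _)
        · rw [abs_of_neg h0, Real.rpow_neg two_pos.le, inv_mul_eq_div, le_div_iff₀' (by positivity),
            ← Real.mul_rpow two_pos.le (by linarith)]
          exact Real.rpow_le_rpow_of_nonpos hu (by linarith) h0.le
      have hmain : ‖omegaMean z n - a * (L : ℂ) ^ z‖ ≤ |C| * L ^ ρ := hL ▸
        (h n h3).trans (mul_le_mul_of_nonneg_right (le_abs_self C) (Real.rpow_nonneg
          (Real.log_natCast_nonneg n) _))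
      calc ‖omegaMean z n - a * (u : ℂ) ^ z‖
          ≤ ‖omegaMean z n - a * (L : ℂ) ^ z‖ + ‖a * (L : ℂ) ^ z - a * (u : ℂ) ^ z‖ :=
            norm_sub_le_norm_sub_add_norm_sub _ _ _
        _ ≤ |C| * L ^ ρ + ‖a‖ * (T * L ^ ρ) := by
            refine add_le_add hmain ?_
            rw [← mul_sub, norm_mul, norm_sub_rev]
            exact mul_le_mul_of_nonneg_left hcp' (norm_nonneg a)
        _ = (|C| + ‖a‖ * T) * L ^ ρ := by ring
        _ ≤ (|C| + ‖a‖ * T) * ((2 : ℝ) ^ |ρ| * u ^ ρ) :=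
            mul_le_mul_of_nonneg_left hLu (by positivity)
        _ ≤ _ := by
            rw [hK, ← mul_assoc]
            refine mul_le_mul (le_add_of_nonneg_right (by positivity)) (le_add_of_nonneg_right he0)
              hw0 (by positivity)
  obtain ⟨B, hB, hbb⟩ := exists_basic_bounds (max 1 ‖z‖) (le_max_left _ _)
  have hend : ∀ δ : ℝ, 0 < δ → Tendsto (fun M : ℕ =>
      omegaMean z M * ((((M + 1 : ℕ) : ℝ) ^ (-δ) : ℝ) : ℂ)) atTop (𝓝 0) := by
    intro δ hδ
    have h0 : Tendsto (fun M : ℕ => Real.log M ^ ‖z‖ / (M : ℝ) ^ δ) atTop (𝓝 0) :=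
      (isLittleO_log_rpow_rpow_atTop ‖z‖ hδ).tendsto_div_nhds_zero.comp
        tendsto_natCast_atTop_atTop
    refine squeeze_zero_norm' ?_ (by simpa using h0.const_mul B)
    filter_upwards [eventually_ge_atTop 3] with M hM
    rw [norm_mul, Complex.norm_real, Real.norm_eq_abs, abs_of_nonneg (by positivity)]
    refine (mul_le_mul ((hbb z (le_max_right _ _) M hM).1) (Real.rpow_le_rpow_of_nonpos
      (show (0 : ℝ) < M from Nat.cast_pos.2 (by omega)) (by exact_mod_cast M.le_succ)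
      (neg_nonpos.2 hδ.le)) (by positivity)
      (mul_nonneg hB.le (Real.rpow_nonneg (Real.log_natCast_nonneg M) _))).trans (le_of_eq ?_)
    rw [Real.rpow_neg (Nat.cast_nonneg M)]
    ring
  obtain ⟨W, hW⟩ : ∃ W : ℝ, W = |K| * (Real.Gamma (ρ + 1) + 1) := ⟨_, rfl⟩
  have hG0 : 0 < Real.Gamma (ρ + 1) := Real.Gamma_pos_of_pos (by linarith)
  have hlimit : Tendsto (fun δ : ℝ => (δ : ℂ) ^ z * dirSeries z (1 + δ)) (𝓝[>] 0)
      (𝓝 (a * Complex.Gamma (z + 1))) := by
    rw [← tendsto_sub_nhds_zero_iff]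
    refine squeeze_zero_norm' (a := fun δ : ℝ => W * (δ ^ (1 / 2 : ℝ) + δ ^ (z.re + 1))) ?_ ?_
    · filter_upwards [eventually_mem_nhdsWithin] with δ hδ
      rw [Set.mem_Ioi] at hδ
      have hδc : (δ : ℂ) ≠ 0 := Complex.ofReal_ne_zero.2 hδ.ne'
      have h1 := norm_dirSeries_sub_le hδ (by linarith) (hρ ▸ hbound) (hend δ hδ)
      rw [← hρ] at h1
      rw [show (δ : ℂ) ^ z * dirSeries z (1 + δ) - a * Complex.Gamma (z + 1) = (δ : ℂ) ^ z *
          (dirSeries z (1 + δ) - a * ((δ : ℂ) ^ (-z) * Complex.Gamma (z + 1))) by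
        rw [Complex.cpow_neg]
        have : (δ : ℂ) ^ z ≠ 0 := Complex.cpow_ne_zero_iff.2 (Or.inl hδc)
        field_simp, norm_mul, Complex.norm_cpow_eq_rpow_re_of_pos hδ]
      refine (mul_le_mul_of_nonneg_left h1 (Real.rpow_nonneg hδ.le _)).trans ?_
      have e1 : δ ^ z.re * (δ * (1 / δ) ^ (ρ + 1)) = δ ^ (1 / 2 : ℝ) := by
        rw [one_div δ, Real.inv_rpow hδ.le, ← Real.rpow_neg hδ.le]
        nth_rewrite 2 [← Real.rpow_one δ]
        rw [← Real.rpow_add hδ, ← Real.rpow_add hδ, hρ]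
        ring_nf
      have e2 : δ ^ z.re * δ = δ ^ (z.re + 1) := (Real.rpow_add_one hδ.ne' _).symm
      calc δ ^ z.re * (|K| * (δ * ((1 / δ) ^ (ρ + 1) * Real.Gamma (ρ + 1)) + δ))
          = |K| * ((δ ^ z.re * (δ * (1 / δ) ^ (ρ + 1))) * Real.Gamma (ρ + 1) + δ ^ z.re * δ) := by
            ring
        _ = |K| * (δ ^ (1 / 2 : ℝ) * Real.Gamma (ρ + 1) + δ ^ (z.re + 1)) := by rw [e1, e2]
        _ ≤ W * (δ ^ (1 / 2 : ℝ) + δ ^ (z.re + 1)) := by
            rw [hW, mul_assoc |K|]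
            refine mul_le_mul_of_nonneg_left ?_ (abs_nonneg K)
            have := Real.rpow_nonneg hδ.le (1 / 2 : ℝ)
            have := mul_nonneg hG0.le (Real.rpow_nonneg hδ.le (z.re + 1))
            linarith
    · have t1 := Real.continuousAt_rpow_const (0 : ℝ) (1 / 2 : ℝ) (Or.inr (by norm_num))
      have t2 := Real.continuousAt_rpow_const (0 : ℝ) (z.re + 1) (Or.inr (by linarith))
      have h := (t1.add t2).tendsto.const_mul W
      simp only [Pi.add_apply, Real.zero_rpow (show (1 / 2 : ℝ) ≠ 0 by norm_num),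
        Real.zero_rpow (show z.re + 1 ≠ 0 by linarith), add_zero, mul_zero] at h
      exact h.mono_left nhdsWithin_le_nhds
  have huniq := tendsto_nhds_unique hlimit (tendsto_dirSeries z)
  have hG : Complex.Gamma (z + 1) ≠ 0 :=
    Complex.Gamma_ne_zero_of_re_pos (by rw [Complex.add_re, Complex.one_re]; linarith)
  rw [selConst, ← huniq, mul_assoc, mul_inv_cancel₀ hG, mul_one]

end FA.SatheSelberg

end
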