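import Fermat.Agent.SatheSelberg.Basic
import Mathlib.Analysis.Normed.Module.MultipliableUniformlyOn
import Mathlib.Analysis.Complex.LocallyUniformLimit
import Mathlib.Analysis.SpecialFunctions.Gamma.Beta
import Mathlib.NumberTheory.SumPrimeReciprocals

/-!
# The constant `φ z = (1 / Γ (z + 1)) ∏ₚ (1 + z / (p - 1)) (1 - 1/p) ^ z`

The product `∏ₚ (1 + z / (p ^ s - 1)) (1 - p ^ (-s)) ^ z` converges uniformly in bounded `z` and
`1 ≤ s ≤ 2`, so it is holomorphic in `z` and continuous in `s`.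
-/

set_option autoImplicit false

noncomputable section

namespace FA.SatheSelberg

open Filter Set
open scoped Topology

/-- `(1 + z / (p ^ s - 1)) (1 - p ^ (-s)) ^ z`. -/
def selFactor (p : Nat.Primes) (x : ℂ × ℝ) : ℂ :=
  (1 + x.1 / (((((p : ℕ) : ℝ) ^ x.2 - 1 : ℝ)) : ℂ)) *
    Complex.exp (x.1 * ((Real.log (1 - (((p : ℕ) : ℝ) ^ x.2)⁻¹) : ℝ) : ℂ))

/-- The product. -/
def selProd (x : ℂ × ℝ) : ℂ := ∏' p, selFactor p x

/-- `φ`. -/
def selConst (z : ℂ) : ℂ := selProd (z, 1) * (Complex.Gamma (z + 1))⁻¹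

theorem two_le_prime_rpow (p : Nat.Primes) {s : ℝ} (hs : 1 ≤ s) :
    ((p : ℕ) : ℝ) ≤ ((p : ℕ) : ℝ) ^ s ∧ 2 ≤ ((p : ℕ) : ℝ) ^ s := by
  have hp : (2 : ℝ) ≤ ((p : ℕ) : ℝ) := by exact_mod_cast p.2.two_le
  have h := Real.self_le_rpow_of_one_le (show (1 : ℝ) ≤ ((p : ℕ) : ℝ) by linarith) hs
  exact ⟨h, hp.trans h⟩

theorem norm_selFactor_sub_one_le {R : ℝ} (p : Nat.Primes) {z : ℂ} (hz : ‖z‖ ≤ R) {s : ℝ}
    (hs : 1 ≤ s) : ‖selFactor p (z, s) - 1‖ ≤
      12 * (1 + R) ^ 2 * Real.exp (2 * R) * (1 / ((p : ℕ) : ℝ) ^ 2) := by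
  obtain ⟨hps, hP2⟩ := two_le_prime_rpow p hs
  have hp : (2 : ℝ) ≤ ((p : ℕ) : ℝ) := by exact_mod_cast p.2.two_le
  obtain ⟨P, hP⟩ : ∃ P, P = ((p : ℕ) : ℝ) ^ s := ⟨_, rfl⟩
  rw [← hP] at hps hP2
  obtain ⟨x, hx⟩ : ∃ x, x = P⁻¹ := ⟨_, rfl⟩
  have hR : 0 ≤ R := (norm_nonneg z).trans hz
  have hx0 : 0 ≤ x := hx ▸ inv_nonneg.2 (by linarith)
  have hxh : x ≤ 1 / 2 := by
    rw [hx, ← one_div]
    exact one_div_le_one_div_of_le two_pos hP2
  have hxp : x ^ 2 ≤ 1 / ((p : ℕ) : ℝ) ^ 2 := by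
    rw [hx, inv_pow, ← one_div]
    exact one_div_le_one_div_of_le (by positivity) (pow_le_pow_left₀ (by linarith) hps 2)
  obtain ⟨l, hl⟩ : ∃ l, l = Real.log (1 - x) := ⟨_, rfl⟩
  have hl1 : l ≤ -x := by
    rw [hl]
    linarith [Real.log_le_sub_one_of_pos (show (0 : ℝ) < 1 - x by linarith)]
  have hl2 : -(x / (1 - x)) ≤ l := by
    rw [hl]
    refine le_trans (le_of_eq ?_) (Real.one_sub_inv_le_log_of_pos (by linarith))
    have : 1 - x ≠ 0 := by linarith
    field_simp
    ring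
  obtain ⟨y, hy⟩ : ∃ y, y = x / (1 - x) := ⟨_, rfl⟩
  rw [← hy] at hl2
  have hy2 : y ≤ 2 * x := by
    rw [hy, div_le_iff₀ (by linarith)]
    nlinarith
  have hyx : y - x ≤ 2 * x ^ 2 := by
    rw [hy, div_sub' (by linarith : (1 : ℝ) - x ≠ 0), div_le_iff₀ (by linarith)]
    nlinarith
  have hy0 : 0 ≤ y := hy ▸ div_nonneg hx0 (by linarith)
  obtain ⟨v, hv⟩ : ∃ v : ℂ, v = z * (l : ℂ) := ⟨_, rfl⟩
  have hvn : ‖v‖ ≤ 2 * R * x := by
    rw [hv, norm_mul, Complex.norm_real, Real.norm_eq_abs, abs_of_nonpos (by linarith)]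
    calc ‖z‖ * -l ≤ R * (2 * x) := mul_le_mul hz (by linarith) (by linarith) hR
      _ = _ := by ring
  have hv2R : ‖v‖ ≤ 2 * R := hvn.trans (mul_le_of_le_one_right (by positivity) (by linarith))
  have e : selFactor p (z, s) - 1 = (Complex.exp v - (1 + v)) + z * ((l + y : ℝ) : ℂ) +
      z * (y : ℂ) * (Complex.exp v - 1) := by
    have e1 : (z : ℂ) / (((P - 1 : ℝ)) : ℂ) = z * (y : ℂ) := by
      rw [hy, hx, div_eq_mul_inv, ← Complex.ofReal_inv]
      congr 2
      have : P ≠ 0 := by linarith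
      have : P - 1 ≠ 0 := by linarith
      field_simp
    rw [selFactor, ← hP, e1, ← hx, ← hl, hv]
    push_cast
    ring
  have h1 : ‖Complex.exp v - 1‖ ≤ 2 * R * x * Real.exp (2 * R) := by
    have h := Complex.norm_exp_sub_sum_le_norm_mul_exp v 1
    rw [Finset.sum_range_one, pow_zero, Nat.factorial_zero, Nat.cast_one, div_one, pow_one] at h
    exact h.trans (mul_le_mul hvn (Real.exp_le_exp.2 hv2R) (Real.exp_pos _).le (by positivity))
  have h2 : ‖Complex.exp v - (1 + v)‖ ≤ (2 * R * x) ^ 2 * Real.exp (2 * R) := by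
    have h := Complex.norm_exp_sub_sum_le_norm_mul_exp v 2
    simp only [Finset.sum_range_succ, Finset.sum_range_zero, zero_add, pow_zero, pow_one,
      Nat.factorial_zero, Nat.factorial_one, Nat.cast_one, div_one] at h
    exact h.trans (mul_le_mul (pow_le_pow_left₀ (norm_nonneg v) hvn 2) (Real.exp_le_exp.2 hv2R)
      (Real.exp_pos _).le (by positivity))
  rw [e]
  refine (norm_add_le _ _).trans (le_trans (add_le_add ((norm_add_le _ _).trans (add_le_add h2
    (?_ : _ ≤ R * (2 * x ^ 2))))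
      (?_ : _ ≤ R * (2 * x) * (2 * R * x * Real.exp (2 * R)))) ?_)
  · rw [norm_mul, Complex.norm_real, Real.norm_eq_abs, abs_of_nonneg (by linarith)]
    exact mul_le_mul hz (by linarith) (by linarith) hR
  · rw [norm_mul, norm_mul, Complex.norm_real, Real.norm_eq_abs, abs_of_nonneg hy0]
    exact mul_le_mul (mul_le_mul hz hy2 hy0 hR) h1 (norm_nonneg _) (by positivity)
  · have he := Real.one_le_exp (show 0 ≤ 2 * R by positivity)
    have h4 : R * x ^ 2 ≤ R * Real.exp (2 * R) * x ^ 2 :=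
      mul_le_mul_of_nonneg_right (le_mul_of_one_le_right hR he) (sq_nonneg x)
    calc (2 * R * x) ^ 2 * Real.exp (2 * R) + R * (2 * x ^ 2) +
          R * (2 * x) * (2 * R * x * Real.exp (2 * R))
        ≤ (8 * R ^ 2 + 2 * R) * Real.exp (2 * R) * x ^ 2 := by linarith
      _ ≤ 12 * (1 + R) ^ 2 * Real.exp (2 * R) * (1 / ((p : ℕ) : ℝ) ^ 2) := by
          gcongr
          nlinarith

theorem summable_prime_sq (K : ℝ) :
    Summable fun p : Nat.Primes => K * (1 / ((p : ℕ) : ℝ) ^ 2) :=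
  ((Real.summable_one_div_nat_pow.2 one_lt_two).subtype _).mul_left K

theorem continuousOn_selFactor (p : Nat.Primes) (R : ℝ) :
    ContinuousOn (selFactor p) (Metric.closedBall (0 : ℂ) R ×ˢ Icc (1 : ℝ) 2) := by
  have hp : (0 : ℝ) < ((p : ℕ) : ℝ) := Nat.cast_pos.2 p.2.pos
  have hrp : Continuous fun x : ℂ × ℝ => ((p : ℕ) : ℝ) ^ x.2 :=
    continuous_const.rpow continuous_snd fun _ => Or.inl hp.ne'
  have hne : ∀ x ∈ Metric.closedBall (0 : ℂ) R ×ˢ Icc (1 : ℝ) 2, 2 ≤ ((p : ℕ) : ℝ) ^ x.2 :=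
    fun x hx => (two_le_prime_rpow p hx.2.1).2
  refine (continuousOn_const.add (continuousOn_fst.div
    (Complex.continuous_ofReal.comp_continuousOn (hrp.continuousOn.sub continuousOn_const))
    fun x hx => ?_)).mul (Complex.continuous_exp.comp_continuousOn (continuousOn_fst.mul
      (Complex.continuous_ofReal.comp_continuousOn ((continuousOn_const.sub
        (hrp.continuousOn.inv₀ fun x hx => ?_)).log fun x hx => ?_))))
  · refine Complex.ofReal_ne_zero.2 (sub_ne_zero.2 ?_)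
    linarith [hne x hx]
  · linarith [hne x hx]
  · have h := hne x hx
    have : (((p : ℕ) : ℝ) ^ x.2)⁻¹ ≤ 1 / 2 := by
      rw [← one_div]
      exact one_div_le_one_div_of_le two_pos h
    refine sub_ne_zero.2 ?_
    simp only [Pi.inv_apply]
    linarith

theorem hasProdUniformlyOn_selFactor (R : ℝ) :
    HasProdUniformlyOn selFactor selProd (Metric.closedBall (0 : ℂ) R ×ˢ Icc (1 : ℝ) 2) := by
  have h := Summable.hasProdUniformlyOn_one_add (f := fun p x => selFactor p x - 1)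
    ((isCompact_closedBall (0 : ℂ) R).prod isCompact_Icc)
    (summable_prime_sq (12 * (1 + R) ^ 2 * Real.exp (2 * R)))
    (Eventually.of_forall fun p x hx =>
      norm_selFactor_sub_one_le p (mem_closedBall_zero_iff.1 hx.1) hx.2.1)
    fun p => (continuousOn_selFactor p R).sub continuousOn_const
  simp only [add_sub_cancel] at h
  exact h

theorem hasProd_selFactor {z : ℂ} {s : ℝ} (hs : 1 ≤ s) (hs2 : s ≤ 2) :
    HasProd (fun p => selFactor p (z, s)) (selProd (z, s)) :=
  (hasProdUniformlyOn_selFactor ‖z‖).hasProd ⟨mem_closedBall_zero_iff.2 le_rfl, hs, hs2⟩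

theorem continuousOn_selProd (R : ℝ) :
    ContinuousOn selProd (Metric.closedBall (0 : ℂ) R ×ˢ Icc (1 : ℝ) 2) :=
  (hasProdUniformlyOn_selFactor R).tendstoUniformlyOn.continuousOn
    (Eventually.of_forall fun _ => continuousOn_finsetProd _ fun p _ =>
      continuousOn_selFactor p R).frequently

theorem tendsto_selProd_one (z : ℂ) :
    Tendsto (fun s : ℝ => selProd (z, s)) (𝓝[>] 1) (𝓝 (selProd (z, 1))) := by
  have h := (continuousOn_selProd ‖z‖).comp (Continuous.continuousOn (s := Icc (1 : ℝ) 2)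
    (continuous_const.prodMk continuous_id : Continuous fun s : ℝ => (z, s)))
    fun s hs => ⟨mem_closedBall_zero_iff.2 le_rfl, hs⟩
  exact (h 1 (left_mem_Icc.2 one_le_two)).mono_left
    (nhdsWithin_le_iff.2 (Icc_mem_nhdsGT one_lt_two))

theorem differentiable_selProd_one : Differentiable ℂ fun z : ℂ => selProd (z, 1) := fun z => by
  have hd : DifferentiableOn ℂ (fun w : ℂ => selProd (w, 1)) (Metric.ball 0 (‖z‖ + 1)) := by
    refine TendstoLocallyUniformlyOn.differentiableOn (φ := atTop)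
      (F := fun (t : Finset Nat.Primes) (w : ℂ) => ∏ p ∈ t, selFactor p (w, 1)) ?_
      (Eventually.of_forall fun t => ?_) Metric.isOpen_ball
    · refine TendstoUniformlyOn.tendstoLocallyUniformlyOn ?_
      exact ((hasProdUniformlyOn_selFactor (‖z‖ + 1)).tendstoUniformlyOn.comp
        fun w : ℂ => (w, (1 : ℝ))).mono fun w hw =>
          ⟨Metric.ball_subset_closedBall hw, le_rfl, one_le_two⟩
    · refine (Differentiable.fun_finsetProd fun p _ => ?_).differentiableOn
      simp only [selFactor]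
      exact ((differentiable_id.div_const _).const_add 1).mul
        ((differentiable_id (𝕜 := ℂ)).mul_const _).cexp
  exact hd.differentiableAt (Metric.isOpen_ball.mem_nhds (by simp))

theorem differentiable_selConst : Differentiable ℂ selConst :=
  differentiable_selProd_one.mul
    (Complex.differentiable_one_div_Gamma.comp (differentiable_id.add_const 1))

theorem exists_selConst_le (R : ℝ) : ∃ C : ℝ, 0 < C ∧ ∀ z : ℂ, ‖z‖ ≤ R → ‖selConst z‖ ≤ C := by
  obtain ⟨C, hC⟩ := (isCompact_closedBall (0 : ℂ) R).exists_bound_of_continuousOn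
    differentiable_selConst.continuous.continuousOn
  exact ⟨|C| + 1, by positivity, fun z hz =>
    (hC z (mem_closedBall_zero_iff.2 hz)).trans (by linarith [le_abs_self C])⟩

/-- **Taylor to second order.** -/
theorem exists_selConst_taylor (R : ℝ) : ∃ C : ℝ, 0 < C ∧ ∀ z a : ℂ, ‖z‖ ≤ R → ‖a‖ ≤ R →
    ‖selConst z - (selConst a + deriv selConst a * (z - a))‖ ≤ C * ‖z - a‖ ^ 2 := by
  have hd := differentiable_selConst
  have hd1 : Differentiable ℂ (deriv selConst) := fun w =>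
    ((hd.differentiableOn (s := univ)).deriv isOpen_univ).differentiableAt univ_mem
  obtain ⟨C, hC⟩ := (isCompact_closedBall (0 : ℂ) R).exists_bound_of_continuousOn
    (((hd1.differentiableOn (s := univ)).deriv isOpen_univ).continuousOn.mono (subset_univ _))
  refine ⟨|C| + 1, by positivity, fun z a hz ha => ?_⟩
  have hconv : Convex ℝ (Metric.closedBall (0 : ℂ) R) := convex_closedBall 0 R
  have hlip : ∀ w ∈ Metric.closedBall (0 : ℂ) R,
      ‖deriv selConst w - deriv selConst a‖ ≤ (|C| + 1) * ‖w - a‖ := fun w hw =>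
    hconv.norm_image_sub_le_of_norm_hasDerivWithin_le
      (fun x _ => (hd1 x).hasDerivAt.hasDerivWithinAt)
      (fun x hx => (hC x hx).trans (by linarith [le_abs_self C]))
      (mem_closedBall_zero_iff.2 ha) hw
  obtain ⟨h, hh⟩ : ∃ h : ℂ → ℂ, h = fun w => selConst w - deriv selConst a * w := ⟨_, rfl⟩
  have hseg : segment ℝ a z ⊆ Metric.closedBall (0 : ℂ) R :=
    hconv.segment_subset (mem_closedBall_zero_iff.2 ha) (mem_closedBall_zero_iff.2 hz)
  have hb := (convex_segment a z).norm_image_sub_le_of_norm_hasDerivWithin_le (f := h)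
    (f' := fun w => deriv selConst w - deriv selConst a) (C := (|C| + 1) * ‖z - a‖)
    (fun x _ => by
      rw [hh]
      exact ((hd x).hasDerivAt.sub ((hasDerivAt_id x).const_mul _ |>.congr_deriv
        (mul_one _))).hasDerivWithinAt)
    (fun x hx => (hlip x (hseg hx)).trans
      (mul_le_mul_of_nonneg_left (norm_sub_le_of_mem_segment hx) (by positivity)))
    (left_mem_segment ℝ a z) (right_mem_segment ℝ a z)
  rw [hh] at hb
  simp only at hb
  rw [show selConst z - (selConst a + deriv selConst a * (z - a)) =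
    selConst z - deriv selConst a * z - (selConst a - deriv selConst a * a) by ring, sq,
    ← mul_assoc]
  exact hb

theorem selProd_zero {s : ℝ} : selProd (0, s) = 1 := by
  rw [selProd, tprod_congr fun p => show selFactor p (0, s) = 1 by simp [selFactor], tprod_one]

theorem selConst_zero : selConst 0 = 1 := by
  rw [selConst, selProd_zero, zero_add, Complex.Gamma_one, inv_one, mul_one]

/-- `∏ₚ (1 + r / (p - 1)) (1 - 1/p) ^ r`. -/
def selbergProduct (r : ℝ) : ℝ :=
  ∏' p : Nat.Primes, (1 + r / (((p : ℕ) : ℝ) - 1)) * (1 - 1 / ((p : ℕ) : ℝ)) ^ r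

theorem selFactor_ofReal (p : Nat.Primes) (r : ℝ) : selFactor p ((r : ℂ), 1) =
    (((1 + r / (((p : ℕ) : ℝ) - 1)) * (1 - 1 / ((p : ℕ) : ℝ)) ^ r : ℝ) : ℂ) := by
  have hp : (2 : ℝ) ≤ ((p : ℕ) : ℝ) := by exact_mod_cast p.2.two_le
  have h : (0 : ℝ) < 1 - 1 / ((p : ℕ) : ℝ) := by
    have : 1 / ((p : ℕ) : ℝ) ≤ 1 / 2 := one_div_le_one_div_of_le two_pos hp
    linarith
  rw [selFactor, Real.rpow_def_of_pos h]
  simp only [Real.rpow_one, one_div]
  push_cast
  rw [mul_comm (r : ℂ) ((Real.log _ : ℝ) : ℂ)]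

theorem multipliable_selberg (r : ℝ) : Multipliable fun p : Nat.Primes =>
    (1 + r / (((p : ℕ) : ℝ) - 1)) * (1 - 1 / ((p : ℕ) : ℝ)) ^ r := by
  have hK := summable_prime_sq (12 * (1 + |r|) ^ 2 * Real.exp (2 * |r|))
  have h : Summable fun p : Nat.Primes =>
      (1 + r / (((p : ℕ) : ℝ) - 1)) * (1 - 1 / ((p : ℕ) : ℝ)) ^ r - 1 := by
    refine hK.of_norm_bounded fun p => ?_
    have h1 := norm_selFactor_sub_one_le (R := |r|) p (z := (r : ℂ)) (by simp) le_rfl
    rw [selFactor_ofReal, ← Complex.ofReal_one, ← Complex.ofReal_sub, Complex.norm_real] at h1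
    exact h1
  simpa only [add_sub_cancel] using Real.multipliable_one_add_of_summable h

theorem selProd_ofReal (r : ℝ) : selProd ((r : ℂ), 1) = (selbergProduct r : ℂ) := by
  exact (tprod_congr fun p => selFactor_ofReal p r).trans
    ((multipliable_selberg r).map_tprod Complex.ofRealHom Complex.continuous_ofReal).symm

theorem selConst_ofReal (r : ℝ) :
    selConst (r : ℂ) = ((selbergProduct r / Real.Gamma (r + 1) : ℝ) : ℂ) := by
  rw [selConst, selProd_ofReal, ← Complex.ofReal_one, ← Complex.ofReal_add, Complex.Gamma_ofReal,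
    Complex.ofReal_div, div_eq_mul_inv]

theorem selbergProduct_pos {r : ℝ} (hr : 0 ≤ r) : 0 < selbergProduct r := by
  have hpos : ∀ p : Nat.Primes,
      0 < (1 + r / (((p : ℕ) : ℝ) - 1)) * (1 - 1 / ((p : ℕ) : ℝ)) ^ r := fun p => by
    have hp : (2 : ℝ) ≤ ((p : ℕ) : ℝ) := by exact_mod_cast p.2.two_le
    have : 1 / ((p : ℕ) : ℝ) ≤ 1 / 2 := one_div_le_one_div_of_le two_pos hp
    have : 0 ≤ r / (((p : ℕ) : ℝ) - 1) := div_nonneg hr (by linarith)
    exact mul_pos (by linarith) (Real.rpow_pos_of_pos (by linarith) r)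
  have hK := summable_prime_sq (12 * (1 + |r|) ^ 2 * Real.exp (2 * |r|))
  have h : Summable fun p : Nat.Primes =>
      (1 + r / (((p : ℕ) : ℝ) - 1)) * (1 - 1 / ((p : ℕ) : ℝ)) ^ r - 1 := by
    refine hK.of_norm_bounded fun p => ?_
    have h1 := norm_selFactor_sub_one_le (R := |r|) p (z := (r : ℂ)) (by simp) le_rfl
    rw [selFactor_ofReal, ← Complex.ofReal_one, ← Complex.ofReal_sub, Complex.norm_real] at h1
    exact h1
  have hlog := Real.summable_log_one_add_of_summable h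
  simp only [add_sub_cancel] at hlog
  rw [selbergProduct, ← Real.rexp_tsum_eq_tprod hpos hlog]
  exact Real.exp_pos _

theorem selbergProduct_one : selbergProduct 1 = 1 := by
  rw [selbergProduct]
  refine (tprod_congr fun p : Nat.Primes => show
    (1 + 1 / (((p : ℕ) : ℝ) - 1)) * (1 - 1 / ((p : ℕ) : ℝ)) ^ (1 : ℝ) = 1 by
      have hp : (2 : ℝ) ≤ ((p : ℕ) : ℝ) := by exact_mod_cast p.2.two_le
      have : ((p : ℕ) : ℝ) - 1 ≠ 0 := by linarith
      rw [Real.rpow_one]
      field_simp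
      ring).trans tprod_one

end FA.SatheSelberg

end
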