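import Fermat.Agent.SatheSelberg.Basic
import Fermat.Agent.Root.SummaryDelaValleePoussin

/-!
# The two recursions

With `f = z ^ ω`, `S = ∑_{n ≤ N} f n / n`, `T = ∑_{n ≤ N} f n / n · log (N/n)` and
`M = ∑_{n ≤ N} f n`: `S log N = (1 + z) T + O ((log N) ^ r)` from Mertens and
`M log N = z N S + O (N (log N) ^ (r - 1))` from the prime number theorem, where `r = |z|`.
-/

set_option autoImplicit false

noncomputable section

namespace FA.SatheSelberg

open Finset ArithmeticFunction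

/-- `S`. -/
def omegaMean (z : ℂ) (N : ℕ) : ℂ := ∑ n ∈ Icc 1 N, omegaPow z n / n

/-- `M`. -/
def omegaSum (z : ℂ) (N : ℕ) : ℂ := ∑ n ∈ Icc 1 N, omegaPow z n

/-- `T`. -/
def omegaLogMean (z : ℂ) (N : ℕ) : ℂ :=
  ∑ n ∈ Icc 1 N, omegaPow z n / n * ((Real.log N - Real.log n : ℝ) : ℂ)

theorem omegaPow_prime (z : ℂ) {p : ℕ} (hp : p.Prime) : omegaPow z p = z := by
  simp [omegaPow, hp.primeFactors]

/-- **`f (d m) = z f m` but for the proper prime powers.** -/
theorem norm_twist_error_le {R : ℝ} (hR : 1 ≤ R) {z : ℂ} (hz : ‖z‖ ≤ R) (w : ℕ → ℝ)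
    (hw : ∀ n, 0 ≤ w n) (hwm : ∀ a b, w (a * b) = w a * w b) (N : ℕ) :
    ‖∑ d ∈ Icc 1 N, ∑ m ∈ Icc 1 (N / d),
      ((Λ d * w (d * m) : ℝ) : ℂ) * (omegaPow z (d * m) - z * omegaPow z m)‖ ≤
    4 * R ^ 2 * ∑ d ∈ Icc 1 N, highLam d * w d *
      ∑ m ∈ Icc 1 (N / d), omegaSize ‖z‖ m * w m := by
  classical
  have hg := omegaSize_nonneg (norm_nonneg z)
  obtain ⟨F, hF⟩ : ∃ F : ℕ → ℝ, F = fun d => ∑ m ∈ Icc 1 (N / d), omegaSize ‖z‖ m * w m :=
    ⟨_, rfl⟩
  have hF0 : ∀ d, 0 ≤ F d := fun d => hF ▸ sum_nonneg fun m _ => mul_nonneg (hg m) (hw m)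
  obtain ⟨H, hH⟩ : ∃ H : ℕ → ℝ, H = fun d => highLam d * w d * F d := ⟨_, rfl⟩
  have hH0 : ∀ d, 0 ≤ H d := fun d => hH ▸ mul_nonneg (mul_nonneg (highLam_nonneg d) (hw d)) (hF0 d)
  have hdiff : ∀ d, IsPrimePow d → ∀ m, m ≠ 0 →
      ‖omegaPow z (d * m) - z * omegaPow z m‖ ≤ 2 * R * omegaSize ‖z‖ m := fun d hd m hm => by
    refine (norm_sub_le _ _).trans ?_
    rw [norm_mul, norm_omegaPow, norm_omegaPow]
    linarith [omegaSize_mul_le (norm_nonneg z) hR hz hd hm,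
      mul_le_mul_of_nonneg_right hz (hg m)]
  have hterm : ∀ d m, m ≠ 0 → ‖((Λ d * w (d * m) : ℝ) : ℂ) *
      (omegaPow z (d * m) - z * omegaPow z m)‖ ≤ Λ d * (w d * w m) *
        (if d.Prime ∧ ¬ d ∣ m then 0 else 2 * R * omegaSize ‖z‖ m) := fun d m hm => by
    have h0 : 0 ≤ Λ d * (w d * w m) :=
      mul_nonneg vonMangoldt_nonneg (mul_nonneg (hw d) (hw m))
    rw [hwm, norm_mul, Complex.norm_real, Real.norm_eq_abs, abs_of_nonneg h0]
    by_cases hd : IsPrimePow d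
    · refine mul_le_mul_of_nonneg_left ?_ h0
      split_ifs with h
      · rw [omegaPow_mul z ((h.1.coprime_iff_not_dvd).2 h.2), omegaPow_prime z h.1, sub_self,
          norm_zero]
      · exact hdiff d hd m hm
    · rw [vonMangoldt_eq_zero_iff.2 hd]
      simp
  have hd : ∀ d ∈ Icc 1 N, ‖∑ m ∈ Icc 1 (N / d), ((Λ d * w (d * m) : ℝ) : ℂ) *
      (omegaPow z (d * m) - z * omegaPow z m)‖ ≤
        2 * R * H d + 2 * R ^ 2 * (if d.Prime then H (d * d) else 0) := by
    intro d hd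
    rw [mem_Icc] at hd
    refine (norm_sum_le _ _).trans ((sum_le_sum fun m hm => hterm d m
      (by rw [mem_Icc] at hm; omega)).trans ?_)
    by_cases hp : d.Prime
    · rw [if_pos hp]
      refine le_add_of_nonneg_of_le (mul_nonneg (by linarith) (hH0 d)) ?_
      rw [sum_congr rfl fun m _ => show Λ d * (w d * w m) *
          (if d.Prime ∧ ¬ d ∣ m then 0 else 2 * R * omegaSize ‖z‖ m) =
          if d ∣ m then 2 * R * Λ d * w d * (omegaSize ‖z‖ m * w m) else 0 by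
        by_cases h : d ∣ m
        · rw [if_neg (not_and.2 fun _ => not_not.2 h), if_pos h]; ring
        · rw [if_pos ⟨hp, h⟩, if_neg h, mul_zero], ← sum_filter]
      have himg : (Icc 1 (N / d)).filter (fun m => d ∣ m) =
          (Icc 1 (N / (d * d))).image (d * ·) := by
        ext m
        simp only [mem_filter, mem_Icc, mem_image]
        constructor
        · rintro ⟨⟨h1, h2⟩, j, rfl⟩
          refine ⟨j, ⟨Nat.pos_of_mul_pos_left h1, ?_⟩, rfl⟩
          rw [← Nat.div_div_eq_div_mul]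
          exact (Nat.le_div_iff_mul_le hd.1).2 (by rwa [mul_comm])
        · rintro ⟨j, ⟨h1, h2⟩, rfl⟩
          rw [← Nat.div_div_eq_div_mul, Nat.le_div_iff_mul_le hd.1, mul_comm] at h2
          exact ⟨⟨Nat.mul_pos hd.1 h1, h2⟩, dvd_mul_right d j⟩
      rw [himg, sum_image fun a _ b _ h => Nat.eq_of_mul_eq_mul_left hd.1 h, hH, hF]
      simp only [mul_sum]
      refine sum_le_sum fun j hj => ?_
      rw [mem_Icc] at hj
      have hlam : highLam (d * d) = Λ d := by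
        rw [highLam, if_neg (fun h => Nat.not_prime_mul hp.ne_one hp.ne_one h), ← pow_two,
          vonMangoldt_apply_pow two_ne_zero]
      rw [hlam, hwm, hwm]
      calc 2 * R * Λ d * w d * (omegaSize ‖z‖ (d * j) * (w d * w j))
          ≤ 2 * R * Λ d * w d * (R * omegaSize ‖z‖ j * (w d * w j)) := by
            refine mul_le_mul_of_nonneg_left (mul_le_mul_of_nonneg_right
              (omegaSize_mul_le (norm_nonneg z) hR hz hp.isPrimePow (by omega))
              (mul_nonneg (hw d) (hw j))) ?_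
            exact mul_nonneg (mul_nonneg (by linarith) vonMangoldt_nonneg) (hw d)
        _ = _ := by ring
    · rw [if_neg hp, mul_zero, add_zero, hH, hF]
      simp only [mul_sum]
      refine sum_le_sum fun m _ => le_of_eq ?_
      rw [if_neg (fun h => hp h.1), highLam, if_neg hp]
      ring
  refine (norm_sum_le _ _).trans ((sum_le_sum hd).trans ?_)
  rw [sum_add_distrib, ← mul_sum, ← mul_sum]
  have hsq : ∑ d ∈ Icc 1 N, (if d.Prime then H (d * d) else 0) ≤ ∑ d ∈ Icc 1 N, H d := by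
    rw [← sum_filter]
    have hvan : ∀ d ∈ (Icc 1 N).filter Nat.Prime, d * d ∉ Icc 1 N → H (d * d) = 0 :=
      fun d hd hout => by
        rw [mem_filter, mem_Icc] at hd
        rw [mem_Icc, not_and, not_le] at hout
        have hN : N < d * d := hout (Nat.mul_pos hd.1.1 hd.1.1)
        rw [hH, hF]
        simp only
        rw [Nat.div_eq_of_lt hN]
        simp
    rw [← sum_filter_of_ne (p := fun d => d * d ∈ Icc 1 N) fun d hd hne =>
      by_contra fun hout => hne (hvan d hd hout)]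
    rw [← sum_image (f := H) (g := fun d => d * d) fun a _ b _ h =>
      Nat.mul_self_inj.1 h]
    refine sum_le_sum_of_subset_of_nonneg (fun x hx => ?_) fun d _ _ => hH0 d
    rw [mem_image] at hx
    obtain ⟨d, hd, rfl⟩ := hx
    exact (mem_filter.1 hd).2
  have hs0 : 0 ≤ ∑ d ∈ Icc 1 N, H d := sum_nonneg fun d _ => hH0 d
  have h2 := mul_le_mul_of_nonneg_left hsq (show (0 : ℝ) ≤ 2 * R ^ 2 by positivity)
  have h3 : R * ∑ d ∈ Icc 1 N, H d ≤ R ^ 2 * ∑ d ∈ Icc 1 N, H d :=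
    mul_le_mul_of_nonneg_right (le_self_pow₀ hR two_ne_zero) hs0
  rw [hH] at h2 h3 ⊢
  rw [hF] at h2 h3 ⊢
  linarith

/-- **The prime number theorem, in dyadic form.** -/
theorem exists_psi_dyadic : ∃ C : ℝ, 0 < C ∧ ∀ N m : ℕ, 1 ≤ m → m ≤ N →
    |(∑ d ∈ Icc 1 (N / m), Λ d) - (N : ℝ) / m| ≤
      C * (2 ^ Nat.log 2 (N / m) / ((Nat.log 2 (N / m) : ℝ) + 1) ^ 3) := by
  obtain ⟨c, C, hc, hC, h⟩ := DLVP.Summary.psi_error
  have hs : Summable fun i : ℕ => ((i : ℝ) + 1) ^ 3 * (1 / 2 : ℝ) ^ i := by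
    have h0 : ‖(1 / 2 : ℝ)‖ < 1 := by norm_num
    have := (((summable_pow_mul_geometric_of_norm_lt_one 3 h0).add
      ((summable_pow_mul_geometric_of_norm_lt_one 2 h0).mul_left 3)).add
      ((summable_pow_mul_geometric_of_norm_lt_one 1 h0).mul_left 3)).add
      (summable_geometric_of_norm_lt_one h0)
    exact this.congr fun i => by ring
  obtain ⟨S, hS⟩ : ∃ S : ℝ, S = ∑' i : ℕ, ((i : ℝ) + 1) ^ 3 * (1 / 2 : ℝ) ^ i := ⟨_, rfl⟩
  obtain ⟨D, hD⟩ : ∃ D : ℝ, D = 8 * (1 + 720 / c ^ 6) := ⟨_, rfl⟩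
  have hD0 : 0 < D := hD ▸ by positivity
  have hS0 : 0 ≤ S := hS ▸ tsum_nonneg fun i => by positivity
  refine ⟨C * D * 16 + 2 * S + 1, by positivity, fun N m hm hmN => ?_⟩
  obtain ⟨q, hq⟩ : ∃ q, q = N / m := ⟨_, rfl⟩
  obtain ⟨i, hi⟩ : ∃ i, i = Nat.log 2 q := ⟨_, rfl⟩
  rw [← hq, ← hi]
  have hq1 : 1 ≤ q := hq ▸ Nat.div_pos hmN hm
  have hm0 : (0 : ℝ) < m := Nat.cast_pos.2 hm
  have hfl : |(q : ℝ) - (N : ℝ) / m| ≤ 1 := by
    rw [abs_le, hq]
    have h1 : ((N / m : ℕ) : ℝ) ≤ (N : ℝ) / m := Nat.cast_div_le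
    have h2 : (N : ℝ) / m ≤ ((N / m : ℕ) : ℝ) + 1 := by
      rw [div_le_iff₀ hm0]
      exact_mod_cast (show N ≤ (N / m + 1) * m by
        rw [add_mul, one_mul]
        exact (Nat.lt_div_mul_add hm).le)
    constructor <;> linarith
  obtain ⟨B, hB⟩ : ∃ B : ℝ, B = 2 ^ i / ((i : ℝ) + 1) ^ 3 := ⟨_, rfl⟩
  rw [← hB]
  have hB0 : 0 ≤ B := hB ▸ by positivity
  have hone : 1 ≤ (S + 1) * B := by
    have h1 := hs.le_tsum i fun j _ => by positivity
    rw [← hS, one_div, inv_pow, ← div_eq_mul_inv, div_le_iff₀ (by positivity)] at h1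
    rw [hB, mul_div_assoc', le_div_iff₀ (by positivity), one_mul]
    exact h1.trans (mul_le_mul_of_nonneg_right (by linarith) (by positivity))
  have hmain : |(∑ d ∈ Icc 1 q, Λ d) - (q : ℝ)| ≤ C * D * 16 * B + S * B := by
    rcases (show q = 1 ∨ 2 ≤ q by omega) with h1 | h2
    · have hi0 : i = 0 := by rw [hi, h1]; simp
      have hB1 : B = 1 := by rw [hB, hi0]; norm_num
      rw [h1, Icc_self, sum_singleton, vonMangoldt_apply_one, hB1]
      norm_num
      nlinarith [mul_pos hC hD0, hs.le_tsum 0 fun j _ => by positivity]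
    · have hψ := h q (by exact_mod_cast h2)
      rw [Chebyshev.psi, Nat.floor_natCast] at hψ
      refine hψ.trans (le_trans ?_ (le_add_of_nonneg_right (mul_nonneg hS0 hB0)))
      obtain ⟨t, ht⟩ : ∃ t, t = Real.log q := ⟨_, rfl⟩
      have ht0 : 0 ≤ t := ht ▸ Real.log_natCast_nonneg q
      rw [← ht]
      have hexp : Real.exp (-(c * √t)) * (1 + t) ^ 3 ≤ D := by
        rw [Real.exp_neg, inv_mul_le_iff₀ (Real.exp_pos _), hD]
        have h6 := Real.pow_div_factorial_le_exp (c * √t) (by positivity) 6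
        rw [mul_pow, show √t ^ 6 = t ^ 3 by rw [show 6 = 2 * 3 by rfl, pow_mul, Real.sq_sqrt ht0],
          show ((Nat.factorial 6 : ℕ) : ℝ) = 720 by norm_num [Nat.factorial],
          div_le_iff₀ (by norm_num)] at h6
        have he1 : 1 ≤ Real.exp (c * √t) := Real.one_le_exp (by positivity)
        have he0 : 0 ≤ Real.exp (c * √t) * (720 / c ^ 6) := by positivity
        rcases le_or_gt t 1 with ht1 | ht1
        · have : (1 + t) ^ 3 ≤ 8 := by
            refine (pow_le_pow_left₀ (by linarith) (show 1 + t ≤ 2 by linarith) 3).trans ?_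
            norm_num
          nlinarith
        · have h3 : t ^ 3 ≤ Real.exp (c * √t) * (720 / c ^ 6) := by
            rw [mul_div_assoc', le_div_iff₀ (by positivity)]
            linarith
          have : (1 + t) ^ 3 ≤ 8 * t ^ 3 := by
            refine (pow_le_pow_left₀ (by linarith) (show 1 + t ≤ 2 * t by linarith) 3).trans ?_
            rw [mul_pow]
            norm_num
          nlinarith
      have hq2 : (q : ℝ) ≤ 2 * 2 ^ i := by
        rw [← pow_succ', hi]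
        exact_mod_cast (Nat.lt_pow_succ_log_self one_lt_two q).le
      have hit : ((i : ℝ) + 1) / 2 ≤ 1 + t := by
        have h1 : Real.log ((2 ^ i : ℕ) : ℝ) ≤ t := ht ▸ Real.log_le_log (by positivity)
          (Nat.cast_le.2 (hi ▸ Nat.pow_log_le_self 2 (by omega)))
        rw [Nat.cast_pow, Real.log_pow, Nat.cast_ofNat] at h1
        have := mul_le_mul_of_nonneg_left (show (1 : ℝ) / 2 ≤ Real.log 2 by
          linarith [Real.log_two_gt_d9]) (Nat.cast_nonneg (α := ℝ) i)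
        linarith
      have hi8 : ((i : ℝ) + 1) ^ 3 / 8 ≤ (1 + t) ^ 3 := by
        refine le_trans (le_of_eq ?_) (pow_le_pow_left₀ (by positivity) hit 3)
        ring
      rw [hB, mul_div_assoc', le_div_iff₀ (by positivity)]
      calc C * q * Real.exp (-(c * √t)) * ((i : ℝ) + 1) ^ 3
          ≤ C * (2 * 2 ^ i) * Real.exp (-(c * √t)) * (8 * (1 + t) ^ 3) := by
            refine mul_le_mul ?_ (by linarith) (by positivity) (by positivity)
            gcongr
        _ = C * (2 * 2 ^ i) * 8 * (Real.exp (-(c * √t)) * (1 + t) ^ 3) := by ring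
        _ ≤ C * (2 * 2 ^ i) * 8 * D := mul_le_mul_of_nonneg_left hexp (by positivity)
        _ = _ := by ring
  calc |(∑ d ∈ Icc 1 q, Λ d) - (N : ℝ) / m|
      ≤ |(∑ d ∈ Icc 1 q, Λ d) - (q : ℝ)| + |(q : ℝ) - (N : ℝ) / m| := abs_sub_le _ _ _
    _ ≤ (C * D * 16 * B + S * B) + (S + 1) * B := add_le_add hmain (hfl.trans hone)
    _ = _ := by ring

/-- **`S log N = (1 + z) T + O ((log N) ^ r)`.** -/
theorem exists_mean_recursion (R : ℝ) (hR : 1 ≤ R) : ∃ C : ℝ, 0 < C ∧ ∀ z : ℂ, ‖z‖ ≤ R →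
    ∀ N : ℕ, 1 ≤ N →
      ‖omegaMean z N * (Real.log N : ℂ) - (1 + z) * omegaLogMean z N‖ ≤ C * elog N ^ ‖z‖ := by
  obtain ⟨C, hC, hB⟩ := exists_omegaRecip_le R
  obtain ⟨Q, hQ, hhigh⟩ := exists_sum_highLam_div_le
  refine ⟨(7 * R + 4 * R ^ 2 * Q) * C, by positivity, fun z hz N hN => ?_⟩
  have hg := omegaSize_nonneg (norm_nonneg z)
  obtain ⟨E, hE⟩ : ∃ E : ℂ, E = ∑ d ∈ Icc 1 N, ∑ m ∈ Icc 1 (N / d),
      ((Λ d * (((d * m : ℕ) : ℝ))⁻¹ : ℝ) : ℂ) * (omegaPow z (d * m) - z * omegaPow z m) :=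
    ⟨_, rfl⟩
  obtain ⟨G, hG⟩ : ∃ G : ℂ, G = ∑ m ∈ Icc 1 N, omegaPow z m / m *
      (((∑ d ∈ Icc 1 (N / m), Λ d / d) - (Real.log N - Real.log m) : ℝ) : ℂ) := ⟨_, rfl⟩
  have hid : omegaMean z N * (Real.log N : ℂ) - (1 + z) * omegaLogMean z N = E + z * G := by
    have h1 := sum_mul_log_eq (fun n => omegaPow z n / n) N
    have h2 : omegaMean z N * (Real.log N : ℂ) =
        omegaLogMean z N + ∑ n ∈ Icc 1 N, Real.log n • (omegaPow z n / n) := by
      rw [omegaMean, omegaLogMean, sum_mul, ← sum_add_distrib]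
      refine sum_congr rfl fun n _ => ?_
      rw [Complex.real_smul]
      push_cast
      ring
    have h3 : ∑ d ∈ Icc 1 N, ∑ m ∈ Icc 1 (N / d), Λ d • (omegaPow z (d * m) / ((d * m : ℕ) : ℂ)) =
        E + z * ∑ m ∈ Icc 1 N, omegaPow z m / m *
          ((∑ d ∈ Icc 1 (N / m), Λ d / d : ℝ) : ℂ) := by
      rw [hE, mul_sum]
      simp only [Complex.ofReal_sum, mul_sum]
      rw [← sum_Icc_div_comm N (fun d m => z * (omegaPow z m / (m : ℂ) * ((Λ d / d : ℝ) : ℂ))),
        ← sum_add_distrib]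
      refine sum_congr rfl fun d _ => ?_
      rw [← sum_add_distrib]
      refine sum_congr rfl fun m _ => ?_
      rw [Complex.real_smul]
      push_cast
      ring
    rw [h2, h1, h3, hG, omegaLogMean]
    simp only [Complex.ofReal_sub, mul_sub, sum_sub_distrib]
    ring
  have hEle : ‖E‖ ≤ 4 * R ^ 2 * Q * omegaRecip ‖z‖ N := by
    rw [hE]
    refine (norm_twist_error_le hR hz (fun n : ℕ => ((n : ℝ))⁻¹) (fun n => by positivity)
      (fun a b => by rw [Nat.cast_mul, mul_inv]) N).trans ?_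
    rw [mul_assoc (4 * R ^ 2)]
    refine mul_le_mul_of_nonneg_left ?_ (by positivity)
    refine (sum_le_sum (g := fun d => highLam d * (2 + Real.log d) / d * omegaRecip ‖z‖ N)
      fun d hd => ?_).trans (by
        rw [← sum_mul]
        exact mul_le_mul_of_nonneg_right (hhigh N) (omegaRecip_nonneg (norm_nonneg z) N))
    have hsum : ∑ m ∈ Icc 1 (N / d), omegaSize ‖z‖ m * ((m : ℝ))⁻¹ ≤ omegaRecip ‖z‖ N := by
      refine le_trans (le_of_eq ?_) (omegaRecip_mono (norm_nonneg z) (Nat.div_le_self N d))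
      simp only [omegaRecip, div_eq_mul_inv]
    refine mul_le_mul ?_ hsum (sum_nonneg fun m _ => mul_nonneg (hg m) (by positivity))
      (div_nonneg (mul_nonneg (highLam_nonneg d) (by linarith [Real.log_natCast_nonneg d]))
        (Nat.cast_nonneg d))
    rw [div_eq_mul_inv]
    refine mul_le_mul_of_nonneg_right (le_mul_of_one_le_right (highLam_nonneg d) ?_) (by positivity)
    linarith [Real.log_natCast_nonneg d]
  have hGle : ‖G‖ ≤ 7 * omegaRecip ‖z‖ N := by
    rw [hG, omegaRecip, mul_sum]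
    refine (norm_sum_le _ _).trans (sum_le_sum fun m hm => ?_)
    rw [mem_Icc] at hm
    have hm0 : (0 : ℝ) < m := Nat.cast_pos.2 hm.1
    rw [norm_mul, norm_div, Complex.norm_natCast, norm_omegaPow, Complex.norm_real,
      Real.norm_eq_abs, mul_comm]
    refine mul_le_mul_of_nonneg_right ?_ (div_nonneg (hg m) hm0.le)
    have hq : 1 ≤ N / m := Nat.div_pos hm.2 hm.1
    have h6 : |(∑ d ∈ Icc 1 (N / m), Λ d / d) - Real.log (N / m : ℕ)| ≤ 6 :=
      FA.PrimesMinusOne.abs_sum_vonMangoldt_div_sub_le hq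
    have hlo : |Real.log ((N / m : ℕ) : ℝ) - (Real.log N - Real.log m)| ≤ 1 := by
      have hq0 : (0 : ℝ) < ((N / m : ℕ) : ℝ) := Nat.cast_pos.2 hq
      have hN0 : (0 : ℝ) < N := Nat.cast_pos.2 hN
      rw [← Real.log_div hN0.ne' hm0.ne', abs_le]
      have h1 := Real.log_le_log hq0 (Nat.cast_div_le : ((N / m : ℕ) : ℝ) ≤ (N : ℝ) / m)
      have h2 : (N : ℝ) / m ≤ 2 * ((N / m : ℕ) : ℝ) := by
        rw [div_le_iff₀ hm0]
        have h3 := Nat.lt_div_mul_add (a := N) hm.1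
        have h4 : m ≤ N / m * m := Nat.le_mul_of_pos_left m hq
        exact_mod_cast (show N ≤ 2 * (N / m) * m by rw [mul_assoc]; omega)
      have h3 := Real.log_le_log (div_pos hN0 hm0) h2
      rw [Real.log_mul two_ne_zero hq0.ne'] at h3
      have := Real.log_le_sub_one_of_pos (two_pos : (0 : ℝ) < 2)
      constructor <;> linarith
    exact (abs_sub_le _ _ _).trans (by linarith)
  rw [hid]
  refine (norm_add_le _ _).trans ?_
  rw [norm_mul]
  have h1 := mul_le_mul hz hGle (norm_nonneg _) (zero_le_one.trans hR)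
  have h2 := mul_le_mul_of_nonneg_left (hB ‖z‖ (norm_nonneg z) hz N hN)
    (show (0 : ℝ) ≤ 7 * R + 4 * R ^ 2 * Q by positivity)
  linarith

/-- **`M log N = z N S + O (N (log N) ^ (r - 1))`.** -/
theorem exists_sum_recursion (R : ℝ) (hR : 1 ≤ R) : ∃ C : ℝ, 0 < C ∧ ∀ z : ℂ, ‖z‖ ≤ R →
    ∀ N : ℕ, 1 ≤ N → ‖omegaSum z N * (Real.log N : ℂ) - z * (N : ℂ) * omegaMean z N‖ ≤
      C * N * elog N ^ (‖z‖ - 1) := by
  obtain ⟨C, hC, hA⟩ := exists_omegaTotal_le R hR
  obtain ⟨Q, hQ, hhigh⟩ := exists_sum_highLam_div_le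
  obtain ⟨P, hP, hpsi⟩ := exists_psi_dyadic
  have hb1 : Summable fun i : ℕ => ((i : ℝ) + 2) * ((i : ℝ) + 2) / 2 ^ i := by
    have h0 : ‖(1 / 2 : ℝ)‖ < 1 := by norm_num
    have := ((summable_pow_mul_geometric_of_norm_lt_one 2 h0).add
      ((summable_pow_mul_geometric_of_norm_lt_one 1 h0).mul_left 4)).add
      ((summable_geometric_of_norm_lt_one h0).mul_left 4)
    exact this.congr fun i => by rw [one_div, inv_pow]; ring
  have hb2 : Summable fun i : ℕ =>
      2 ^ i / ((i : ℝ) + 1) ^ 3 * ((i : ℝ) + 2) / 2 ^ i := by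
    refine Summable.of_nonneg_of_le (fun i => by positivity) (fun i => ?_)
      (((summable_nat_add_iff (f := fun n : ℕ => 1 / (n : ℝ) ^ 2) 1).2
        (Real.summable_one_div_nat_pow.2 one_lt_two)).mul_left 2)
    push_cast
    rw [show 2 ^ i / ((i : ℝ) + 1) ^ 3 * ((i : ℝ) + 2) / 2 ^ i =
      ((i : ℝ) + 2) / ((i : ℝ) + 1) ^ 3 by field_simp,
      mul_one_div, div_le_div_iff₀ (by positivity) (by positivity)]
    have hi : (0 : ℝ) ≤ i := Nat.cast_nonneg i
    nlinarith [sq_nonneg ((i : ℝ) + 1), mul_nonneg hi (sq_nonneg ((i : ℝ) + 1))]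
  obtain ⟨W1, hW1, hw1⟩ := exists_weighted_le R hR _ (fun i => by positivity) hb1
  obtain ⟨W2, hW2, hw2⟩ := exists_weighted_le R hR _ (fun i => by positivity) hb2
  refine ⟨W1 + R * (P * W2) + 4 * R ^ 2 * (C * Q), by positivity, fun z hz N hN => ?_⟩
  have hg := omegaSize_nonneg (norm_nonneg z)
  obtain ⟨E, hE⟩ : ∃ E : ℂ, E = ∑ d ∈ Icc 1 N, ∑ m ∈ Icc 1 (N / d),
      ((Λ d * 1 : ℝ) : ℂ) * (omegaPow z (d * m) - z * omegaPow z m) := ⟨_, rfl⟩
  obtain ⟨G, hG⟩ : ∃ G : ℂ, G = ∑ m ∈ Icc 1 N, omegaPow z m *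
      (((∑ d ∈ Icc 1 (N / m), Λ d) - (N : ℝ) / m : ℝ) : ℂ) := ⟨_, rfl⟩
  obtain ⟨H, hH⟩ : ∃ H : ℂ, H = ∑ n ∈ Icc 1 N,
      omegaPow z n * ((Real.log N - Real.log n : ℝ) : ℂ) := ⟨_, rfl⟩
  have hid : omegaSum z N * (Real.log N : ℂ) - z * (N : ℂ) * omegaMean z N = H + E + z * G := by
    have h1 := sum_mul_log_eq (fun n => omegaPow z n) N
    have h2 : omegaSum z N * (Real.log N : ℂ) =
        H + ∑ n ∈ Icc 1 N, Real.log n • omegaPow z n := by
      rw [omegaSum, hH, sum_mul, ← sum_add_distrib]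
      refine sum_congr rfl fun n _ => ?_
      rw [Complex.real_smul]
      push_cast
      ring
    have h3 : ∑ d ∈ Icc 1 N, ∑ m ∈ Icc 1 (N / d), Λ d • omegaPow z (d * m) =
        E + z * ∑ m ∈ Icc 1 N, omegaPow z m * ((∑ d ∈ Icc 1 (N / m), Λ d : ℝ) : ℂ) := by
      rw [hE, mul_sum]
      simp only [Complex.ofReal_sum, mul_sum]
      rw [← sum_Icc_div_comm N (fun d m => z * (omegaPow z m * ((Λ d : ℝ) : ℂ))),
        ← sum_add_distrib]
      refine sum_congr rfl fun d _ => ?_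
      rw [← sum_add_distrib]
      refine sum_congr rfl fun m _ => ?_
      rw [Complex.real_smul]
      push_cast
      ring
    have h4 : z * (N : ℂ) * omegaMean z N =
        z * ∑ m ∈ Icc 1 N, omegaPow z m * (((N : ℝ) / m : ℝ) : ℂ) := by
      rw [omegaMean, mul_assoc, mul_sum]
      refine congrArg (z * ·) (sum_congr rfl fun m _ => ?_)
      push_cast
      ring
    rw [h2, h1, h3, h4, hG]
    simp only [Complex.ofReal_sub, mul_sub, sum_sub_distrib]
    ring
  obtain ⟨U, hU⟩ : ∃ U : ℝ, U = (N : ℝ) * elog N ^ (‖z‖ - 1) := ⟨_, rfl⟩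
  have hU0 : 0 ≤ U := hU ▸ mul_nonneg (Nat.cast_nonneg N) (Real.rpow_nonneg (elog_pos N).le _)
  have hHle : ‖H‖ ≤ W1 * U := by
    rw [hH, hU, ← mul_assoc]
    refine ((norm_sum_le _ _).trans (sum_le_sum fun m hm => ?_)).trans
      (hw1 ‖z‖ (norm_nonneg z) hz N hN)
    rw [mem_Icc] at hm
    have hm0 : (0 : ℝ) < m := Nat.cast_pos.2 hm.1
    have hN0 : (0 : ℝ) < N := Nat.cast_pos.2 hN
    rw [norm_mul, norm_omegaPow, Complex.norm_real, Real.norm_eq_abs]
    refine mul_le_mul_of_nonneg_left ?_ (hg m)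
    rw [← Real.log_div hN0.ne' hm0.ne', abs_of_nonneg (Real.log_nonneg ((one_le_div hm0).2
      (Nat.cast_le.2 hm.2)))]
    have h3 := Nat.lt_pow_succ_log_self one_lt_two (N / m)
    have h4 : (N : ℝ) / m ≤ (2 : ℝ) ^ (Nat.log 2 (N / m) + 1) := by
      rw [div_le_iff₀ hm0]
      have h5 : N ≤ 2 ^ (Nat.log 2 (N / m) + 1) * m :=
        ((Nat.div_lt_iff_lt_mul hm.1).1 h3).le
      exact_mod_cast h5
    refine (Real.log_le_log (div_pos hN0 hm0) h4).trans ?_
    rw [Real.log_pow, Nat.cast_succ]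
    have := Real.log_le_sub_one_of_pos (two_pos : (0 : ℝ) < 2)
    refine (mul_le_of_le_one_right (by positivity) (by linarith)).trans ?_
    linarith
  have hGle : ‖G‖ ≤ P * (W2 * U) := by
    rw [hG, hU]
    refine ((norm_sum_le _ _).trans (sum_le_sum (g := fun m => P * (omegaSize ‖z‖ m *
      (2 ^ Nat.log 2 (N / m) / ((Nat.log 2 (N / m) : ℝ) + 1) ^ 3))) fun m hm => ?_)).trans ?_
    · rw [mem_Icc] at hm
      rw [norm_mul, norm_omegaPow, Complex.norm_real, Real.norm_eq_abs, mul_left_comm P]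
      exact mul_le_mul_of_nonneg_left (hpsi N m hm.1 hm.2) (hg m)
    · rw [← mul_sum, ← mul_assoc W2]
      exact mul_le_mul_of_nonneg_left (hw2 ‖z‖ (norm_nonneg z) hz N hN) hP.le
  have hEle : ‖E‖ ≤ 4 * R ^ 2 * (C * Q * U) := by
    rw [hE]
    refine (norm_twist_error_le hR hz (fun _ : ℕ => (1 : ℝ)) (fun n => zero_le_one)
      (fun a b => (mul_one 1).symm) N).trans (mul_le_mul_of_nonneg_left ?_ (by positivity))
    refine (sum_le_sum (g := fun d => C * U * (highLam d * (2 + Real.log d) / d))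
      fun d hd => ?_).trans (by
        rw [← mul_sum, mul_right_comm C Q U]
        exact mul_le_mul_of_nonneg_left (hhigh N) (mul_nonneg hC.le hU0))
    rw [mem_Icc] at hd
    have hd0 : (0 : ℝ) < d := Nat.cast_pos.2 hd.1
    simp only [mul_one]
    rw [show ∑ m ∈ Icc 1 (N / d), omegaSize ‖z‖ m = omegaTotal ‖z‖ (N / d) from rfl]
    refine (mul_le_mul_of_nonneg_left (hA ‖z‖ (norm_nonneg z) hz _ (Nat.div_pos hd.2 hd.1))
      (highLam_nonneg d)).trans ?_
    calc highLam d * (C * ((N / d : ℕ) : ℝ) * elog (N / d) ^ (‖z‖ - 1))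
        ≤ highLam d * (C * ((N : ℝ) / d) * (elog N ^ (‖z‖ - 1) * (2 + Real.log d))) := by
          refine mul_le_mul_of_nonneg_left (mul_le_mul (mul_le_mul_of_nonneg_left Nat.cast_div_le
            hC.le) (elog_div_rpow_le (by linarith [norm_nonneg z]) hd.1 hd.2)
            (Real.rpow_nonneg (elog_pos _).le _) (by positivity)) (highLam_nonneg d)
      _ = _ := by rw [hU]; ring
  rw [hid, mul_assoc, ← hU]
  refine (norm_add_le _ _).trans ((add_le_add (norm_add_le _ _) (le_refl _)).trans ?_)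
  rw [norm_mul]
  have h1 := mul_le_mul hz hGle (norm_nonneg _) (zero_le_one.trans hR)
  linarith

end FA.SatheSelberg

end
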