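import Mathlib.Analysis.SpecialFunctions.Integrals.Basic
import Mathlib.Analysis.SpecialFunctions.Gaussian.GaussianIntegral
import Mathlib.Analysis.SpecialFunctions.Stirling
import Mathlib.MeasureTheory.Integral.DominatedConvergence
import Mathlib.Analysis.Complex.ExponentialBounds

/-!
# The integrals of the saddle point

`∫ exp (X e ^ (i θ)) e ^ (-i m θ) = 2 π X ^ m / m!` and
`∫ (1 - cos θ) exp (X cos θ) = O (e ^ X X ^ (-3/2))` over `[-π, π]`, and
`e ^ m / √m = O (m ^ m / m!)`.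
-/

set_option autoImplicit false

noncomputable section

namespace FA.SatheSelberg

open Filter MeasureTheory
open scoped Topology Real

/-- `e ^ (i θ)`. -/
def unitPt (θ : ℝ) : ℂ := Complex.exp ((θ : ℂ) * Complex.I)

theorem continuous_unitPt : Continuous unitPt := by
  unfold unitPt
  fun_prop

theorem norm_unitPt (θ : ℝ) : ‖unitPt θ‖ = 1 := Complex.norm_exp_ofReal_mul_I θ

theorem unitPt_ne_zero (θ : ℝ) : unitPt θ ≠ 0 := Complex.exp_ne_zero _

theorem re_unitPt (θ : ℝ) : (unitPt θ).re = Real.cos θ := Complex.exp_ofReal_mul_I_re θ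

theorem norm_unitPt_sub_one_sq (θ : ℝ) : ‖unitPt θ - 1‖ ^ 2 = 2 * (1 - Real.cos θ) := by
  rw [Complex.sq_norm, Complex.normSq_apply, Complex.sub_re, Complex.sub_im, Complex.one_re,
    Complex.one_im, re_unitPt, unitPt, Complex.exp_ofReal_mul_I_im]
  nlinarith [Real.sin_sq_add_cos_sq θ]

theorem integral_unitPt_zpow (k : ℤ) :
    ∫ θ in (-π)..π, unitPt θ ^ k = if k = 0 then (2 * π : ℂ) else 0 := by
  split_ifs with hk
  · subst hk
    simp
    ring
  · have hc : (k : ℂ) * Complex.I ≠ 0 :=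
      mul_ne_zero (Int.cast_ne_zero.2 hk) Complex.I_ne_zero
    rw [show (fun θ : ℝ => unitPt θ ^ k) = fun θ : ℝ => Complex.exp ((k : ℂ) * Complex.I * θ) from
      funext fun θ => by rw [unitPt, ← Complex.exp_int_mul]; ring_nf,
      integral_exp_mul_complex hc]
    have e : Complex.exp ((k : ℂ) * Complex.I * (π : ℝ)) =
        Complex.exp ((k : ℂ) * Complex.I * ((-π : ℝ) : ℂ)) := by
      rw [Complex.exp_eq_exp_iff_exists_int]
      exact ⟨k, by push_cast; ring⟩
    rw [e, sub_self, zero_div]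

theorem hasSum_integral_exp_unitPt (X : ℝ) (a : ℤ) :
    HasSum (fun j : ℕ => if (j : ℤ) + a = 0 then ((X ^ j / j.factorial : ℝ) : ℂ) * (2 * π) else 0)
      (∫ θ in (-π)..π, Complex.exp ((X : ℂ) * unitPt θ) * unitPt θ ^ a) := by
  have h : ∀ j : ℕ, ∫ θ in (-π)..π,
      ((X ^ j / j.factorial : ℝ) : ℂ) * (unitPt θ ^ ((j : ℤ) + a)) =
      if (j : ℤ) + a = 0 then ((X ^ j / j.factorial : ℝ) : ℂ) * (2 * π) else 0 := fun j => by
    rw [intervalIntegral.integral_const_mul, integral_unitPt_zpow]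
    split_ifs <;> simp
  simp only [← h]
  refine intervalIntegral.hasSum_integral_of_dominated_convergence
    (fun (j : ℕ) (_ : ℝ) => |X| ^ j / j.factorial) (fun j => ?_) (fun j => ?_) ?_ ?_ ?_
  · exact (continuous_const.mul (continuous_unitPt.zpow₀ _
      fun θ => Or.inl (unitPt_ne_zero θ))).aestronglyMeasurable
  · refine ae_of_all _ fun θ _ => le_of_eq ?_
    rw [norm_mul, norm_zpow, norm_unitPt, one_zpow, mul_one, Complex.norm_real, Real.norm_eq_abs,
      abs_div, abs_pow, Nat.abs_cast]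
  · exact ae_of_all _ fun θ _ => Real.summable_pow_div_factorial |X|
  · exact intervalIntegrable_const
  · refine ae_of_all _ fun θ _ => ?_
    have hexp := (NormedSpace.expSeries_div_hasSum_exp ((X : ℂ) * unitPt θ)).mul_right
      (unitPt θ ^ a)
    rw [← Complex.exp_eq_exp_ℂ] at hexp
    refine hexp.congr_fun fun j => ?_
    rw [zpow_add₀ (unitPt_ne_zero θ), zpow_natCast]
    push_cast
    ring

/-- `∫ exp (X e ^ (i θ)) e ^ (-i m θ) = 2 π X ^ m / m!`. -/
theorem integral_exp_unitPt (X : ℝ) (m : ℕ) :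
    ∫ θ in (-π)..π, Complex.exp ((X : ℂ) * unitPt θ) * unitPt θ ^ (-(m : ℤ)) =
      ((X ^ m / m.factorial : ℝ) : ℂ) * (2 * π) := by
  refine (hasSum_integral_exp_unitPt X (-(m : ℤ))).unique ?_
  refine (hasSum_ite_eq m (((X ^ m / m.factorial : ℝ) : ℂ) * (2 * π))).congr_fun fun j => ?_
  by_cases h : j = m
  · subst h
    simp
  · rw [if_neg (by omega), if_neg h]

theorem integral_exp_unitPt_pos (X : ℝ) :
    ∫ θ in (-π)..π, Complex.exp ((X : ℂ) * unitPt θ) * unitPt θ = 0 := by
  have h := hasSum_integral_exp_unitPt X 1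
  simp only [zpow_one] at h
  refine h.unique (hasSum_zero.congr_fun fun j => ?_)
  rw [if_neg (by omega)]

/-- **The second moment at the saddle.** -/
theorem integral_saddle_le {X : ℝ} (hX : 0 < X) :
    ∫ θ in (-π)..π, (1 - Real.cos θ) * Real.exp (X * Real.cos θ) ≤
      4 * Real.exp X / (X * √X) * π := by
  have hπ := Real.pi_pos
  have hb : 0 < X / π ^ 2 := by positivity
  have hint : Integrable (fun θ : ℝ => Real.exp X / X * Real.exp (-(X / π ^ 2) * θ ^ 2)) :=
    (integrable_exp_neg_mul_sq hb).const_mul _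
  have hpt : ∀ θ ∈ Set.Icc (-π) π, (1 - Real.cos θ) * Real.exp (X * Real.cos θ) ≤
      Real.exp X / X * Real.exp (-(X / π ^ 2) * θ ^ 2) := by
    intro θ hθ
    have h1 := Real.cos_le_one_sub_mul_cos_sq (abs_le.2 hθ)
    obtain ⟨u, hu⟩ : ∃ u, u = 1 - Real.cos θ := ⟨_, rfl⟩
    have hu2 : 2 / π ^ 2 * θ ^ 2 ≤ u := by linarith
    rw [← hu]
    have e : X * Real.cos θ = X + -(X * u) := by rw [hu]; ring
    rw [e, Real.exp_add, div_mul_eq_mul_div, le_div_iff₀ hX]
    have h2 : u * X * Real.exp (-(X * u / 2)) ≤ 1 := by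
      have h3 := Real.mul_exp_neg_le_exp_neg_one (X * u / 2)
      have h4 : Real.exp (-1) ≤ 1 / 2 := by
        rw [Real.exp_neg, one_div]
        exact inv_anti₀ two_pos (by linarith [Real.add_one_le_exp (1 : ℝ)])
      linarith
    have h5 : Real.exp (-(X * u / 2)) ≤ Real.exp (-(X / π ^ 2) * θ ^ 2) := by
      refine Real.exp_le_exp.2 ?_
      have := mul_le_mul_of_nonneg_left hu2 hX.le
      linarith [show X * (2 / π ^ 2 * θ ^ 2) = 2 * (X / π ^ 2 * θ ^ 2) by ring]
    calc u * (Real.exp X * Real.exp (-(X * u))) * X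
        = Real.exp X * (u * X * Real.exp (-(X * u / 2))) * Real.exp (-(X * u / 2)) := by
          rw [show -(X * u) = -(X * u / 2) + -(X * u / 2) by ring, Real.exp_add]
          ring
      _ ≤ Real.exp X * 1 * Real.exp (-(X / π ^ 2) * θ ^ 2) :=
          mul_le_mul (mul_le_mul_of_nonneg_left h2 (Real.exp_pos _).le) h5 (Real.exp_pos _).le
            (by positivity)
      _ = _ := by ring
  refine (intervalIntegral.integral_mono_on (by linarith) (Continuous.intervalIntegrable
    (by fun_prop) _ _) hint.intervalIntegrable hpt).trans ?_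
  rw [intervalIntegral.integral_of_le (by linarith)]
  refine (setIntegral_le_integral hint (ae_of_all _ fun θ => by positivity)).trans ?_
  rw [integral_const_mul, integral_gaussian, show π / (X / π ^ 2) = π ^ 2 * (π / X) by field_simp,
    Real.sqrt_mul (sq_nonneg π), Real.sqrt_sq hπ.le, Real.sqrt_div hπ.le]
  have h : √π ≤ 4 := by
    rw [Real.sqrt_le_left (by norm_num)]
    linarith [Real.pi_le_four]
  calc Real.exp X / X * (π * (√π / √X)) ≤ Real.exp X / X * (π * (4 / √X)) := by gcongr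
    _ = _ := by field_simp

/-- **Stirling, from above.** -/
theorem exp_le_pow_div_factorial {m : ℕ} (hm : 1 ≤ m) :
    Real.exp m ≤ 3 * √(m : ℝ) * ((m : ℝ) ^ m / m.factorial) := by
  obtain ⟨j, rfl⟩ : ∃ j, m = j + 1 := ⟨m - 1, by omega⟩
  have h := Stirling.stirlingSeq'_antitone (Nat.zero_le j)
  simp only [Function.comp_apply, Nat.succ_eq_add_one] at h
  rw [Stirling.stirlingSeq_one, Stirling.stirlingSeq, div_le_iff₀ (by positivity)] at h
  have hs : √(2 * ((j + 1 : ℕ) : ℝ)) = √2 * √((j + 1 : ℕ) : ℝ) := Real.sqrt_mul two_pos.le _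
  have h2 : (0 : ℝ) < √2 := by positivity
  rw [hs, show Real.exp 1 / √2 * (√2 * √((j + 1 : ℕ) : ℝ) *
      (((j + 1 : ℕ) : ℝ) / Real.exp 1) ^ (j + 1)) =
    Real.exp 1 * √((j + 1 : ℕ) : ℝ) * (((j + 1 : ℕ) : ℝ) ^ (j + 1) / Real.exp 1 ^ (j + 1)) by
      rw [div_pow]; field_simp] at h
  have hexp : Real.exp 1 ^ (j + 1) = Real.exp ((j + 1 : ℕ) : ℝ) := by
    rw [← Real.exp_nat_mul, mul_one]
  rw [hexp, ← mul_div_assoc, le_div_iff₀ (Real.exp_pos _)] at h
  rw [← mul_div_assoc, le_div_iff₀ (Nat.cast_pos.2 (Nat.factorial_pos _)), mul_comm (Real.exp _)]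
  refine h.trans (mul_le_mul_of_nonneg_right (mul_le_mul_of_nonneg_right ?_ (Real.sqrt_nonneg _))
    (by positivity))
  linarith [Real.exp_one_lt_d9]

end FA.SatheSelberg

end
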