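import Fermat.Agent.SatheSelberg.MeanValue
import Fermat.Agent.SatheSelberg.Saddle

/-!
# The formula of Sathe and Selberg

`#{n ≤ N : ω n = k}` read off from the mean value of `z ^ ω n` on the circle
`|z| = (k - 1) / log log N`.
-/

set_option autoImplicit false

noncomputable section

namespace FA.SatheSelberg

open Finset Filter MeasureTheory
open scoped Topology Real

/-- `#{n ≤ N : ω n = k}`. -/
def omegaCount (N k : ℕ) : ℕ := ((Icc 1 N).filter fun n : ℕ => n.primeFactors.card = k).card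

/-- `log log N`. -/
def loglog (N : ℕ) : ℝ := Real.log (Real.log N)

/-- `N / log N · (log log N) ^ m / m!`. -/
def omegaScale (N m : ℕ) : ℝ := (N : ℝ) / Real.log N * (loglog N ^ m / m.factorial)

/-- The coefficient of `z ^ k`. -/
theorem integral_omegaSum_circle (N k : ℕ) (r : ℝ) :
    ∫ θ in (-π)..π, omegaSum ((r : ℂ) * unitPt θ) N * unitPt θ ^ (-(k : ℤ)) =
      ((r ^ k * omegaCount N k : ℝ) : ℂ) * (2 * π) := by
  have e : ∀ θ : ℝ, omegaSum ((r : ℂ) * unitPt θ) N * unitPt θ ^ (-(k : ℤ)) =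
      ∑ n ∈ Icc 1 N, (r : ℂ) ^ n.primeFactors.card *
        unitPt θ ^ ((n.primeFactors.card : ℤ) + -(k : ℤ)) := fun θ => by
    rw [omegaSum, sum_mul]
    refine sum_congr rfl fun n _ => ?_
    rw [omegaPow, mul_pow, zpow_add₀ (unitPt_ne_zero θ), zpow_natCast, mul_assoc]
  simp only [e]
  have hc : ∀ n : ℕ, Continuous fun θ : ℝ => (r : ℂ) ^ n.primeFactors.card *
      unitPt θ ^ ((n.primeFactors.card : ℤ) + -(k : ℤ)) := fun n =>
    continuous_const.mul (continuous_unitPt.zpow₀ _ fun θ => Or.inl (unitPt_ne_zero θ))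
  rw [intervalIntegral.integral_finsetSum fun n _ => (hc n).intervalIntegrable _ _]
  have h : ∀ n ∈ Icc 1 N, ∫ θ in (-π)..π, (r : ℂ) ^ n.primeFactors.card *
      unitPt θ ^ ((n.primeFactors.card : ℤ) + -(k : ℤ)) =
      if n.primeFactors.card = k then (r : ℂ) ^ k * (2 * π) else 0 := fun n _ => by
    rw [intervalIntegral.integral_const_mul, integral_unitPt_zpow]
    by_cases hn : n.primeFactors.card = k
    · rw [if_pos hn, if_pos (by omega), hn]
    · rw [if_neg hn, if_neg (by omega), mul_zero]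
  rw [sum_congr rfl h, ← sum_filter, sum_const, nsmul_eq_mul, omegaCount]
  push_cast
  ring

/-- `(log N) ^ (z - 1)` on the circle. -/
theorem cpow_sub_one_eq {L : ℝ} (hL : 0 < L) (z : ℂ) :
    (L : ℂ) ^ (z - 1) = Complex.exp (z * ((Real.log L : ℝ) : ℂ)) / (L : ℂ) := by
  have hLc : (L : ℂ) ≠ 0 := Complex.ofReal_ne_zero.2 hL.ne'
  rw [Complex.cpow_sub _ _ hLc, Complex.cpow_one, Complex.cpow_def_of_ne_zero hLc,
    Complex.ofReal_log hL.le, mul_comm]

theorem norm_exp_saddle (X θ : ℝ) :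
    ‖Complex.exp ((X : ℂ) * unitPt θ)‖ = Real.exp (X * Real.cos θ) := by
  rw [Complex.norm_exp, Complex.re_ofReal_mul, re_unitPt]

/-- **The circle of radius `r`, expanded at `a`.** -/
theorem abs_count_sub_le {R C K : ℝ} {N m : ℕ} {r a : ℝ} (hN : 16 ≤ N) (hr : 0 < r)
    (hrR : r ≤ R) (haR : |a| ≤ R) (hM : ∀ z : ℂ, ‖z‖ ≤ R →
      ‖omegaSum z N - z * selConst z * (N : ℂ) * (Real.log N : ℂ) ^ (z - 1)‖ ≤
        C * N * Real.log N ^ (‖z‖ - 5 / 4))
    (hT : ∀ z w : ℂ, ‖z‖ ≤ R → ‖w‖ ≤ R →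
      ‖selConst z - (selConst w + deriv selConst w * (z - w))‖ ≤ K * ‖z - w‖ ^ 2)
    (hlin : (∫ θ in (-π)..π, ((r : ℂ) * unitPt θ - a) *
      (Complex.exp (((r * loglog N : ℝ) : ℂ) * unitPt θ) * unitPt θ ^ (-(m : ℤ)))) = 0)
    {B : ℝ} (hB : ∫ θ in (-π)..π, ‖(r : ℂ) * unitPt θ - a‖ ^ 2 *
      Real.exp (r * loglog N * Real.cos θ) ≤ B) :
    |r ^ (m + 1) * omegaCount N (m + 1) -
        (N : ℝ) / Real.log N * r * ((r * loglog N) ^ m / m.factorial) * (selConst a).re| ≤
      C * N * Real.log N ^ (r - 5 / 4) + (N : ℝ) / Real.log N * r * |K| * B := by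
  obtain ⟨L, hL⟩ : ∃ L, L = Real.log N := ⟨_, rfl⟩
  have hL1 : 1 ≤ L := hL ▸ one_le_log_natCast (by omega)
  have hX : r * loglog N = r * Real.log L := by rw [loglog, hL]
  obtain ⟨X, hXd⟩ : ∃ X, X = r * loglog N := ⟨_, rfl⟩
  rw [← hXd] at hlin hB hX ⊢
  rw [← hL] at hM ⊢
  have hπ := Real.pi_pos
  have hnz : ∀ θ, ‖(r : ℂ) * unitPt θ‖ = r := fun θ => by
    rw [norm_mul, norm_unitPt, mul_one, Complex.norm_real, Real.norm_eq_abs, abs_of_pos hr]
  obtain ⟨Q, hQ⟩ : ∃ Q : ℂ, Q = (((N : ℝ) / L * r : ℝ) : ℂ) := ⟨_, rfl⟩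
  obtain ⟨e, he⟩ : ∃ e : ℝ → ℂ, e = fun θ =>
      Complex.exp ((X : ℂ) * unitPt θ) * unitPt θ ^ (-(m : ℤ)) := ⟨_, rfl⟩
  have hec : Continuous e := by
    rw [he]
    exact (Complex.continuous_exp.comp (continuous_const.mul continuous_unitPt)).mul
      (continuous_unitPt.zpow₀ _ fun θ => Or.inl (unitPt_ne_zero θ))
  have hne : ∀ θ, ‖e θ‖ = Real.exp (X * Real.cos θ) := fun θ => by
    rw [he, norm_mul, norm_zpow, norm_unitPt, one_zpow, mul_one, norm_exp_saddle]
  obtain ⟨F, hF⟩ : ∃ F : ℝ → ℂ, F = fun θ => omegaSum ((r : ℂ) * unitPt θ) N *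
      unitPt θ ^ (-((m + 1 : ℕ) : ℤ)) := ⟨_, rfl⟩
  obtain ⟨G, hG⟩ : ∃ G : ℝ → ℂ, G = fun θ =>
      Q * (selConst a + deriv selConst a * ((r : ℂ) * unitPt θ - a)) * e θ := ⟨_, rfl⟩
  have hFc : Continuous F := by
    rw [hF]
    refine Continuous.mul ?_ (continuous_unitPt.zpow₀ _ fun θ => Or.inl (unitPt_ne_zero θ))
    unfold omegaSum omegaPow
    exact continuous_finsetSum _ fun n _ => (continuous_const.mul continuous_unitPt).pow _
  have hGc : Continuous G := by
    rw [hG]
    exact (continuous_const.mul (continuous_const.add (continuous_const.mul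
      ((continuous_const.mul continuous_unitPt).sub continuous_const)))).mul hec
  have hFint : ∫ θ in (-π)..π, F θ =
      ((r ^ (m + 1) * omegaCount N (m + 1) : ℝ) : ℂ) * (2 * π) := by
    rw [hF]
    exact integral_omegaSum_circle N (m + 1) r
  have hGint : ∫ θ in (-π)..π, G θ =
      Q * selConst a * (((X ^ m / m.factorial : ℝ) : ℂ) * (2 * π)) := by
    have e1 : G = fun θ => Q * selConst a * e θ +
        Q * deriv selConst a * (((r : ℂ) * unitPt θ - a) * e θ) := by
      rw [hG]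
      funext θ
      ring
    have hc1 : Continuous fun θ => Q * selConst a * e θ := continuous_const.mul hec
    have hc2 : Continuous fun θ => Q * deriv selConst a * (((r : ℂ) * unitPt θ - a) * e θ) :=
      continuous_const.mul (((continuous_const.mul continuous_unitPt).sub continuous_const).mul hec)
    rw [e1, intervalIntegral.integral_add (hc1.intervalIntegrable _ _)
      (hc2.intervalIntegrable _ _),
      intervalIntegral.integral_const_mul, intervalIntegral.integral_const_mul, he]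
    simp only
    rw [hlin, integral_exp_unitPt, mul_zero, add_zero]
  have hpt : ∀ θ, ‖F θ - G θ‖ ≤ C * N * L ^ (r - 5 / 4) +
      (N : ℝ) / L * r * |K| * (‖(r : ℂ) * unitPt θ - a‖ ^ 2 * Real.exp (X * Real.cos θ)) := by
    intro θ
    obtain ⟨z, hz⟩ : ∃ z, z = (r : ℂ) * unitPt θ := ⟨_, rfl⟩
    have hzn : ‖z‖ = r := hz ▸ hnz θ
    have hmain : z * selConst z * (N : ℂ) * (L : ℂ) ^ (z - 1) * unitPt θ ^ (-((m + 1 : ℕ) : ℤ)) =
        Q * selConst z * e θ := by
      rw [cpow_sub_one_eq (by linarith) z, hQ, he,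
        show z * ((Real.log L : ℝ) : ℂ) = (X : ℂ) * unitPt θ by rw [hz, hX]; push_cast; ring,
        show (-((m + 1 : ℕ) : ℤ)) = -1 + -(m : ℤ) by push_cast; ring,
        zpow_add₀ (unitPt_ne_zero θ), zpow_neg_one]
      nth_rewrite 1 [hz]
      have := unitPt_ne_zero θ
      push_cast
      field_simp
    have e1 : F θ - G θ = (omegaSum z N - z * selConst z * (N : ℂ) * (L : ℂ) ^ (z - 1)) *
        unitPt θ ^ (-((m + 1 : ℕ) : ℤ)) +
        Q * (selConst z - (selConst a + deriv selConst a * (z - a))) * e θ := by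
      rw [sub_mul (omegaSum z N), hmain, hF, hG, hz]
      ring
    rw [e1]
    refine (norm_add_le _ _).trans (add_le_add ?_ ?_)
    · rw [norm_mul, norm_zpow, norm_unitPt, one_zpow, mul_one]
      have := hM z (hzn.le.trans hrR)
      rwa [hzn] at this
    · rw [norm_mul, norm_mul, hne, hQ, Complex.norm_real, Real.norm_eq_abs,
        abs_of_nonneg (by positivity), ← hz]
      have h1 := (hT z a (hzn.le.trans hrR) (by simpa using haR)).trans
        (mul_le_mul_of_nonneg_right (le_abs_self K) (sq_nonneg _))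
      calc (N : ℝ) / L * r * ‖selConst z - (selConst a + deriv selConst a * (z - a))‖ *
            Real.exp (X * Real.cos θ)
          ≤ (N : ℝ) / L * r * (|K| * ‖z - a‖ ^ 2) * Real.exp (X * Real.cos θ) := by gcongr
        _ = _ := by ring
  have hwc : Continuous fun θ => ‖(r : ℂ) * unitPt θ - a‖ ^ 2 * Real.exp (X * Real.cos θ) :=
    (((continuous_const.mul continuous_unitPt).sub continuous_const).norm.pow 2).mul (by fun_prop)
  have hbd : ‖∫ θ in (-π)..π, (F θ - G θ)‖ ≤
      2 * π * (C * N * L ^ (r - 5 / 4)) + (N : ℝ) / L * r * |K| * B := by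
    have hc3 : Continuous fun θ => (N : ℝ) / L * r * |K| *
        (‖(r : ℂ) * unitPt θ - a‖ ^ 2 * Real.exp (X * Real.cos θ)) := continuous_const.mul hwc
    refine (intervalIntegral.norm_integral_le_of_norm_le (by linarith)
      (ae_of_all _ fun θ _ => hpt θ)
      (intervalIntegrable_const.add (hc3.intervalIntegrable _ _))).trans ?_
    rw [intervalIntegral.integral_add intervalIntegrable_const
      (hc3.intervalIntegrable _ _), intervalIntegral.integral_const,
      intervalIntegral.integral_const_mul, smul_eq_mul, show π - -π = 2 * π by ring]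
    exact add_le_add le_rfl (mul_le_mul_of_nonneg_left hB (by positivity))
  rw [intervalIntegral.integral_sub (hFc.intervalIntegrable _ _) (hGc.intervalIntegrable _ _),
    hFint, hGint, ← mul_assoc (Q * selConst a), ← sub_mul, norm_mul,
    show ‖(2 * (π : ℂ))‖ = 2 * π by
      rw [norm_mul, Complex.norm_real, Real.norm_eq_abs, abs_of_pos hπ]; norm_num] at hbd
  have hre : |r ^ (m + 1) * omegaCount N (m + 1) -
      (N : ℝ) / L * r * (X ^ m / m.factorial) * (selConst a).re| ≤
      ‖((r ^ (m + 1) * omegaCount N (m + 1) : ℝ) : ℂ) -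
        Q * selConst a * ((X ^ m / m.factorial : ℝ) : ℂ)‖ := by
    refine le_trans (le_of_eq ?_) (Complex.abs_re_le_norm _)
    rw [hQ, Complex.sub_re, Complex.ofReal_re, Complex.re_mul_ofReal, Complex.re_ofReal_mul]
    ring_nf
  refine hre.trans ?_
  have h2 : (N : ℝ) / L * r * |K| * B ≤ 2 * π * ((N : ℝ) / L * r * |K| * B) := by
    refine le_mul_of_one_le_left ?_ (by linarith [Real.pi_gt_three])
    refine mul_nonneg (by positivity) (le_trans ?_ hB)
    exact intervalIntegral.integral_nonneg (by linarith) fun θ _ =>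
      mul_nonneg (sq_nonneg _) (Real.exp_pos _).le
  refine le_of_mul_le_mul_left ?_ (show 0 < 2 * π by positivity)
  rw [mul_comm (2 * π) ‖_‖]
  linarith

theorem one_le_loglog {N : ℕ} (hN : 16 ≤ N) : 1 ≤ loglog N := by
  have h16 : Real.exp 1 ≤ Real.log N := by
    refine le_trans ?_ (Real.log_le_log (by norm_num) (Nat.ofNat_le_cast.2 hN : (16 : ℝ) ≤ N))
    rw [show (16 : ℝ) = 2 ^ 4 by norm_num, Real.log_pow]
    push_cast
    linarith [Real.exp_one_lt_d9, Real.log_two_gt_d9]
  rw [loglog, Real.le_log_iff_exp_le (by linarith [Real.exp_pos 1])]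
  exact h16

/-- `(log log N) ^ 3 = O ((log N) ^ (1/4))`. -/
theorem loglog_cube_le {N : ℕ} (hN : 16 ≤ N) :
    Real.log N ^ (-(1 / 4) : ℝ) ≤ 1728 / loglog N ^ 3 := by
  obtain ⟨L, hL⟩ : ∃ L, L = Real.log N := ⟨_, rfl⟩
  have hL0 : 0 < L := hL ▸ zero_lt_one.trans_le (one_le_log_natCast (by omega))
  have hl := one_le_loglog hN
  rw [loglog, ← hL] at hl ⊢
  have h := Real.log_le_rpow_div hL0.le (show (0 : ℝ) < 1 / 12 by norm_num)
  have h3 := pow_le_pow_left₀ (by linarith) h 3
  rw [div_pow, ← Real.rpow_natCast (L ^ (1 / 12 : ℝ)), ← Real.rpow_mul hL0.le,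
    show (1 / 12 : ℝ) * (3 : ℕ) = 1 / 4 by norm_num, le_div_iff₀ (by positivity)] at h3
  rw [Real.rpow_neg hL0.le, inv_le_iff_one_le_mul₀ (Real.rpow_pos_of_pos hL0 _),
    div_mul_eq_mul_div, le_div_iff₀ (by positivity)]
  linarith

/-- **The formula of Sathe and Selberg.** -/
theorem exists_sathe_selberg (R : ℝ) : ∃ C : ℝ, 0 < C ∧ ∀ N : ℕ, 16 ≤ N → ∀ k : ℕ, 1 ≤ k →
    (k : ℝ) ≤ R * loglog N →
      |(omegaCount N k : ℝ) - omegaScale N (k - 1) *
          (selConst (((k - 1 : ℕ) : ℝ) / loglog N : ℝ)).re| ≤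
        C * (omegaScale N (k - 1) * (k / loglog N ^ 2)) := by
  obtain ⟨R', hR'⟩ : ∃ R', R' = max 1 R := ⟨_, rfl⟩
  have hR1 : 1 ≤ R' := hR' ▸ le_max_left _ _
  obtain ⟨C, hC, hM⟩ := exists_omegaSum_asymptotic R' hR1
  obtain ⟨K, hK, hT⟩ := exists_selConst_taylor R'
  refine ⟨10000 * C + 100 * K, by positivity, fun N hN k hk hkR => ?_⟩
  obtain ⟨m, rfl⟩ : ∃ m, k = m + 1 := ⟨k - 1, by omega⟩
  rw [Nat.add_sub_cancel]
  obtain ⟨l, hl⟩ : ∃ l, l = loglog N := ⟨_, rfl⟩
  obtain ⟨L, hL⟩ : ∃ L, L = Real.log N := ⟨_, rfl⟩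
  have hl1 : 1 ≤ l := hl ▸ one_le_loglog hN
  have hL1 : 1 ≤ L := hL ▸ one_le_log_natCast (by omega)
  have hcube := loglog_cube_le hN
  have hM' := fun z hz => hM z hz N (by omega)
  rw [← hl, ← hL] at hcube
  rw [← hl] at hkR ⊢
  obtain ⟨U, hU⟩ : ∃ U : ℝ, U = (N : ℝ) / L := ⟨_, rfl⟩
  have hU0 : 0 ≤ U := hU ▸ by positivity
  have hscale : omegaScale N m = U * (l ^ m / m.factorial) := by rw [omegaScale, hU, hL, hl]
  have hLpow : ∀ r : ℝ, (N : ℝ) * L ^ (r - 5 / 4) = U * (L ^ r * L ^ (-(1 / 4) : ℝ)) := fun r => by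
    rw [hU, show r - 5 / 4 = r + -(1 / 4) - 1 by ring, Real.rpow_sub_one (by linarith),
      Real.rpow_add (by linarith)]
    ring
  have hexpL : ∀ r : ℝ, L ^ r = Real.exp (r * l) := fun r => by
    rw [Real.rpow_def_of_pos (by linarith), hl, loglog, hL, mul_comm]
  rcases Nat.eq_zero_or_pos m with rfl | hm
  · have hr1 : 1 / l ≤ 1 := by
      rw [div_le_one (by linarith)]
      exact hl1
    have hrl : 1 / l * loglog N = 1 := by rw [← hl]; field_simp
    have h := abs_count_sub_le (R := R') (C := C) (K := K) (N := N) (m := 0) (r := 1 / l) (a := 0)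
      hN (by positivity) (hr1.trans hR1) (by simpa using zero_le_one.trans hR1) hM' hT ?_
      (B := (1 / l) ^ 2 * Real.exp 1 * (2 * π)) ?_
    · rw [hrl, pow_one, Nat.factorial_zero, Nat.cast_one, ← hL, mul_assoc C, hLpow,
        abs_of_pos hK, Complex.ofReal_zero, selConst_zero, Complex.one_re, ← hU] at h
      rw [hscale, pow_zero, Nat.factorial_zero, Nat.cast_one, Nat.cast_zero, zero_div,
        Complex.ofReal_zero, selConst_zero, Complex.one_re]
      have e : |(omegaCount N (0 + 1) : ℝ) - U * (1 / 1) * 1| ≤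
          C * (U * (L ^ (1 / l) * L ^ (-(1 / 4) : ℝ))) * l +
            U * K * ((1 / l) ^ 2 * Real.exp 1 * (2 * π)) := by
        refine le_of_mul_le_mul_left (le_trans (le_of_eq ?_) (h.trans (le_of_eq ?_)))
          (show 0 < 1 / l by positivity)
        · rw [← abs_of_pos (show 0 < 1 / l by positivity), ← abs_mul,
            abs_of_pos (show 0 < 1 / l by positivity)]
          simp only [pow_zero, zero_add]
          ring_nf
        · field_simp
      refine e.trans ?_
      rw [hexpL, one_div_mul_cancel (by linarith)]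
      have he : Real.exp 1 ≤ 3 := by linarith [Real.exp_one_lt_d9]
      have h1 : C * (U * (Real.exp 1 * L ^ (-(1 / 4) : ℝ))) * l ≤
          C * (U * (3 * (1728 / l ^ 3))) * l := by gcongr
      have h2 : U * K * ((1 / l) ^ 2 * Real.exp 1 * (2 * π)) ≤
          U * K * ((1 / l) ^ 2 * 3 * (2 * 4)) := by
        gcongr
        exact Real.pi_le_four
      have e3 : C * (U * (3 * (1728 / l ^ 3))) * l = 5184 * (C * (U * (1 / l ^ 2))) := by
        field_simp
        ring
      have h0 : 0 ≤ C * (U * (1 / l ^ 2)) := by positivity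
      have h0' : 0 ≤ K * (U * (1 / l ^ 2)) := by positivity
      rw [show U * K * ((1 / l) ^ 2 * 3 * (2 * 4)) = 24 * (K * (U * (1 / l ^ 2))) by ring] at h2
      linarith
    · rw [Nat.cast_zero, neg_zero]
      simp only [zpow_zero, mul_one, Complex.ofReal_zero, sub_zero]
      rw [show (fun θ : ℝ => ((1 / l : ℝ) : ℂ) * unitPt θ *
          Complex.exp (((1 / l * loglog N : ℝ) : ℂ) * unitPt θ)) = fun θ => ((1 / l : ℝ) : ℂ) *
          (Complex.exp (((1 / l * loglog N : ℝ) : ℂ) * unitPt θ) * unitPt θ) from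
        funext fun θ => by ring, intervalIntegral.integral_const_mul, integral_exp_unitPt_pos,
        mul_zero]
    · refine (intervalIntegral.integral_mono_on (g := fun _ => (1 / l) ^ 2 * Real.exp 1)
        (by linarith [Real.pi_pos]) (Continuous.intervalIntegrable ?_ _ _) intervalIntegrable_const
        fun θ _ => ?_).trans (le_of_eq ?_)
      · exact (((continuous_const.mul continuous_unitPt).sub continuous_const).norm.pow 2).mul
          (by fun_prop)
      · rw [Complex.ofReal_zero, sub_zero, norm_mul, norm_unitPt, mul_one, Complex.norm_real,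
          Real.norm_eq_abs, sq_abs, hrl, one_mul]
        exact mul_le_mul_of_nonneg_left (Real.exp_le_exp.2 (Real.cos_le_one θ)) (sq_nonneg _)
      · rw [intervalIntegral.integral_const, smul_eq_mul]
        ring
  · obtain ⟨r, hr⟩ : ∃ r, r = (m : ℝ) / l := ⟨_, rfl⟩
    have hm1 : (1 : ℝ) ≤ m := by exact_mod_cast hm
    have hr0 : 0 < r := by rw [hr]; positivity
    have hrl : r * loglog N = m := by rw [← hl, hr]; field_simp
    have hrR : r ≤ R' := by
      rw [hr, div_le_iff₀ (by linarith)]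
      refine le_trans ?_ (mul_le_mul_of_nonneg_right (hR' ▸ le_max_right 1 R) (by linarith))
      push_cast at hkR
      linarith
    have h := abs_count_sub_le (R := R') (C := C) (K := K) (N := N) (m := m) (r := r) (a := r)
      hN hr0 hrR (by rwa [abs_of_pos hr0]) hM' hT ?_
      (B := 8 * r ^ 2 * Real.exp m / (m * √(m : ℝ)) * π) ?_
    · rw [hrl, ← hL, mul_assoc C, hLpow, hexpL, show r * l = m by rw [← hrl, hl],
        abs_of_pos hK, ← hU] at h
      rw [← hr, hscale]
      obtain ⟨Y, hY⟩ : ∃ Y : ℝ, Y = (m : ℝ) ^ m / m.factorial := ⟨_, rfl⟩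
      have hYl : r ^ m * (l ^ m / m.factorial) = Y := by
        rw [hY, ← mul_div_assoc, ← mul_pow, hl, hrl]
      have hY0 : 0 ≤ Y := hY ▸ by positivity
      have hst := exp_le_pow_div_factorial hm
      rw [← hY] at hst h
      have hsm : 0 < √(m : ℝ) := Real.sqrt_pos.2 (by linarith)
      have hsm2 : √(m : ℝ) ≤ m := Real.sqrt_le_self_iff.2 (Or.inr hm1)
      have hrm : r * (1 / l ^ 2) * ((m : ℝ) + 1) = m * ((m : ℝ) + 1) / l ^ 3 := by
        rw [hr]
        field_simp
      have h1 : C * (U * (Real.exp m * L ^ (-(1 / 4) : ℝ))) ≤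
          C * (U * (3 * √(m : ℝ) * Y * (1728 / l ^ 3))) := by
        gcongr
      have h1' : √(m : ℝ) * (1728 / l ^ 3) ≤ 1728 * (r * (1 / l ^ 2) * ((m : ℝ) + 1)) := by
        rw [hrm, mul_div_assoc', mul_div_assoc']
        refine div_le_div_of_nonneg_right ?_ (by positivity)
        nlinarith
      have h2 : Real.exp m / ((m : ℝ) * √(m : ℝ)) ≤ 3 * Y / m := by
        rw [div_le_div_iff₀ (by positivity) (by linarith)]
        calc Real.exp m * m ≤ 3 * √(m : ℝ) * Y * m := by gcongr
          _ = _ := by ring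
      have h2' : r ^ 2 / m ≤ ((m : ℝ) + 1) * (1 / l ^ 2) := by
        rw [show r ^ 2 / m = m * (1 / l ^ 2) by rw [hr]; field_simp]
        exact mul_le_mul_of_nonneg_right (by linarith) (by positivity)
      have hB1 : U * r * K * (8 * r ^ 2 * Real.exp m / (m * √(m : ℝ)) * π) ≤
          96 * (K * (U * (r * Y * (((m : ℝ) + 1) * (1 / l ^ 2))))) := by
        calc U * r * K * (8 * r ^ 2 * Real.exp m / (m * √(m : ℝ)) * π)
            = 8 * π * (U * r * K * r ^ 2 * (Real.exp m / (m * √(m : ℝ)))) := by ring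
          _ ≤ 8 * 4 * (U * r * K * r ^ 2 * (3 * Y / m)) := by
              gcongr
              exact Real.pi_le_four
          _ = 96 * (K * (U * (r * Y * (r ^ 2 / m)))) := by ring
          _ ≤ _ := by gcongr
      have hA1 : C * (U * (Real.exp m * L ^ (-(1 / 4) : ℝ))) ≤
          5184 * (C * (U * (r * Y * (((m : ℝ) + 1) * (1 / l ^ 2))))) := by
        refine h1.trans ?_
        calc C * (U * (3 * √(m : ℝ) * Y * (1728 / l ^ 3)))
            = 3 * (C * (U * Y)) * (√(m : ℝ) * (1728 / l ^ 3)) := by ring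
          _ ≤ 3 * (C * (U * Y)) * (1728 * (r * (1 / l ^ 2) * ((m : ℝ) + 1))) := by gcongr
          _ = _ := by ring
      refine le_of_mul_le_mul_left ?_ (show 0 < r ^ (m + 1) by positivity)
      have hpos : 0 < r ^ (m + 1) := by positivity
      calc r ^ (m + 1) * |(omegaCount N (m + 1) : ℝ) -
            U * (l ^ m / m.factorial) * (selConst (r : ℂ)).re|
          = |r ^ (m + 1) * omegaCount N (m + 1) - U * r * Y * (selConst (r : ℂ)).re| := by
            rw [← abs_of_pos hpos, ← abs_mul, abs_of_pos hpos, mul_sub, ← hYl]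
            ring_nf
        _ ≤ 5184 * (C * (U * (r * Y * (((m : ℝ) + 1) * (1 / l ^ 2))))) +
            96 * (K * (U * (r * Y * (((m : ℝ) + 1) * (1 / l ^ 2))))) :=
            h.trans (add_le_add hA1 hB1)
        _ ≤ (10000 * C + 100 * K) * (U * (r * Y * (((m : ℝ) + 1) * (1 / l ^ 2)))) := by
            have h0 : 0 ≤ C * (U * (r * Y * (((m : ℝ) + 1) * (1 / l ^ 2)))) := by positivity
            have h0' : 0 ≤ K * (U * (r * Y * (((m : ℝ) + 1) * (1 / l ^ 2)))) := by positivity
            linarith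
        _ = _ := by
            rw [← hYl]
            push_cast
            ring
    · rw [hrl]
      obtain ⟨f, hf⟩ : ∃ f : ℝ → ℂ, f = fun θ =>
          Complex.exp (((m : ℝ) : ℂ) * unitPt θ) := ⟨_, rfl⟩
      have hfc : Continuous f := hf ▸ Complex.continuous_exp.comp
        (continuous_const.mul continuous_unitPt)
      have hz : ∀ j : ℤ, Continuous fun θ => f θ * unitPt θ ^ j := fun j =>
        hfc.mul (continuous_unitPt.zpow₀ _ fun θ => Or.inl (unitPt_ne_zero θ))
      rw [show (fun θ : ℝ => ((r : ℂ) * unitPt θ - (r : ℂ)) *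
          (Complex.exp (((m : ℝ) : ℂ) * unitPt θ) * unitPt θ ^ (-(m : ℤ)))) = fun θ =>
          (r : ℂ) * (f θ * unitPt θ ^ (-((m - 1 : ℕ) : ℤ))) -
            (r : ℂ) * (f θ * unitPt θ ^ (-(m : ℤ))) from funext fun θ => by
        rw [show (-((m - 1 : ℕ) : ℤ)) = 1 + -(m : ℤ) by omega, zpow_add₀ (unitPt_ne_zero θ),
          zpow_one, hf]
        ring,
        intervalIntegral.integral_sub
          ((show Continuous fun θ => (r : ℂ) * (f θ * unitPt θ ^ (-((m - 1 : ℕ) : ℤ))) from
            continuous_const.mul (hz _)).intervalIntegrable _ _)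
          ((show Continuous fun θ => (r : ℂ) * (f θ * unitPt θ ^ (-(m : ℤ))) from
            continuous_const.mul (hz _)).intervalIntegrable _ _),
        intervalIntegral.integral_const_mul, intervalIntegral.integral_const_mul, hf]
      simp only
      rw [integral_exp_unitPt, integral_exp_unitPt, ← mul_sub, ← sub_mul, ← Complex.ofReal_sub]
      obtain ⟨j, rfl⟩ : ∃ j, m = j + 1 := ⟨m - 1, by omega⟩
      rw [Nat.add_sub_cancel, Nat.factorial_succ, Nat.cast_mul, pow_succ]
      have hj : ((j + 1 : ℕ) : ℝ) ≠ 0 := by positivity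
      have hjf : ((j.factorial : ℕ) : ℝ) ≠ 0 := by positivity
      rw [show ((j + 1 : ℕ) : ℝ) ^ j / (j.factorial : ℝ) -
        ((j + 1 : ℕ) : ℝ) ^ j * ((j + 1 : ℕ) : ℝ) /
          (((j + 1 : ℕ) : ℝ) * (j.factorial : ℝ)) = 0 by field_simp; ring]
      simp
    · rw [hrl]
      calc ∫ θ in (-π)..π, ‖(r : ℂ) * unitPt θ - (r : ℂ)‖ ^ 2 *
            Real.exp ((m : ℝ) * Real.cos θ)
          = 2 * r ^ 2 * ∫ θ in (-π)..π, (1 - Real.cos θ) * Real.exp ((m : ℝ) * Real.cos θ) := by
            rw [← intervalIntegral.integral_const_mul]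
            refine intervalIntegral.integral_congr fun θ _ => ?_
            rw [← mul_sub_one, norm_mul, mul_pow, norm_unitPt_sub_one_sq, Complex.norm_real,
              Real.norm_eq_abs, sq_abs]
            ring
        _ ≤ 2 * r ^ 2 * (4 * Real.exp m / (m * √(m : ℝ)) * π) :=
            mul_le_mul_of_nonneg_left (integral_saddle_le (by linarith)) (by positivity)
        _ = _ := by ring

end FA.SatheSelberg

end
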