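import Fermat.Agent.SatheSelberg.Constant

/-!
# The mean value of `z ^ ω n`

`∑_{n ≤ N} z ^ ω n = z φ z N (log N) ^ (z - 1) + O (N (log N) ^ (|z| - 5/4))` for bounded `z`.
-/

set_option autoImplicit false

noncomputable section

namespace FA.SatheSelberg

open Finset Filter
open scoped Topology

/-- **The logarithmic mean.** -/
theorem exists_mean_asymptotic (R : ℝ) (hR : 1 ≤ R) : ∃ C : ℝ, 0 < C ∧ ∀ z : ℂ, ‖z‖ ≤ R →
    ∀ N : ℕ, 3 ≤ N →
      ‖omegaMean z N - selConst z * (Real.log N : ℂ) ^ z‖ ≤ C * Real.log N ^ (‖z‖ - 1 / 4) := by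
  obtain ⟨C, hC, hmain⟩ := exists_mean_main R hR
  obtain ⟨D, hD, hsmall⟩ := exists_mean_small R hR
  obtain ⟨K, hK, hφ⟩ := exists_selConst_le R
  refine ⟨C + D + K, by positivity, fun z hz N hN => ?_⟩
  have hL := one_le_log_natCast hN
  have hre := Complex.re_le_norm z
  have hP : 0 ≤ Real.log N ^ (‖z‖ - 1 / 4) := Real.rpow_nonneg (by linarith) _
  rcases le_or_gt (‖z‖ - 1 / 2) z.re with h | h
  · obtain ⟨a, ha⟩ := hmain z hz h
    rw [← mean_constant_eq h ha]
    refine (ha N hN).trans (mul_le_mul (by linarith)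
      (Real.rpow_le_rpow_of_exponent_le hL (by linarith)) (Real.rpow_nonneg (by linarith) _)
      (by positivity))
  · refine (norm_sub_le _ _).trans ?_
    rw [norm_mul, Complex.norm_cpow_eq_rpow_re_of_pos (by linarith)]
    have h1 := hsmall z hz h N hN
    have h2 := mul_le_mul (hφ z hz) (Real.rpow_le_rpow_of_exponent_le hL
      (show z.re ≤ ‖z‖ - 1 / 4 by linarith)) (Real.rpow_nonneg (by linarith) _) hK.le
    have h3 := mul_nonneg hC.le hP
    linarith

/-- **The mean value.** -/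
theorem exists_omegaSum_asymptotic (R : ℝ) (hR : 1 ≤ R) : ∃ C : ℝ, 0 < C ∧ ∀ z : ℂ, ‖z‖ ≤ R →
    ∀ N : ℕ, 3 ≤ N → ‖omegaSum z N - z * selConst z * (N : ℂ) * (Real.log N : ℂ) ^ (z - 1)‖ ≤
      C * N * Real.log N ^ (‖z‖ - 5 / 4) := by
  obtain ⟨C, hC, hS⟩ := exists_mean_asymptotic R hR
  obtain ⟨D, hD, hM⟩ := exists_sum_recursion R hR
  refine ⟨R * C + D * 2 ^ R, by positivity, fun z hz N hN => ?_⟩
  obtain ⟨L, hL⟩ : ∃ L, L = Real.log N := ⟨_, rfl⟩
  have hL1 : 1 ≤ L := hL ▸ one_le_log_natCast hN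
  have hS' := hS z hz N hN
  have hM' := hM z hz N (by omega)
  rw [← hL] at hS' hM' ⊢
  have hLc : (L : ℂ) ≠ 0 := Complex.ofReal_ne_zero.2 (by linarith)
  have hN0 : (0 : ℝ) ≤ N := Nat.cast_nonneg N
  have hele : elog N ^ (‖z‖ - 1) ≤ 2 ^ R * L ^ (‖z‖ - 1) := by
    rcases le_or_gt (‖z‖ - 1) 0 with h | h
    · refine (Real.rpow_le_rpow_of_nonpos (by linarith) ?_ h).trans
        (le_mul_of_one_le_left (Real.rpow_nonneg (by linarith) _)
          (Real.one_le_rpow one_le_two (by linarith)))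
      rw [elog, hL]
      linarith
    · exact hL ▸ elog_rpow_le hN h.le (by linarith)
  rw [show omegaSum z N - z * selConst z * (N : ℂ) * (L : ℂ) ^ (z - 1) =
      ((omegaSum z N * (L : ℂ) - z * (N : ℂ) * omegaMean z N) +
        z * (N : ℂ) * (omegaMean z N - selConst z * (L : ℂ) ^ z)) / (L : ℂ) by
    rw [Complex.cpow_sub _ _ hLc, Complex.cpow_one]
    field_simp
    ring, norm_div, Complex.norm_real, Real.norm_eq_abs, abs_of_pos (show 0 < L by linarith),
    div_le_iff₀ (by linarith)]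
  refine (norm_add_le _ _).trans ?_
  rw [norm_mul, norm_mul, Complex.norm_natCast]
  obtain ⟨P, hP⟩ : ∃ P, P = L ^ (‖z‖ - 1 / 4) := ⟨_, rfl⟩
  have hP0 : 0 ≤ P := hP ▸ Real.rpow_nonneg (by linarith) _
  have e : L ^ (‖z‖ - 5 / 4) * L = P := by
    rw [hP, ← Real.rpow_add_one (by linarith : L ≠ 0)]
    norm_num
    ring_nf
  have h1 : D * N * elog N ^ (‖z‖ - 1) ≤ D * N * (2 ^ R * P) := by
    refine mul_le_mul_of_nonneg_left (hele.trans (mul_le_mul_of_nonneg_left ?_ (by positivity)))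
      (by positivity)
    rw [hP]
    exact Real.rpow_le_rpow_of_exponent_le hL1 (by linarith)
  have h2 : ‖z‖ * N * ‖omegaMean z N - selConst z * (L : ℂ) ^ z‖ ≤ R * N * (C * P) :=
    mul_le_mul (mul_le_mul_of_nonneg_right hz hN0) (hP ▸ hS') (norm_nonneg _) (by positivity)
  rw [mul_assoc _ (L ^ (‖z‖ - 5 / 4)), e]
  linarith

end FA.SatheSelberg

end
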